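/-
S25 / blocks X, H: shared definitions.  Owner: helper25.  FROZEN INTERFACE (no sorry).
-/
import Fermat.Agent.S25.AlgSpec
import Fermat.Agent.S25.Triple.BC
import Fermat.Agent.S25.Triple.Tensor
import Fermat.Agent.S25.Triple.IHom
import Fermat.Agent.S25.Triple.Div

set_option autoImplicit false

universe u

open scoped TensorProduct

namespace Fermat.Agent.S25

open Triple

variable {k : Type u} [Field k] {𝔠 : CurveCharts k}

/-- `V(I) ⊆ W₁ × Spec A` is a relative effective divisor of degree `r`: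
finite locally free of rank `r` over `A`. -/
structure IsDiv (A : Type u) [CommRing A] [Algebra k A] (I : Ideal (𝔠.R₁ A)) (r : ℕ) : Prop where
  finite : Module.Finite A (𝔠.R₁ A ⧸ I)
  proj : Module.Projective A (𝔠.R₁ A ⧸ I)
  rank : ∀ p : PrimeSpectrum A, Module.rankAtStalk (R := A) (𝔠.R₁ A ⧸ I) p = r

/-- the same in the second chart -/
structure IsDiv₂ (A : Type u) [CommRing A] [Algebra k A] (I : Ideal (𝔠.R₂ A)) (r : ℕ) : Prop where
  finite : Module.Finite A (𝔠.R₂ A ⧸ I)
  proj : Module.Projective A (𝔠.R₂ A ⧸ I)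
  rank : ∀ p : PrimeSpectrum A, Module.rankAtStalk (R := A) (𝔠.R₂ A ⧸ I) p = r

/-- `T` lies in the chart attached to the constant bundle `E` (of degree `g`):
`ℋom(T, E)(-P₀)` has no cohomology. -/
def NS (E : Triple 𝔠 k) {A : Type u} [CommRing A] [Algebra k A] (T : Triple 𝔠 A) : Prop :=
  Function.Bijective ((ihom T (E.const A)).tensor (IP0 𝔠 A)).δ

/-- degree of `D_∞ = (x)_∞` -/
noncomputable def CurveCharts.degInf (𝔠 : CurveCharts k) : ℕ :=
  Module.finrank k (𝔠.B₂ ⧸ Ideal.span {𝔠.y})

/-- degree of a line bundle over a field -/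
noncomputable def Triple.deg {K : Type u} [Field K] [Algebra k K] (T : Triple 𝔠 K) : ℤ :=
  T.chi - (unit 𝔠 K).chi

/-- iterated tensor product -/
noncomputable def Triple.tensorList {A : Type u} [CommRing A] [Algebra k A] :
    List (Triple 𝔠 A) → Triple 𝔠 A
  | [] => unit 𝔠 A
  | T :: l => T.tensor (tensorList l)

end Fermat.Agent.S25
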