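/-
S25 / block H4 (atlas): abstract calculus of "loci".  Owner: helper86.  Mathlib only.

A predicate `P` on `A`-algebras `ψ : A → A'` is *represented* by a subset `V ⊆ Spec A` if `P ψ` holds
iff `Spec A' → Spec A` lands in `V`.  Main result `exists_rep_of_local`: representability by an open
subset can be checked after restricting to an open locus on which an auxiliary predicate holds.
-/
import Mathlib

set_option autoImplicit false

universe u

namespace Fermat.Agent.S25.Locus

variable {k : Type u} [Field k]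

/-- `V` represents the predicate `P` on `A`-algebras. -/
def Rep {A : Type u} [CommRing A] [Algebra k A]
    (P : ∀ (A' : Type u) [CommRing A'] [Algebra k A'], (A →ₐ[k] A') → Prop)
    (V : Set (PrimeSpectrum A)) : Prop :=
  ∀ (A' : Type u) [CommRing A'] [Algebra k A'] (ψ : A →ₐ[k] A'),
    (∀ p : PrimeSpectrum A', PrimeSpectrum.comap ψ.toRingHom p ∈ V) ↔ P A' ψ

section Basic

variable {A : Type u} [CommRing A] [Algebra k A]

/-- the residue field map as a `k`-algebra homomorphism -/
noncomputable def res (p : PrimeSpectrum A) : A →ₐ[k] p.asIdeal.ResidueField :=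
  IsScalarTower.toAlgHom k A p.asIdeal.ResidueField

theorem comap_res (p : PrimeSpectrum A) (q : PrimeSpectrum p.asIdeal.ResidueField) :
    PrimeSpectrum.comap (res (k := k) p).toRingHom q = p := by
  have hq : q = ⊥ := Subsingleton.elim _ _
  subst hq
  exact PrimeSpectrum.ext (Ideal.ext fun _ => Ideal.algebraMap_residueField_eq_zero)

theorem comap_comp {A' A'' : Type u} [CommRing A'] [Algebra k A'] [CommRing A''] [Algebra k A'']
    (ψ : A →ₐ[k] A') (χ : A' →ₐ[k] A'') (q : PrimeSpectrum A'') :
    PrimeSpectrum.comap (χ.comp ψ).toRingHom q =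
      PrimeSpectrum.comap ψ.toRingHom (PrimeSpectrum.comap χ.toRingHom q) := rfl

theorem mem_comap_bot {K : Type u} [Field K] [Algebra k K] (χ : A →ₐ[k] K) (a : A) :
    a ∈ (PrimeSpectrum.comap χ.toRingHom ⊥).asIdeal ↔ χ a = 0 := by
  change χ a ∈ (⊥ : Ideal K) ↔ _
  exact Ideal.mem_bot

/-- the localisation map as a `k`-algebra homomorphism -/
noncomputable def loc (f : A) : A →ₐ[k] Localization.Away f :=
  IsScalarTower.toAlgHom k A (Localization.Away f)

theorem comap_loc_mem (f : A) (q : PrimeSpectrum (Localization.Away f)) :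
    PrimeSpectrum.comap (loc (k := k) f).toRingHom q ∈
      (PrimeSpectrum.basicOpen f : Set (PrimeSpectrum A)) := by
  rw [← PrimeSpectrum.localization_away_comap_range (Localization.Away f) f]
  exact ⟨q, rfl⟩

theorem isOpenMap_comap_loc (f : A) :
    IsOpenMap (PrimeSpectrum.comap (loc (k := k) f).toRingHom) :=
  (PrimeSpectrum.localization_away_isOpenEmbedding (Localization.Away f) f).isOpenMap

theorem comap_loc_injective (f : A) :
    Function.Injective (PrimeSpectrum.comap (loc (k := k) f).toRingHom) :=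
  PrimeSpectrum.localization_comap_injective (Localization.Away f) (Submonoid.powers f)

/-- lift of `χ : A → A'` with `χ f` a unit to the localisation -/
noncomputable def lift {A' : Type u} [CommRing A'] [Algebra k A'] (f : A) (χ : A →ₐ[k] A')
    (h : IsUnit (χ f)) : Localization.Away f →ₐ[k] A' :=
  IsLocalization.liftAlgHom (M := Submonoid.powers f) (f := χ) (by
    rintro ⟨_, n, rfl⟩
    simpa using h.pow n)

theorem lift_comp_loc {A' : Type u} [CommRing A'] [Algebra k A'] (f : A) (χ : A →ₐ[k] A')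
    (h : IsUnit (χ f)) : (lift f χ h).comp (loc f) = χ := by
  ext a
  simp [lift, loc]

theorem algHom_ext_loc {A' : Type u} [CommRing A'] [Algebra k A'] (f : A)
    {χ χ' : Localization.Away f →ₐ[k] A'} (h : χ.comp (loc f) = χ'.comp (loc f)) : χ = χ' := by
  apply AlgHom.coe_ringHom_injective
  apply IsLocalization.ringHom_ext (Submonoid.powers f)
  ext a
  exact congrArg (fun w => w a) h

theorem isUnit_loc (f : A) : IsUnit (loc (k := k) f f) :=
  IsLocalization.Away.algebraMap_isUnit f

/-- an element is a unit iff it lies in no prime -/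
theorem isUnit_iff_forall_notMem (a : A) :
    IsUnit a ↔ ∀ p : PrimeSpectrum A, a ∉ p.asIdeal := by
  constructor
  · intro h p hp
    exact p.2.ne_top (Ideal.eq_top_of_isUnit_mem _ hp h)
  · intro h
    by_contra hu
    obtain ⟨m, hm, ham⟩ := exists_max_ideal_of_mem_nonunits hu
    exact h ⟨m, hm.isPrime⟩ ham

/-- the unit locus -/
theorem rep_isUnit (a : A) :
    Rep (k := k) (fun _ _ _ ψ => IsUnit (ψ a)) (PrimeSpectrum.basicOpen a : Set (PrimeSpectrum A)) := by
  intro A' _ _ ψ
  show _ ↔ IsUnit (ψ a)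
  rw [isUnit_iff_forall_notMem]
  exact Iff.rfl

/-- a represented predicate is stable under further base change -/
theorem Rep.stable {P : ∀ (A' : Type u) [CommRing A'] [Algebra k A'], (A →ₐ[k] A') → Prop}
    {V : Set (PrimeSpectrum A)} (h : Rep P V) {A' A'' : Type u} [CommRing A'] [Algebra k A']
    [CommRing A''] [Algebra k A''] {ψ : A →ₐ[k] A'} (hψ : P A' ψ) (χ : A' →ₐ[k] A'') :
    P A'' (χ.comp ψ) :=
  (h A'' (χ.comp ψ)).1 fun q => by
    rw [comap_comp]
    exact (h A' ψ).2 hψ _

/-- a represented predicate can be checked on residue fields -/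
theorem Rep.of_res {P : ∀ (A' : Type u) [CommRing A'] [Algebra k A'], (A →ₐ[k] A') → Prop}
    {V : Set (PrimeSpectrum A)} (h : Rep P V) {A' : Type u} [CommRing A'] [Algebra k A']
    {ψ : A →ₐ[k] A'} (hψ : ∀ p : PrimeSpectrum A', P _ ((res p).comp ψ)) : P A' ψ := by
  refine (h A' ψ).1 fun p => ?_
  have := (h _ ((res p).comp ψ)).2 (hψ p) ⊥
  rwa [comap_comp, comap_res] at this

theorem Rep.mem_iff {P : ∀ (A' : Type u) [CommRing A'] [Algebra k A'], (A →ₐ[k] A') → Prop}
    {V : Set (PrimeSpectrum A)} (h : Rep P V) {K : Type u} [Field K] [Algebra k K]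
    (χ : A →ₐ[k] K) : PrimeSpectrum.comap χ.toRingHom ⊥ ∈ V ↔ P K χ := by
  rw [← h K χ]
  constructor
  · intro h p
    rwa [Subsingleton.elim p ⊥]
  · intro h
    exact h ⊥

end Basic

section Main

variable {A : Type u} [CommRing A] [Algebra k A]

/-- **Gluing of loci.**  If `P₁` is represented by an open subset, `P₂` implies `P₁`, and over every
`A'` on which `P₁` holds `P₂` is represented by an open subset of `Spec A'`, then `P₂` is represented
by an open subset of `Spec A`. -/
theorem exists_rep_of_local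
    (P₁ P₂ : ∀ (A' : Type u) [CommRing A'] [Algebra k A'], (A →ₐ[k] A') → Prop)
    (V₁ : Set (PrimeSpectrum A)) (hV₁ : IsOpen V₁) (h₁ : Rep P₁ V₁)
    (h21 : ∀ (A' : Type u) [CommRing A'] [Algebra k A'] (ψ : A →ₐ[k] A'), P₂ A' ψ → P₁ A' ψ)
    (hloc : ∀ (A' : Type u) [CommRing A'] [Algebra k A'] (ψ : A →ₐ[k] A'), P₁ A' ψ →
      ∃ W : Set (PrimeSpectrum A'), IsOpen W ∧
        Rep (fun A'' _ _ (χ : A' →ₐ[k] A'') => P₂ A'' (χ.comp ψ)) W) :
    ∃ V₂ : Set (PrimeSpectrum A), IsOpen V₂ ∧ Rep P₂ V₂ := by
  classical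
  -- the local loci
  let W : ∀ f : A, P₁ _ (loc f) → Set (PrimeSpectrum (Localization.Away f)) :=
    fun f hf => (hloc _ (loc f) hf).choose
  have hWo : ∀ f hf, IsOpen (W f hf) := fun f hf => (hloc _ (loc f) hf).choose_spec.1
  have hWr : ∀ f hf, Rep (fun A'' _ _ (χ : Localization.Away f →ₐ[k] A'') =>
      P₂ A'' (χ.comp (loc f))) (W f hf) := fun f hf => (hloc _ (loc f) hf).choose_spec.2
  refine ⟨⋃ (f : A) (hf : P₁ _ (loc f)), PrimeSpectrum.comap (loc (k := k) f).toRingHom '' W f hf,
    isOpen_iUnion fun f => isOpen_iUnion fun hf => isOpenMap_comap_loc f _ (hWo f hf), ?_⟩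
  intro A' _ _ ψ
  constructor
  · intro hall
    -- all points land in `V₁`
    have hP₁ : P₁ A' ψ := by
      refine (h₁ A' ψ).1 fun p => ?_
      obtain ⟨f, hf, q, -, hq⟩ := by simpa only [Set.mem_iUnion, Set.mem_image] using hall p
      rw [← hq]
      exact (h₁ _ (loc f)).2 hf q
    obtain ⟨W', -, hW'⟩ := hloc A' ψ hP₁
    have key : P₂ A' ((AlgHom.id k A').comp ψ) := by
      refine hW'.of_res (ψ := AlgHom.id k A') fun p => ?_
      obtain ⟨f, hf, q, hqW, hq⟩ := by simpa only [Set.mem_iUnion, Set.mem_image] using hall p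
      -- `A → κ(p)` factors through `A_f`
      have hfp : IsUnit (((res p).comp ψ) f) := by
        rw [isUnit_iff_ne_zero]
        intro h0
        have h1 : f ∈ (PrimeSpectrum.comap ((res p).comp ψ).toRingHom ⊥).asIdeal :=
          (mem_comap_bot _ _).2 h0
        rw [comap_comp, comap_res, ← hq] at h1
        exact comap_loc_mem f q h1
      have hq' : PrimeSpectrum.comap (lift f ((res p).comp ψ) hfp).toRingHom ⊥ = q := by
        apply comap_loc_injective (k := k) f
        rw [← comap_comp, lift_comp_loc, comap_comp, comap_res, hq]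
      have := ((hWr f hf).mem_iff (lift f ((res p).comp ψ) hfp)).1 (by rw [hq']; exact hqW)
      rw [lift_comp_loc] at this
      exact this
    exact key
  · intro hP₂ p
    have hP₁ : P₁ A' ψ := h21 A' ψ hP₂
    have hpV : PrimeSpectrum.comap ψ.toRingHom p ∈ V₁ := (h₁ A' ψ).2 hP₁ p
    obtain ⟨_, ⟨f, rfl⟩, hpf, hfV⟩ :=
      PrimeSpectrum.isTopologicalBasis_basic_opens.exists_subset_of_mem_open hpV hV₁
    have hf : P₁ _ (loc f) := (h₁ _ (loc f)).1 fun q => hfV (comap_loc_mem f q)
    -- stability of `P₂`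
    obtain ⟨W', -, hW'⟩ := hloc A' ψ hP₁
    have hst : P₂ _ ((res p).comp ψ) := hW'.stable (ψ := AlgHom.id k A') hP₂ (res p)
    have hfp : IsUnit (((res p).comp ψ) f) := by
      rw [isUnit_iff_ne_zero]
      intro h0
      have h1 : f ∈ (PrimeSpectrum.comap ((res p).comp ψ).toRingHom ⊥).asIdeal :=
        (mem_comap_bot _ _).2 h0
      rw [comap_comp, comap_res] at h1
      exact hpf h1
    simp only [Set.mem_iUnion, Set.mem_image]
    refine ⟨f, hf, PrimeSpectrum.comap (lift f ((res p).comp ψ) hfp).toRingHom ⊥, ?_, ?_⟩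
    · rw [(hWr f hf).mem_iff, lift_comp_loc]
      exact hst
    · rw [← comap_comp, lift_comp_loc, comap_comp, comap_res]

end Main

end Fermat.Agent.S25.Locus
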