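/-
S25 / block H4 (atlas), part 2: the input nodes and the basic calculus of `𝒪(-D) ⊗ E`.
Owner: helper86.
-/
import Fermat.Agent.S25.Charts.Defs
import Fermat.Agent.S25.Charts.Locus
import Fermat.Agent.S25.Hilb.BasisLocus
import Fermat.Agent.S25.Triple.BCLemmas
import Fermat.Agent.S25.Triple.TensorBC
import Fermat.Agent.S25.Triple.IsoLemmas

set_option autoImplicit false

universe u

open scoped TensorProduct

namespace Fermat.Agent.S25.Atlas

open Triple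

variable {k : Type u} [Field k]

/-- The nodes of `WIP/ChartsSkeleton.lean` used in the construction of the atlas
(statements verbatim). -/
structure Input (𝔠 : CurveCharts k) : Prop where
  isDiv_map : ∀ {A : Type u} [CommRing A] [Algebra k A] {A' : Type u} [CommRing A'] [Algebra k A']
    {I : Ideal (𝔠.R₁ A)} {r : ℕ} (_ : IsDiv A I r) (φ : A →ₐ[k] A'),
    IsDiv A' (I.map (𝔠.bc₁ φ).toRingHom) r
  idiv_bc : ∀ {A : Type u} [CommRing A] [Algebra k A] {A' : Type u} [CommRing A'] [Algebra k A']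
    {I : Ideal (𝔠.R₁ A)} {r : ℕ} (_ : IsDiv A I r) (φ : A →ₐ[k] A'),
    IsBC φ (Idiv I) (Idiv (I.map (𝔠.bc₁ φ).toRingHom))
  twists : ∃ (n : ℕ) (E : Fin n → Triple 𝔠 k),
    (∀ j, (E j).IsInvertible ∧ (E j).IsRigid ∧ (E j).deg = 𝔠.genus) ∧
    ∀ (K : Type u) [Field K] [Algebra k K] (T : Triple 𝔠 K), T.IsPic0 → ∃ j, NS (E j) T
  ns_locus : ∀ {A : Type u} [CommRing A] [Algebra k A] (E : Triple 𝔠 k) (_ : E.IsInvertible)
    (T : Triple 𝔠 A) (_ : T.IsInvertible), ∃ V : Set (PrimeSpectrum A), IsOpen V ∧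
      ∀ (A' : Type u) [CommRing A'] [Algebra k A'] (ψ : A →ₐ[k] A') (T' : Triple 𝔠 A'),
        IsBC ψ T T' → ((∀ p : PrimeSpectrum A', PrimeSpectrum.comap ψ.toRingHom p ∈ V) ↔ NS E T')
  div_exists : ∀ {A : Type u} [CommRing A] [Algebra k A] (E : Triple 𝔠 k) (_ : E.IsInvertible)
    (_ : E.IsRigid) (_ : E.deg = 𝔠.genus) (T : Triple 𝔠 A) (_ : T.IsPic0) (_ : NS E T),
    ∃ I : Ideal (𝔠.R₁ A), IsDiv A I 𝔠.genus ∧ Nonempty (Iso T ((Idiv I).tensor (E.const A)))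
  div_unique : ∀ {A : Type u} [CommRing A] [Algebra k A] (E : Triple 𝔠 k) (_ : E.IsInvertible)
    (_ : E.IsRigid) (_ : E.deg = 𝔠.genus) {I I' : Ideal (𝔠.R₁ A)} (_ : IsDiv A I 𝔠.genus)
    (_ : IsDiv A I' 𝔠.genus) (_ : NS E ((Idiv I).tensor (E.const A)))
    (_ : Iso ((Idiv I).tensor (E.const A)) ((Idiv I').tensor (E.const A))), I = I'
  pic0 : ∀ {A : Type u} [CommRing A] [Algebra k A] (E : Triple 𝔠 k) (_ : E.IsInvertible)
    (_ : E.IsRigid) {r : ℕ} (_ : E.deg = r) {I : Ideal (𝔠.R₁ A)} (_ : IsDiv A I r),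
    ((Idiv I).tensor (E.const A)).IsPic0
  bases : ∀ g : ℕ, ∃ (n : ℕ) (β : Fin n → (Fin g → 𝔠.B₁)),
    ∀ (K : Type u) [Field K] [Algebra k K] (I : Ideal (𝔠.R₁ K)), IsDiv K I g →
      ∃ j, Function.Bijective (Hilb.basisMap (β j) I)

variable {𝔠 : CurveCharts k}
variable {A A' A'' : Type u} [CommRing A] [Algebra k A] [CommRing A'] [Algebra k A']
  [CommRing A''] [Algebra k A'']

/-- `𝒪(-D) ⊗ E` -/
noncomputable def TT (E : Triple 𝔠 k) (I : Ideal (𝔠.R₁ A)) : Triple 𝔠 A :=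
  (Idiv I).tensor (E.const A)

/-- base change of an ideal of `R₁ A` -/
noncomputable abbrev mapI (φ : A →ₐ[k] A') (I : Ideal (𝔠.R₁ A)) : Ideal (𝔠.R₁ A') :=
  I.map (𝔠.bc₁ φ).toRingHom

theorem mapI_mapI (φ : A →ₐ[k] A') (ψ : A' →ₐ[k] A'') (I : Ideal (𝔠.R₁ A)) :
    mapI ψ (mapI φ I) = mapI (ψ.comp φ) I := by
  unfold mapI
  rw [Ideal.map_map]
  congr 1
  exact RingHom.ext fun z => (𝔠.bc₁_comp φ ψ z).symm

/-- `T.bc (χ ∘ ψ)` is a base change of `T.bc ψ` -/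
theorem isBC_bc_comp (T : Triple 𝔠 A) (ψ : A →ₐ[k] A') (χ : A' →ₐ[k] A'') :
    IsBC χ (T.bc ψ) (T.bc (χ.comp ψ)) :=
  ⟨(bcData χ (T.bc ψ)).ofIso
    (((bcData ψ T).comp (bcData χ (T.bc ψ))).unique (bcData (χ.comp ψ) T))⟩

theorem const_bc (E : Triple 𝔠 k) (φ : A →ₐ[k] A') : IsBC φ (E.const A) (E.const A') := by
  have h : φ.comp (Algebra.ofId k A) = Algebra.ofId k A' := Subsingleton.elim _ _
  have := isBC_bc_comp E (Algebra.ofId k A) φ
  rw [h] at this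
  exact this

theorem TT_bc (H : Input 𝔠) (E : Triple 𝔠 k) {I : Ideal (𝔠.R₁ A)} {r : ℕ} (hI : IsDiv A I r)
    (φ : A →ₐ[k] A') : IsBC φ (TT E I) (TT E (mapI φ I)) := by
  obtain ⟨b⟩ := H.idiv_bc hI φ
  obtain ⟨b'⟩ := const_bc E φ
  exact ⟨b.tensor b'⟩

/-- if `S ≅ 𝒪(-D) ⊗ E` then every base change of `S` is `𝒪(-D') ⊗ E`, `D'` the base change -/
theorem iso_TT_of_isBC (H : Input 𝔠) (E : Triple 𝔠 k) {I : Ideal (𝔠.R₁ A)} {r : ℕ}
    (hI : IsDiv A I r) {S : Triple 𝔠 A} (e : Iso S (TT E I)) {φ : A →ₐ[k] A'} {S' : Triple 𝔠 A'}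
    (hS' : IsBC φ S S') : Nonempty (Iso S' (TT E (mapI φ I))) := by
  obtain ⟨b⟩ := TT_bc H E hI φ
  obtain ⟨b'⟩ := hS'
  exact ⟨b'.unique (b.ofIsoLeft e)⟩

section NS

variable (H : Input 𝔠) {E : Triple 𝔠 k} (hE : E.IsInvertible)
include H hE

theorem NS_bc {T : Triple 𝔠 A} (hT : T.IsInvertible) {φ : A →ₐ[k] A'} {T' : Triple 𝔠 A'}
    (hb : IsBC φ T T') (h : NS E T) : NS E T' := by
  obtain ⟨V, -, hV⟩ := H.ns_locus E hE T hT
  have h1 := (hV A (AlgHom.id k A) T ⟨BaseChange.id T⟩).2 h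
  exact (hV A' φ T' hb).1 fun p => by
    have := h1 (PrimeSpectrum.comap φ.toRingHom p)
    rwa [show PrimeSpectrum.comap (AlgHom.id k A).toRingHom (PrimeSpectrum.comap φ.toRingHom p) =
      PrimeSpectrum.comap φ.toRingHom p from PrimeSpectrum.ext (Ideal.comap_id _)] at this

theorem NS_iso {T T' : Triple 𝔠 A} (hT : T.IsInvertible) (e : Iso T T') (h : NS E T) : NS E T' :=
  NS_bc H hE hT ⟨BaseChange.ofIsoId e⟩ h

end NS

section Unique

variable (H : Input 𝔠) {E : Triple 𝔠 k} (hE : E.IsInvertible) (hEr : E.IsRigid)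
  (hEd : E.deg = 𝔠.genus)
include H hE hEr hEd

/-- the divisor of a bundle in the chart is unique -/
theorem ideal_unique {S : Triple 𝔠 A} (hS : S.IsInvertible) (hNS : NS E S)
    {I I' : Ideal (𝔠.R₁ A)} (hI : IsDiv A I 𝔠.genus) (hI' : IsDiv A I' 𝔠.genus)
    (e : Iso S (TT E I)) (e' : Iso S (TT E I')) : I = I' :=
  H.div_unique E hE hEr hEd hI hI' (NS_iso H hE hS e hNS) (e.symm.trans e')

end Unique

section Hilb

variable {g : ℕ} {β : Fin g → 𝔠.B₁}

theorem isDiv_of_bijective {I : Ideal (𝔠.R₁ A)} (hb : Function.Bijective (Hilb.basisMap β I)) :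
    IsDiv A I g where
  finite := Hilb.quot_finite I hb
  proj := by
    have := Hilb.quot_free I hb
    infer_instance
  rank p := by
    have : Nontrivial A := p.nontrivial
    rw [← Module.rankAtStalk_eq_of_equiv (Hilb.quotEquiv I hb), Module.rankAtStalk_eq_finrank_of_free]
    simp

/-- the classifying map of an ideal -/
noncomputable def classify (I : Ideal (𝔠.R₁ A)) (hb : Function.Bijective (Hilb.basisMap β I)) :
    Hilb.ChartRing k β →ₐ[k] A :=
  (Hilb.homIdealEquiv k β A).symm ⟨I, hb⟩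

theorem mapI_classify (I : Ideal (𝔠.R₁ A)) (hb : Function.Bijective (Hilb.basisMap β I)) :
    mapI (classify I hb) (Hilb.univIdeal k β) = I := by
  have h := Hilb.homIdealEquiv_apply (classify I hb)
  rw [classify, Equiv.apply_symm_apply] at h
  exact h.symm

theorem bijective_mapI_univ (φ : Hilb.ChartRing k β →ₐ[k] A) :
    Function.Bijective (Hilb.basisMap β (mapI φ (Hilb.univIdeal k β))) := by
  have h := (Hilb.homIdealEquiv k β A φ).2
  rw [Hilb.homIdealEquiv_apply] at h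
  exact h

theorem classify_mapI_univ (φ : Hilb.ChartRing k β →ₐ[k] A)
    (hb : Function.Bijective (Hilb.basisMap β (mapI φ (Hilb.univIdeal k β)))) :
    classify _ hb = φ := by
  rw [classify, Equiv.symm_apply_eq]
  exact Subtype.ext (Hilb.homIdealEquiv_apply φ).symm

theorem eq_of_mapI_univ_eq {φ φ' : Hilb.ChartRing k β →ₐ[k] A}
    (h : mapI φ (Hilb.univIdeal k β) = mapI φ' (Hilb.univIdeal k β)) : φ = φ' := by
  apply (Hilb.homIdealEquiv k β A).injective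
  apply Subtype.ext
  rw [Hilb.homIdealEquiv_apply, Hilb.homIdealEquiv_apply]
  exact h

theorem classify_mapI (I : Ideal (𝔠.R₁ A)) (hb : Function.Bijective (Hilb.basisMap β I))
    (χ : A →ₐ[k] A') (hb' : Function.Bijective (Hilb.basisMap β (mapI χ I))) :
    classify (mapI χ I) hb' = χ.comp (classify I hb) := by
  apply eq_of_mapI_univ_eq
  rw [mapI_classify, ← mapI_mapI, mapI_classify]

end Hilb

end Fermat.Agent.S25.Atlas
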