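/-
S25 / block H4 (atlas), part 3: one chart `(E, β, h)`.
Owner: helper86.
-/
import Fermat.Agent.S25.Charts.AtlasBasic

set_option autoImplicit false
set_option linter.unusedSectionVars false

universe u

open scoped TensorProduct

namespace Fermat.Agent.S25.Atlas

open Triple Locus

variable {k : Type u} [Field k] {𝔠 : CurveCharts k}
variable {A A' A'' : Type u} [CommRing A] [Algebra k A] [CommRing A'] [Algebra k A']
  [CommRing A''] [Algebra k A'']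

/-- `S ≅ 𝒪(-D) ⊗ E`, `S` is in the `NS`-locus of `E` and `β` is a basis of `𝒪_D` -/
def Q₂ (E : Triple 𝔠 k) (β : Fin 𝔠.genus → 𝔠.B₁) (S : Triple 𝔠 A) : Prop :=
  ∃ I : Ideal (𝔠.R₁ A), Nonempty (Iso S (TT E I)) ∧ NS E S ∧
    Function.Bijective (Hilb.basisMap β I)

/-- moreover the classifying map of `D` inverts `h` -/
def Q₃ (E : Triple 𝔠 k) (β : Fin 𝔠.genus → 𝔠.B₁) (h : Hilb.ChartRing k β) (S : Triple 𝔠 A) :
    Prop :=
  ∃ (I : Ideal (𝔠.R₁ A)) (hb : Function.Bijective (Hilb.basisMap β I)),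
    Nonempty (Iso S (TT E I)) ∧ NS E S ∧ IsUnit (classify I hb h)

theorem Q₃.toQ₂ {E : Triple 𝔠 k} {β : Fin 𝔠.genus → 𝔠.B₁} {h : Hilb.ChartRing k β}
    {S : Triple 𝔠 A} (hS : Q₃ E β h S) : Q₂ E β S := by
  obtain ⟨I, hb, e, hNS, -⟩ := hS
  exact ⟨I, e, hNS, hb⟩

section

variable (H : Input 𝔠) {E : Triple 𝔠 k} (hE : E.IsInvertible) (hEr : E.IsRigid)
  (hEd : E.deg = 𝔠.genus) (β : Fin 𝔠.genus → 𝔠.B₁)
include H hE hEr hEd

theorem Q₂_iff {S : Triple 𝔠 A} (hS : S.IsInvertible) (hNS : NS E S) {I : Ideal (𝔠.R₁ A)}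
    (hI : IsDiv A I 𝔠.genus) (e : Iso S (TT E I)) {χ : A →ₐ[k] A'} {S' : Triple 𝔠 A'}
    (hS' : IsBC χ S S') :
    Q₂ E β S' ↔ Function.Bijective (Hilb.basisMap β (mapI χ I)) := by
  obtain ⟨e'⟩ := iso_TT_of_isBC H E hI e hS'
  have hNS' : NS E S' := NS_bc H hE hS hS' hNS
  have hinv' : S'.IsInvertible := hS'.some.isInvertible hS
  constructor
  · rintro ⟨J, ⟨eJ⟩, -, hb⟩
    have : J = mapI χ I := ideal_unique H hE hEr hEd hinv' hNS' (isDiv_of_bijective hb)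
      (H.isDiv_map hI χ) eJ e'
    rwa [← this]
  · intro hb
    exact ⟨_, ⟨e'⟩, hNS', hb⟩

theorem Q₃_iff (h : Hilb.ChartRing k β) {S : Triple 𝔠 A} (hS : S.IsInvertible) (hNS : NS E S)
    {I : Ideal (𝔠.R₁ A)} (hb : Function.Bijective (Hilb.basisMap β I)) (e : Iso S (TT E I))
    {χ : A →ₐ[k] A'} {S' : Triple 𝔠 A'} (hS' : IsBC χ S S') :
    Q₃ E β h S' ↔ IsUnit (χ (classify I hb h)) := by
  have hI : IsDiv A I 𝔠.genus := isDiv_of_bijective hb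
  obtain ⟨e'⟩ := iso_TT_of_isBC H E hI e hS'
  have hNS' : NS E S' := NS_bc H hE hS hS' hNS
  have hinv' : S'.IsInvertible := hS'.some.isInvertible hS
  have hb' : Function.Bijective (Hilb.basisMap β (mapI χ I)) := by
    have := bijective_mapI_univ (χ.comp (classify I hb))
    rwa [← mapI_mapI, mapI_classify] at this
  constructor
  · rintro ⟨J, hbJ, ⟨eJ⟩, -, hu⟩
    have : J = mapI χ I := ideal_unique H hE hEr hEd hinv' hNS' (isDiv_of_bijective hbJ)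
      (H.isDiv_map hI χ) eJ e'
    subst this
    rwa [classify_mapI I hb χ hbJ] at hu
  · intro hu
    refine ⟨_, hb', ⟨e'⟩, hNS', ?_⟩
    rwa [classify_mapI I hb χ hb']

/-- **openness of the chart**, in terms of `Q₃` -/
theorem exists_rep_Q₃ (h : Hilb.ChartRing k β) (T : Triple 𝔠 A) (hT : T.IsPic0) :
    ∃ V : Set (PrimeSpectrum A), IsOpen V ∧
      Rep (fun A' _ _ (ψ : A →ₐ[k] A') => Q₃ E β h (T.bc ψ)) V := by
  obtain ⟨V₁, hV₁o, hV₁⟩ := H.ns_locus E hE T hT.inv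
  have h₁ : Rep (fun A' _ _ (ψ : A →ₐ[k] A') => NS E (T.bc ψ)) V₁ :=
    fun A' _ _ ψ => hV₁ A' ψ (T.bc ψ) ⟨bcData ψ T⟩
  obtain ⟨V₂, hV₂o, h₂⟩ := exists_rep_of_local
    (fun A' _ _ (ψ : A →ₐ[k] A') => NS E (T.bc ψ))
    (fun A' _ _ (ψ : A →ₐ[k] A') => Q₂ E β (T.bc ψ)) V₁ hV₁o h₁
    (fun A' _ _ ψ hQ => hQ.choose_spec.2.1)
    (fun A' _ _ ψ hNS => by
      have hpic : (T.bc ψ).IsPic0 := (bcData ψ T).isPic0 hT
      obtain ⟨I, hI, ⟨e⟩⟩ := H.div_exists E hE hEr hEd (T.bc ψ) hpic hNS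
      obtain ⟨W, hWo, hW⟩ := Hilb.exists_basis_locus β I hI.finite hI.proj
      refine ⟨W, hWo, fun A'' _ _ χ => (hW A'' χ).trans ?_⟩
      exact (Q₂_iff H hE hEr hEd β hpic.inv hNS hI e (isBC_bc_comp T ψ χ)).symm)
  exact exists_rep_of_local
    (fun A' _ _ (ψ : A →ₐ[k] A') => Q₂ E β (T.bc ψ))
    (fun A' _ _ (ψ : A →ₐ[k] A') => Q₃ E β h (T.bc ψ)) V₂ hV₂o h₂
    (fun A' _ _ ψ hQ => hQ.toQ₂)
    (fun A' _ _ ψ hQ => by
      have hpic : (T.bc ψ).IsPic0 := (bcData ψ T).isPic0 hT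
      obtain ⟨I, ⟨e⟩, hNS, hb⟩ := hQ
      refine ⟨PrimeSpectrum.basicOpen (classify I hb h), PrimeSpectrum.isOpen_basicOpen,
        fun A'' _ _ χ => (rep_isUnit (classify I hb h) A'' χ).trans ?_⟩
      exact (Q₃_iff H hE hEr hEd β h hpic.inv hNS hb e (isBC_bc_comp T ψ χ)).symm)

omit hEr hEd in
theorem Q₃.of_iso {h : Hilb.ChartRing k β} {S S' : Triple 𝔠 A} (hS : S.IsInvertible)
    (e : Iso S S') (hQ : Q₃ E β h S) : Q₃ E β h S' := by
  obtain ⟨I, hb, ⟨e'⟩, hNS, hu⟩ := hQ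
  exact ⟨I, hb, ⟨e.symm.trans e'⟩, NS_iso H hE hS e hNS, hu⟩

end

/-! ### the chart ring and its universal bundle -/

section Chart

variable (E : Triple 𝔠 k) (β : Fin 𝔠.genus → 𝔠.B₁) (h : Hilb.ChartRing k β)

/-- the universal bundle over the Hilbert chart -/
noncomputable def Uβ : Triple 𝔠 (Hilb.ChartRing k β) := TT E (Hilb.univIdeal k β)

/-- the universal ideal over `(ChartRing k β)[1/h]` -/
noncomputable def Ih : Ideal (𝔠.R₁ (Localization.Away h)) := mapI (loc h) (Hilb.univIdeal k β)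

/-- the universal bundle of the chart `(E, β, h)` -/
noncomputable def Uh : Triple 𝔠 (Localization.Away h) := TT E (Ih β h)

theorem isDiv_univ : IsDiv (𝔠 := 𝔠) (Hilb.ChartRing k β) (Hilb.univIdeal k β) 𝔠.genus :=
  isDiv_of_bijective (Hilb.basisMap_univIdeal_bijective k β)

variable {E β h}

theorem isDiv_Ih (H : Input 𝔠) : IsDiv (Localization.Away h) (Ih β h) 𝔠.genus :=
  H.isDiv_map (isDiv_univ β) (loc h)

theorem mapI_Ih (φ : Localization.Away h →ₐ[k] A) :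
    mapI φ (Ih β h) = mapI (φ.comp (loc h)) (Hilb.univIdeal k β) :=
  mapI_mapI _ _ _

theorem isBC_Uh (H : Input 𝔠) (φ : Localization.Away h →ₐ[k] A) :
    IsBC φ (Uh E β h) (TT E (mapI (φ.comp (loc h)) (Hilb.univIdeal k β))) := by
  rw [← mapI_Ih]
  exact TT_bc H E (isDiv_Ih H) φ

theorem isBC_Uβ (H : Input 𝔠) (φ : Hilb.ChartRing k β →ₐ[k] A) :
    IsBC φ (Uβ E β) (TT E (mapI φ (Hilb.univIdeal k β))) :=
  TT_bc H E (isDiv_univ β) φ

end Chart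

section InChart

variable (H : Input 𝔠) {E : Triple 𝔠 k} (hE : E.IsInvertible) (hEr : E.IsRigid)
  (hEd : E.deg = 𝔠.genus) {β : Fin 𝔠.genus → 𝔠.B₁}
  {Vβ : Set (PrimeSpectrum (Hilb.ChartRing k β))}
  (hVβ : ∀ (A' : Type u) [CommRing A'] [Algebra k A'] (ψ : Hilb.ChartRing k β →ₐ[k] A')
    (T' : Triple 𝔠 A'), IsBC ψ (Uβ E β) T' →
      ((∀ p : PrimeSpectrum A', PrimeSpectrum.comap ψ.toRingHom p ∈ Vβ) ↔ NS E T'))
  {h : Hilb.ChartRing k β} (hh : (PrimeSpectrum.basicOpen h : Set _) ⊆ Vβ)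
include H hE hEr hEd

theorem Uh_isPic0 : (Uh E β h).IsPic0 := H.pic0 E hE hEr hEd (isDiv_Ih H)

include hVβ hh

/-- what a point of the chart gives -/
theorem of_inChart {S : Triple 𝔠 A} (φ : Localization.Away h →ₐ[k] A)
    (hφ : IsBC φ (Uh E β h) S) :
    Nonempty (Iso S (TT E (mapI (φ.comp (loc h)) (Hilb.univIdeal k β)))) ∧ NS E S := by
  obtain ⟨b⟩ := isBC_Uh (E := E) H φ
  obtain ⟨b'⟩ := hφ
  have e := b'.unique b
  refine ⟨⟨e⟩, ?_⟩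
  obtain ⟨c⟩ := isBC_Uβ (E := E) H (φ.comp (loc h))
  refine (hVβ A (φ.comp (loc h)) S ⟨c.ofIso e.symm⟩).1 fun p => hh ?_
  have hu : IsUnit ((φ.comp (loc h)) h) := (isUnit_loc (k := k) h).map φ
  exact (rep_isUnit h A (φ.comp (loc h))).2 hu p

theorem inChart_iff {S : Triple 𝔠 A} :
    (∃ φ : Localization.Away h →ₐ[k] A, IsBC φ (Uh E β h) S) ↔ Q₃ E β h S := by
  constructor
  · rintro ⟨φ, hφ⟩
    obtain ⟨e, hNS⟩ := of_inChart H hE hEr hEd hVβ hh φ hφ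
    refine ⟨_, bijective_mapI_univ _, e, hNS, ?_⟩
    rw [classify_mapI_univ]
    exact (isUnit_loc (k := k) h).map φ
  · rintro ⟨I, hb, ⟨e⟩, -, hu⟩
    refine ⟨lift h (classify I hb) hu, ?_⟩
    obtain ⟨b⟩ := isBC_Uh (E := E) H (lift h (classify I hb) hu)
    rw [lift_comp_loc, mapI_classify] at b
    exact ⟨b.ofIso e.symm⟩

theorem chart_mono (φ φ' : Localization.Away h →ₐ[k] A) (S : Triple 𝔠 A)
    (hφ : IsBC φ (Uh E β h) S) (hφ' : IsBC φ' (Uh E β h) S) : φ = φ' := by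
  obtain ⟨⟨e⟩, hNS⟩ := of_inChart H hE hEr hEd hVβ hh φ hφ
  obtain ⟨⟨e'⟩, -⟩ := of_inChart H hE hEr hEd hVβ hh φ' hφ'
  have hS : S.IsInvertible := hφ.some.isInvertible (Uh_isPic0 H hE hEr hEd).inv
  apply algHom_ext_loc
  apply eq_of_mapI_univ_eq
  exact ideal_unique H hE hEr hEd hS hNS (isDiv_of_bijective (bijective_mapI_univ _))
    (isDiv_of_bijective (bijective_mapI_univ _)) e e'

theorem chart_isOpen (T : Triple 𝔠 A) (hT : T.IsPic0) :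
    ∃ V : Set (PrimeSpectrum A), IsOpen V ∧
      ∀ (A' : Type u) [CommRing A'] [Algebra k A'] (ψ : A →ₐ[k] A') (T' : Triple 𝔠 A'),
        IsBC ψ T T' →
        ((∀ p : PrimeSpectrum A', PrimeSpectrum.comap ψ.toRingHom p ∈ V) ↔
          ∃ φ : Localization.Away h →ₐ[k] A', IsBC φ (Uh E β h) T') := by
  obtain ⟨V, hVo, hV⟩ := exists_rep_Q₃ H hE hEr hEd β h T hT
  refine ⟨V, hVo, fun A' _ _ ψ T' hT' => (hV A' ψ).trans ?_⟩
  rw [inChart_iff H hE hEr hEd hVβ hh]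
  obtain ⟨b⟩ := hT'
  have e : Iso (T.bc ψ) T' := (bcData ψ T).unique b
  exact ⟨fun hQ => hQ.of_iso H hE β ((bcData ψ T).isInvertible hT.inv) e,
    fun hQ => hQ.of_iso H hE β (b.isInvertible hT.inv) e.symm⟩

end InChart

end Fermat.Agent.S25.Atlas
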