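/-
S25 / block H4 (atlas), part 4: assembly of the finite atlas of `Pic⁰`.
Owner: helper86.

`exists_algCharts_of_input : Atlas.Input 𝔠 → Nonempty (AlgCharts 𝔠)`; the structure `Atlas.Input`
(file `Charts/AtlasBasic.lean`) lists, verbatim, the nodes of `WIP/ChartsSkeleton.lean` that are used.
-/
import Fermat.Agent.S25.Charts.AtlasChart

set_option autoImplicit false

universe u

open scoped TensorProduct

namespace Fermat.Agent.S25.Atlas

open Triple Locus

variable {k : Type u} [Field k] {𝔠 : CurveCharts k}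

theorem finiteType_chartRing {g : ℕ} (β : Fin g → 𝔠.B₁) :
    Algebra.FiniteType k (Hilb.ChartRing k β) := by
  have : Algebra.FiniteType k 𝔠.B₁ := inferInstance
  exact Hilb.finiteType

theorem finiteType_away {g : ℕ} (β : Fin g → 𝔠.B₁) (h : Hilb.ChartRing k β) :
    Algebra.FiniteType k (Localization.Away h) := by
  have h1 := finiteType_chartRing β
  have h2 : Algebra.FiniteType (Hilb.ChartRing k β) (Localization.Away h) :=
    IsLocalization.finiteType_of_monoid_fg (Submonoid.powers h) _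
  exact Algebra.FiniteType.trans h1 h2

/-- every open subset of the spectrum of the chart ring is a finite union of basic opens -/
theorem exists_finset_of_isOpen {g : ℕ} (β : Fin g → 𝔠.B₁)
    (V : Set (PrimeSpectrum (Hilb.ChartRing k β))) (hV : IsOpen V) :
    ∃ s : Finset (Hilb.ChartRing k β), (PrimeSpectrum.zeroLocus (s : Set _))ᶜ = V := by
  have h1 := finiteType_chartRing β
  have : IsNoetherianRing (Hilb.ChartRing k β) := Algebra.FiniteType.isNoetherianRing k _
  exact PrimeSpectrum.isCompact_isOpen_iff.1 ⟨TopologicalSpace.NoetherianSpace.isCompact V, hV⟩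

theorem exists_algCharts_of_input (H : Input 𝔠) : Nonempty (AlgCharts 𝔠) := by
  classical
  obtain ⟨n, E, hE, hcov⟩ := H.twists
  obtain ⟨n', β, hβ⟩ := H.bases 𝔠.genus
  have hU : ∀ (j : Fin n) (b : Fin n'), (Uβ (E j) (β b)).IsInvertible := fun j b =>
    (H.pic0 (E j) (hE j).1 (hE j).2.1 (hE j).2.2 (isDiv_univ (β b))).inv
  choose V hVo hV using fun (j : Fin n) (b : Fin n') =>
    H.ns_locus (E j) (hE j).1 (Uβ (E j) (β b)) (hU j b)
  choose s hs using fun (j : Fin n) (b : Fin n') => exists_finset_of_isOpen (β b) (V j b) (hVo j b)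
  have hh : ∀ (j : Fin n) (b : Fin n') (h : Hilb.ChartRing k (β b)), h ∈ s j b →
      (PrimeSpectrum.basicOpen h : Set _) ⊆ V j b := by
    intro j b h hmem
    rw [← hs j b, PrimeSpectrum.basicOpen_eq_zeroLocus_compl, Set.compl_subset_compl]
    exact PrimeSpectrum.zeroLocus_anti_mono (by simpa using hmem)
  exact ⟨{
    ι := Σ jb : Fin n × Fin n', {h : Hilb.ChartRing k (β jb.2) // h ∈ s jb.1 jb.2}
    fin := inferInstance
    R := fun i => Localization.Away i.2.1
    ft := fun i => finiteType_away (β i.1.2) i.2.1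
    U := fun i => Uh (E i.1.1) (β i.1.2) i.2.1
    pic0 := fun i => Uh_isPic0 H (hE i.1.1).1 (hE i.1.1).2.1 (hE i.1.1).2.2
    mono := fun i A _ _ φ φ' T hφ hφ' =>
      chart_mono H (hE i.1.1).1 (hE i.1.1).2.1 (hE i.1.1).2.2 (hV i.1.1 i.1.2)
        (hh i.1.1 i.1.2 i.2.1 i.2.2) φ φ' T hφ hφ'
    isOpen := fun i A _ _ T hT =>
      chart_isOpen H (hE i.1.1).1 (hE i.1.1).2.1 (hE i.1.1).2.2 (hV i.1.1 i.1.2)
        (hh i.1.1 i.1.2 i.2.1 i.2.2) T hT
    cover := fun K _ _ T hT => by
      obtain ⟨j, hNS⟩ := hcov K T hT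
      obtain ⟨I, hI, ⟨e⟩⟩ := H.div_exists (E j) (hE j).1 (hE j).2.1 (hE j).2.2 T hT hNS
      obtain ⟨b, hb⟩ := hβ K I hI
      have hbc : IsBC (classify I hb) (Uβ (E j) (β b)) T := by
        obtain ⟨c⟩ := isBC_Uβ (E := E j) H (classify I hb)
        rw [mapI_classify] at c
        exact ⟨c.ofIso e.symm⟩
      have hp := (hV j b K (classify I hb) T hbc).2 hNS ⊥
      rw [← hs j b, Set.mem_compl_iff, PrimeSpectrum.mem_zeroLocus, Set.not_subset] at hp
      obtain ⟨h, hmem, hnot⟩ := hp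
      have hu : IsUnit (classify I hb h) := by
        rw [isUnit_iff_ne_zero]
        exact fun h0 => hnot ((mem_comap_bot _ _).2 h0)
      obtain ⟨φ, hφ⟩ := (inChart_iff H (hE j).1 (hE j).2.1 (hE j).2.2 (hV j b)
        (hh j b h hmem)).2 ⟨I, hb, ⟨e⟩, hNS, hu⟩
      exact ⟨⟨(j, b), ⟨h, hmem⟩⟩, φ, hφ⟩ }⟩

end Fermat.Agent.S25.Atlas
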