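/-
S25 / block H, task H3b: abstract core of the uniqueness part of the chart theorem.
Owner: helper292.

`D`, `D'` triples with maps to the structure sheaf (`ToUnit`), `M` an invertible triple.
If `ℋom(D ⊗ M, M)(-P₀)` has no global sections and `D`, `D'` are trivial at `P₀`, then every
isomorphism `D ⊗ M ≅ D' ⊗ M` forces the images of `D`, `D'` in `𝒪` to agree.
-/
import Fermat.Agent.S25.Charts.Defs
import Fermat.Agent.S25.Charts.Marked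
import Fermat.Agent.S25.Triple.IHomMod
import Fermat.Agent.S25.Triple.QC
import Fermat.Agent.S25.Triple.IsoLemmas
import Fermat.Agent.S25.Triple.Exact

set_option autoImplicit false

universe u

open scoped TensorProduct

namespace Fermat.Agent.S25

namespace ChartUnique

open Triple

/-! ### cancellation of an invertible module -/

section Cancel

variable {R M : Type*} [CommRing R] [AddCommGroup M] [Module R M]

theorem dual_apply_mem (𝔟 : Ideal R) (θ : Module.Dual R M) {m : M}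
    (hm : m ∈ (𝔟 • ⊤ : Submodule R M)) : θ m ∈ 𝔟 := by
  refine Submodule.smul_induction_on hm (fun b hb m' _ => ?_) (fun x y hx hy => ?_)
  · rw [map_smul, smul_eq_mul]
    exact 𝔟.mul_mem_right _ hb
  · rw [map_add]
    exact 𝔟.add_mem hx hy

theorem ideal_le_of_smul_top_le [Module.Invertible R M] {𝔞 𝔟 : Ideal R}
    (h : (𝔞 • ⊤ : Submodule R M) ≤ 𝔟 • ⊤) : 𝔞 ≤ 𝔟 := by
  intro r hr
  obtain ⟨η, hη⟩ := (Module.Invertible.bijective (R := R) (M := M)).2 1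
  have key : ∀ η : Module.Dual R M ⊗[R] M, r * contractLeft R M η ∈ 𝔟 := by
    intro η
    induction η using TensorProduct.induction_on with
    | zero => simp
    | tmul θ m =>
      rw [contractLeft_apply, ← smul_eq_mul, ← map_smul]
      exact dual_apply_mem 𝔟 θ (h (Submodule.smul_mem_smul hr trivial))
    | add a b ha hb =>
      rw [map_add, mul_add]
      exact 𝔟.add_mem ha hb
  have := key η
  rwa [hη, mul_one] at this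

theorem ideal_eq_of_smul_top_eq [Module.Invertible R M] {𝔞 𝔟 : Ideal R}
    (h : (𝔞 • ⊤ : Submodule R M) = 𝔟 • ⊤) : 𝔞 = 𝔟 :=
  le_antisymm (ideal_le_of_smul_top_le h.le) (ideal_le_of_smul_top_le h.ge)

end Cancel

/-! ### multiplication maps on raw tensor products -/

section Raw

variable {R S : Type*} [CommRing R] [CommRing S] {σ : R →+* S}
  {D M : Type*} [AddCommGroup D] [Module R D] [AddCommGroup M] [Module R M]
  {D' M' : Type*} [AddCommGroup D'] [Module S D'] [AddCommGroup M'] [Module S M']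

/-- `D ⊗ M → M`, `d ⊗ m ↦ ι d • m` -/
noncomputable def mulMapL (ι : D →ₗ[R] R) (M : Type*) [AddCommGroup M] [Module R M] :
    D ⊗[R] M →ₗ[R] M :=
  TensorProduct.lift ((LinearMap.lsmul R M).comp ι)

@[simp] lemma mulMapL_tmul (ι : D →ₗ[R] R) (d : D) (m : M) :
    mulMapL ι M (d ⊗ₜ[R] m) = ι d • m := rfl

/-- `M ⊗ D → M`, `m ⊗ d ↦ ι d • m` -/
noncomputable def mulMapR (ι : D →ₗ[R] R) (M : Type*) [AddCommGroup M] [Module R M] :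
    M ⊗[R] D →ₗ[R] M :=
  TensorProduct.lift ((LinearMap.lsmul R M).comp ι).flip

@[simp] lemma mulMapR_tmul (ι : D →ₗ[R] R) (d : D) (m : M) :
    mulMapR ι M (m ⊗ₜ[R] d) = ι d • m := rfl

theorem mulMapL_map_comm (ρD : D →ₛₗ[σ] D') (ρM : M →ₛₗ[σ] M') (ι : D →ₗ[R] R) (ι' : D' →ₗ[S] S)
    (h : ∀ d, ι' (ρD d) = σ (ι d)) (z : D ⊗[R] M) :
    mulMapL ι' M' (TensorProduct.map ρD ρM z) = ρM (mulMapL ι M z) := by
  induction z using TensorProduct.induction_on with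
  | zero => simp
  | tmul d m => rw [TensorProduct.map_tmul, mulMapL_tmul, mulMapL_tmul, h, ρM.map_smulₛₗ]
  | add x y hx hy => simp only [map_add, hx, hy]

theorem mulMapR_map_comm (ρD : D →ₛₗ[σ] D') (ρM : M →ₛₗ[σ] M') (ι : D →ₗ[R] R) (ι' : D' →ₗ[S] S)
    (h : ∀ d, ι' (ρD d) = σ (ι d)) (z : M ⊗[R] D) :
    mulMapR ι' M' (TensorProduct.map ρM ρD z) = ρM (mulMapR ι M z) := by
  induction z using TensorProduct.induction_on with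
  | zero => simp
  | tmul m d => rw [TensorProduct.map_tmul, mulMapR_tmul, mulMapR_tmul, h, ρM.map_smulₛₗ]
  | add x y hx hy => simp only [map_add, hx, hy]

theorem mulMapL_mem (ι : D →ₗ[R] R) (z : D ⊗[R] M) :
    mulMapL ι M z ∈ ((LinearMap.range ι : Ideal R) • ⊤ : Submodule R M) := by
  induction z using TensorProduct.induction_on with
  | zero => simp
  | tmul d m =>
    rw [mulMapL_tmul]
    exact Submodule.smul_mem_smul ⟨d, rfl⟩ trivial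
  | add x y hx hy =>
    rw [map_add]
    exact Submodule.add_mem _ hx hy

theorem exists_mulMapR_eq (ι : D →ₗ[R] R) (𝔪 : Ideal R) (h𝔪 : ∀ c ∈ 𝔪, ∃ p : D, ι p = c) (m : M)
    (hm : m ∈ (𝔪 • ⊤ : Submodule R M)) : ∃ z : M ⊗[R] D, mulMapR ι M z = m := by
  refine Submodule.smul_induction_on hm (fun c hc h _ => ?_) ?_
  · obtain ⟨p, hp⟩ := h𝔪 c hc
    exact ⟨h ⊗ₜ[R] p, by rw [mulMapR_tmul, hp]⟩
  · rintro _ _ ⟨a, rfl⟩ ⟨b, rfl⟩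
    exact ⟨a + b, map_add _ _ _⟩

theorem eq_mulMapR_tmul (ι : D →ₗ[R] R) (c : D) (hc : ∀ p : D, p = ι p • c) (w : M ⊗[R] D) :
    w = mulMapR ι M w ⊗ₜ[R] c := by
  induction w using TensorProduct.induction_on with
  | zero => simp
  | tmul h p => rw [mulMapR_tmul, TensorProduct.smul_tmul, ← hc p]
  | add x y hx hy => rw [map_add, TensorProduct.add_tmul, ← hx, ← hy]

theorem mulMapR_injective (ι : D →ₗ[R] R) (c : D) (hc : ∀ p : D, p = ι p • c) (w : M ⊗[R] D)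
    (hw : mulMapR ι M w = 0) : w = 0 := by
  rw [eq_mulMapR_tmul ι c hc w, hw, TensorProduct.zero_tmul]

/-- A linear map `t : D ⊗ M → M` (`D` an ideal, `M` invertible) is, up to the factor `ι n`, a multiple
of the multiplication map. -/
theorem exists_smul_eq_smul_mulMapL [Module.Invertible R M] (ι : D →ₗ[R] R)
    (hι : Function.Injective ι) (n : D) (t : D ⊗[R] M →ₗ[R] M) :
    ∃ r : R, ι n • t = r • mulMapL ι M := by
  obtain ⟨r, hr⟩ := (Module.Invertible.toModuleEnd_bijective R M).2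
    (t.comp (TensorProduct.mk R D M n))
  refine ⟨r, TensorProduct.ext' fun d m => ?_⟩
  have h1 : ι n • d = ι d • n := by
    apply hι
    rw [map_smul, map_smul, smul_eq_mul, smul_eq_mul, mul_comm]
  have h2 : t (n ⊗ₜ[R] m) = r • m := (LinearMap.congr_fun hr m).symm
  rw [LinearMap.smul_apply, LinearMap.smul_apply, mulMapL_tmul, ← map_smul,
    TensorProduct.smul_tmul', h1, ← TensorProduct.smul_tmul', map_smul, h2, smul_comm]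

end Raw

variable {k : Type u} [Field k] {𝔠 : CurveCharts k} {A : Type u} [CommRing A] [Algebra k A]

/-- A morphism from a triple to the structure sheaf, with explicit targets. -/
structure ToUnit (D : Triple 𝔠 A) where
  ι₁ : D.N₁ →ₗ[𝔠.R₁ A] 𝔠.R₁ A
  ι₂ : D.N₂ →ₗ[𝔠.R₂ A] 𝔠.R₂ A
  ι₁₂ : D.N₁₂ →ₗ[𝔠.R₁₂ A] 𝔠.R₁₂ A
  comm₁ : ∀ d, ι₁₂ (D.ρ₁ d) = (𝔠.res₁ A).toRingHom (ι₁ d)
  comm₂ : ∀ d, ι₁₂ (D.ρ₂ d) = (𝔠.res₂ A).toRingHom (ι₂ d)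

/-- multiplication `D ⊗ M → M` -/
noncomputable def mulL {D : Triple 𝔠 A} (j : ToUnit D) (M : Triple 𝔠 A) : Hom (D.tensor M) M where
  f₁ := mulMapL j.ι₁ M.N₁
  f₂ := mulMapL j.ι₂ M.N₂
  f₁₂ := mulMapL j.ι₁₂ M.N₁₂
  comm₁ := mulMapL_map_comm D.ρ₁ M.ρ₁ j.ι₁ j.ι₁₂ j.comm₁
  comm₂ := mulMapL_map_comm D.ρ₂ M.ρ₂ j.ι₂ j.ι₁₂ j.comm₂

/-- multiplication `H ⊗ P → H` -/
noncomputable def mulR {P : Triple 𝔠 A} (j : ToUnit P) (H : Triple 𝔠 A) : Hom (H.tensor P) H where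
  f₁ := mulMapR j.ι₁ H.N₁
  f₂ := mulMapR j.ι₂ H.N₂
  f₁₂ := mulMapR j.ι₁₂ H.N₁₂
  comm₁ := mulMapR_map_comm P.ρ₁ H.ρ₁ j.ι₁ j.ι₁₂ j.comm₁
  comm₂ := mulMapR_map_comm P.ρ₂ H.ρ₂ j.ι₂ j.ι₁₂ j.comm₂

section mulR

variable {P : Triple 𝔠 A} (j : ToUnit P) (H : Triple 𝔠 A)

/-- **Vanishing.**  If `(H ⊗ P)` has no global sections (`P` = ideal sheaf of a closed subscheme of
`W₂` not meeting `W₁`, with ideal `𝔪`), a global section of `H` vanishing on it is zero. -/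
theorem eq_zero_of_mem_smul_top
    (c₁ : P.N₁) (hc₁ : j.ι₁ c₁ = 1)
    (c₁₂ : P.N₁₂) (hc₁₂ : ∀ p : P.N₁₂, p = j.ι₁₂ p • c₁₂)
    (𝔪 : Ideal (𝔠.R₂ A)) (h𝔪 : ∀ c ∈ 𝔪, ∃ p : P.N₂, j.ι₂ p = c)
    (hinj : Function.Injective (H.tensor P).δ) (d : H.N₁ × H.N₂) (hd : H.δ d = 0)
    (hd₂ : d.2 ∈ 𝔪 • (⊤ : Submodule (𝔠.R₂ A) H.N₂)) : d = 0 := by
  obtain ⟨z₂, hz₂⟩ : ∃ z₂ : (H.tensor P).N₂, (mulR j H).f₂ z₂ = d.2 :=
    exists_mulMapR_eq j.ι₂ 𝔪 h𝔪 d.2 hd₂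
  let z₁ : (H.tensor P).N₁ := d.1 ⊗ₜ[𝔠.R₁ A] c₁
  have hz₁ : (mulR j H).f₁ z₁ = d.1 := by
    change j.ι₁ c₁ • d.1 = d.1
    rw [hc₁, one_smul]
  have hinj₁₂ : ∀ w : (H.tensor P).N₁₂, (mulR j H).f₁₂ w = 0 → w = 0 :=
    mulMapR_injective j.ι₁₂ c₁₂ hc₁₂
  have hδ : (H.tensor P).δ (z₁, z₂) = 0 := by
    apply hinj₁₂
    have h1 := (mulR j H).map1_δ (z₁, z₂)
    rw [Hom.map1_apply, Hom.map0_apply] at h1
    rw [h1]
    simp only [hz₁, hz₂]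
    exact hd
  have hz : ((z₁, z₂) : (H.tensor P).N₁ × (H.tensor P).N₂) = 0 :=
    hinj (hδ.trans (map_zero _).symm)
  have e₁ : z₁ = 0 := congrArg Prod.fst hz
  have e₂ : z₂ = 0 := congrArg Prod.snd hz
  apply Prod.ext
  · rw [← hz₁, e₁, map_zero]; rfl
  · rw [← hz₂, e₂, map_zero]; rfl

end mulR

/-! ### morphisms as global sections of the internal Hom -/

theorem ihom_δ_hom {T M : Triple 𝔠 A} (hT : T.IsQC) (t : Hom T M) :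
    (ihom T M).δ ((t.f₁, t.f₂) : (ihom T M).N₁ × (ihom T M).N₂) = 0 := by
  rw [δ_apply, sub_eq_zero]
  have h := (isQC_iff T).mp hT
  have h₁ : SemiExt.ext T.ρ₁ M.ρ₁ t.f₁ = t.f₁₂ :=
    SemiExt.ext_unique (SemiExt.hasExt_of_isBCMap h.1 M.ρ₁) t.f₁ t.f₁₂ t.comm₁
  have h₂ : SemiExt.ext T.ρ₂ M.ρ₂ t.f₂ = t.f₁₂ :=
    SemiExt.ext_unique (SemiExt.hasExt_of_isBCMap h.2 M.ρ₂) t.f₂ t.f₁₂ t.comm₂
  exact h₁.trans h₂.symm

/-- raw form of the congruence `t ≡ a s` modulo `𝔪` -/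
theorem sub_smul_mem_smul_top {R X : Type*} [CommRing R] [AddCommGroup X] [Module R X]
    (𝔪 : Ideal R) (t s : X) (c r a : R) (hc : 1 - c ∈ 𝔪) (hr : r - a ∈ 𝔪) (h : c • t = r • s) :
    t - a • s ∈ (𝔪 • ⊤ : Submodule R X) := by
  have e : t - a • s = (1 - c) • t + (r - a) • s := by
    rw [sub_smul, sub_smul, one_smul, h]
    abel
  rw [e]
  exact Submodule.add_mem _ (Submodule.smul_mem_smul hc trivial)
    (Submodule.smul_mem_smul hr trivial)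

/-- **Uniqueness, abstract form.** -/
theorem range_eq_of_iso {D D' M : Triple 𝔠 A} (j : ToUnit D) (j' : ToUnit D')
    (hj₂ : Function.Injective j.ι₂) (hM : M.IsInvertible) (hQC : (D.tensor M).IsQC)
    (n : D.N₂) (hn : 𝔠.ev₀ A (j.ι₂ n) = 1) (n' : D'.N₂) (hn' : 𝔠.ev₀ A (j'.ι₂ n') = 1)
    {P : Triple 𝔠 A} (jP : ToUnit P) (c₁ : P.N₁) (hc₁ : jP.ι₁ c₁ = 1)
    (c₁₂ : P.N₁₂) (hc₁₂ : ∀ p : P.N₁₂, p = jP.ι₁₂ p • c₁₂)
    (h𝔪 : ∀ c ∈ RingHom.ker (𝔠.ev₀ A).toRingHom, ∃ p : P.N₂, jP.ι₂ p = c)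
    (hinj : Function.Injective ((ihom (D.tensor M) M).tensor P).δ)
    (e : Iso (D.tensor M) (D'.tensor M)) :
    (LinearMap.range j.ι₁ : Ideal (𝔠.R₁ A)) = LinearMap.range j'.ι₁ := by
  have := hM.inv₁
  have := hM.inv₂
  let s : Hom (D.tensor M) M := mulL j M
  let t : Hom (D.tensor M) M := (mulL j' M).comp e.toHom
  have ht₁_apply : ∀ z : D.N₁ ⊗[𝔠.R₁ A] M.N₁, t.f₁ z = mulMapL j'.ι₁ M.N₁ (e.e₁ z) := fun _ => rfl
  have ht₂_apply : ∀ z : D.N₂ ⊗[𝔠.R₂ A] M.N₂, t.f₂ z = mulMapL j'.ι₂ M.N₂ (e.e₂ z) := fun _ => rfl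
  obtain ⟨r, hr⟩ := exists_smul_eq_smul_mulMapL j.ι₂ hj₂ n t.f₂
  let a : A := 𝔠.ev₀ A r
  let H := ihom (D.tensor M) M
  let d : H.N₁ × H.N₂ := ((t.f₁, t.f₂) : H.N₁ × H.N₂) - a • ((s.f₁, s.f₂) : H.N₁ × H.N₂)
  have hd : H.δ d = 0 := by
    rw [map_sub, map_smul, ihom_δ_hom hQC t, ihom_δ_hom hQC s, smul_zero, sub_zero]
  have hd₂ : d.2 ∈ RingHom.ker (𝔠.ev₀ A).toRingHom • (⊤ : Submodule (𝔠.R₂ A) H.N₂) :=
    sub_smul_mem_smul_top (X := D.N₂ ⊗[𝔠.R₂ A] M.N₂ →ₗ[𝔠.R₂ A] M.N₂)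
      (RingHom.ker (𝔠.ev₀ A).toRingHom) t.f₂ (mulMapL j.ι₂ M.N₂) (j.ι₂ n) r
      (algebraMap A (𝔠.R₂ A) a)
      (by
        change 𝔠.ev₀ A _ = 0
        rw [map_sub, map_one, hn, sub_self])
      (𝔠.sub_algebraMap_ev₀_mem A r) hr
  have hd0 := eq_zero_of_mem_smul_top jP H c₁ hc₁ c₁₂ hc₁₂ _ h𝔪 hinj d hd hd₂
  have ht₁ : (t.f₁ : D.N₁ ⊗[𝔠.R₁ A] M.N₁ →ₗ[𝔠.R₁ A] M.N₁) =
      algebraMap A (𝔠.R₁ A) a • mulMapL j.ι₁ M.N₁ := sub_eq_zero.mp (congrArg Prod.fst hd0)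
  have ht₂ : (t.f₂ : D.N₂ ⊗[𝔠.R₂ A] M.N₂ →ₗ[𝔠.R₂ A] M.N₂) =
      algebraMap A (𝔠.R₂ A) a • mulMapL j.ι₂ M.N₂ := sub_eq_zero.mp (congrArg Prod.snd hd0)
  let E₁ : D.N₁ ⊗[𝔠.R₁ A] M.N₁ ≃ₗ[𝔠.R₁ A] D'.N₁ ⊗[𝔠.R₁ A] M.N₁ := e.e₁
  let E₂ : D.N₂ ⊗[𝔠.R₂ A] M.N₂ ≃ₗ[𝔠.R₂ A] D'.N₂ ⊗[𝔠.R₂ A] M.N₂ := e.e₂
  have hp₁ : ∀ z : D.N₁ ⊗[𝔠.R₁ A] M.N₁, mulMapL j'.ι₁ M.N₁ (E₁ z) =
      algebraMap A (𝔠.R₁ A) a • mulMapL j.ι₁ M.N₁ z := fun z => LinearMap.congr_fun ht₁ z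
  have hp₂ : ∀ z : D.N₂ ⊗[𝔠.R₂ A] M.N₂, mulMapL j'.ι₂ M.N₂ (E₂ z) =
      algebraMap A (𝔠.R₂ A) a • mulMapL j.ι₂ M.N₂ z := fun z => LinearMap.congr_fun ht₂ z
  clear_value E₁ E₂ a
  clear ht₁ ht₂ hd0 hd₂ hd d H hr ht₁_apply ht₂_apply t s
  -- `a` is a unit
  have hle : ((Ideal.span {j'.ι₂ n'}) • ⊤ : Submodule (𝔠.R₂ A) M.N₂) ≤
      (Ideal.span {algebraMap A (𝔠.R₂ A) a}) • ⊤ := by
    rw [Submodule.smul_le]
    intro c hc m _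
    obtain ⟨w, rfl⟩ := Ideal.mem_span_singleton'.mp hc
    have h1 : j'.ι₂ n' • m = algebraMap A (𝔠.R₂ A) a •
        mulMapL j.ι₂ M.N₂ (E₂.symm (n' ⊗ₜ[𝔠.R₂ A] m)) := by
      rw [← hp₂, LinearEquiv.apply_symm_apply, mulMapL_tmul]
    rw [mul_smul, h1, smul_comm]
    exact Submodule.smul_mem_smul (Ideal.mem_span_singleton_self _) trivial
  obtain ⟨w, hw⟩ := Ideal.mem_span_singleton'.mp
    (ideal_le_of_smul_top_le hle (Ideal.mem_span_singleton_self _))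
  set b : A := 𝔠.ev₀ A w with hb
  have hba : b * a = 1 := by
    rw [← hn', ← hw, map_mul, AlgHom.commutes]
    rfl
  apply ideal_eq_of_smul_top_eq (M := M.N₁)
  apply le_antisymm
  · rw [Submodule.smul_le]
    rintro _ ⟨d₀, rfl⟩ m _
    have h1 : j.ι₁ d₀ • m = algebraMap A (𝔠.R₁ A) b •
        mulMapL j'.ι₁ M.N₁ (E₁ (d₀ ⊗ₜ[𝔠.R₁ A] m)) := by
      rw [hp₁, mulMapL_tmul, ← mul_smul, ← map_mul, hba, map_one, one_smul]
    rw [h1]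
    exact Submodule.smul_mem _ _ (mulMapL_mem _ _)
  · rw [Submodule.smul_le]
    rintro _ ⟨d₀, rfl⟩ m _
    have h1 : j'.ι₁ d₀ • m = algebraMap A (𝔠.R₁ A) a •
        mulMapL j.ι₁ M.N₁ (E₁.symm (d₀ ⊗ₜ[𝔠.R₁ A] m)) := by
      rw [← hp₁, LinearEquiv.apply_symm_apply, mulMapL_tmul]
    rw [h1]
    exact Submodule.smul_mem _ _ (mulMapL_mem _ _)

end ChartUnique

end Fermat.Agent.S25
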