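/-
S25 / block H, task H3b: uniqueness part of the chart theorem.
Owner: helper292.
-/
import Fermat.Agent.S25.Charts.ChartUniqueCore
import Fermat.Agent.S25.Triple.IdealSMul
import Fermat.Agent.S25.Triple.BCLemmas

set_option autoImplicit false

universe u

open scoped TensorProduct

namespace Fermat.Agent.S25

open Triple

variable {k : Type u} [Field k] {𝔠 : CurveCharts k} {A : Type u} [CommRing A] [Algebra k A]

namespace ChartUnique

/-- the inclusion `𝒪(-D) ⊆ 𝒪` -/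
noncomputable def toUnitIdiv (I : Ideal (𝔠.R₁ A)) : ToUnit (Idiv I) where
  ι₁ := Submodule.subtype I
  ι₂ := Submodule.subtype ((I.map (𝔠.res₁ A).toRingHom).comap (𝔠.res₂ A).toRingHom)
  ι₁₂ := Submodule.subtype (I.map (𝔠.res₁ A).toRingHom)
  comm₁ _ := rfl
  comm₂ _ := rfl

/-- the inclusion of the ideal sheaf of a closed subscheme of `W₂ × Spec A` -/
noncomputable def toUnitIdiv₂ (I : Ideal (𝔠.R₂ A)) : ToUnit (Idiv₂ I) where
  ι₁ := Submodule.subtype ((I.map (𝔠.res₂ A).toRingHom).comap (𝔠.res₁ A).toRingHom)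
  ι₂ := Submodule.subtype I
  ι₁₂ := Submodule.subtype (I.map (𝔠.res₂ A).toRingHom)
  comm₁ _ := rfl
  comm₂ _ := rfl

theorem map_comap_res₂ (J : Ideal (𝔠.R₁₂ A)) :
    (J.comap (𝔠.res₂ A).toRingHom).map (𝔠.res₂ A) = J := by
  apply le_antisymm
  · exact Ideal.map_comap_le
  · intro n hn
    obtain ⟨m, r, hr⟩ := TensorAux.exists_res₂_eq 𝔠 A n
    have h1 : r ∈ J.comap (𝔠.res₂ A).toRingHom := by
      change (𝔠.res₂ A) r ∈ J
      rw [hr]
      exact J.mul_mem_left _ hn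
    have h2 : n = (𝔠.res₁ A (𝔠.xA A)) ^ m * (𝔠.res₂ A) r := by
      have h3 : (𝔠.res₂ A) r = (𝔠.res₂ A (𝔠.yA A)) ^ m * n := hr
      rw [h3, ← mul_assoc, ← mul_pow, TensorAux.res₁_xA_mul_res₂_yA, one_pow, one_mul]
    rw [h2]
    exact Ideal.mul_mem_left _ _ (Ideal.mem_map_of_mem _ h1)

/-- `Idiv I` is always quasi-coherent -/
theorem idiv_isQC (I : Ideal (𝔠.R₁ A)) : (Idiv I).IsQC :=
  idealTriple_isQC (a₁ := I) (a₂ := (I.map (𝔠.res₁ A).toRingHom).comap (𝔠.res₂ A).toRingHom)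
    (a₁₂ := I.map (𝔠.res₁ A).toRingHom) unit_isQC rfl (map_comap_res₂ _)

theorem const_isInvertible (E : Triple 𝔠 k) (hE : E.IsInvertible) : (E.const A).IsInvertible :=
  (bcData (Algebra.ofId k A) E).isInvertible hE

theorem const_isRigid (E : Triple 𝔠 k) (hE : E.IsRigid) : (E.const A).IsRigid :=
  (bcData (Algebra.ofId k A) E).isRigid hE

/-- uniqueness of the divisor, for an arbitrary invertible triple `M` instead of `E.const A` -/
theorem ideal_eq_of_iso (M : Triple 𝔠 A) (hM : M.IsInvertible) {I I' : Ideal (𝔠.R₁ A)}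
    (hI : Module.Finite A (𝔠.R₁ A ⧸ I)) (hI' : Module.Finite A (𝔠.R₁ A ⧸ I'))
    (h : Function.Injective ((ihom ((Idiv I).tensor M) M).tensor (IP0 𝔠 A)).δ)
    (e : Iso ((Idiv I).tensor M) ((Idiv I').tensor M)) : I = I' := by
  obtain ⟨u, hu, hu1⟩ := 𝔠.exists_ev₀_eq_one I hI
  obtain ⟨u', hu', hu1'⟩ := 𝔠.exists_ev₀_eq_one I' hI'
  have htop := 𝔠.map_ker_ev₀ A
  have key := range_eq_of_iso (toUnitIdiv I) (toUnitIdiv I') Subtype.val_injective hM
    ((idiv_isQC I).tensor hM.toIsQC) ⟨u, hu⟩ hu1 ⟨u', hu'⟩ hu1'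
    (P := IP0 𝔠 A) (toUnitIdiv₂ (RingHom.ker (𝔠.ev₀ A).toRingHom))
    ⟨1, by rw [Ideal.mem_comap, htop]; trivial⟩ rfl
    ⟨1, by rw [htop]; trivial⟩ (fun p => Subtype.ext (mul_one p.1).symm)
    (fun c hc => ⟨⟨c, hc⟩, rfl⟩) h e
  have h1 : (LinearMap.range (toUnitIdiv I).ι₁ : Ideal (𝔠.R₁ A)) = I := Submodule.range_subtype I
  have h2 : (LinearMap.range (toUnitIdiv I').ι₁ : Ideal (𝔠.R₁ A)) = I' := Submodule.range_subtype I'
  rw [← h1, ← h2]
  exact key

end ChartUnique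

set_option linter.unusedVariables false in
/-- CHART THEOREM, uniqueness -/
theorem div_unique_of_NS (E : Triple 𝔠 k) (hE : E.IsInvertible) (hEr : E.IsRigid)
    (hEd : E.deg = 𝔠.genus) {I I' : Ideal (𝔠.R₁ A)} (hI : IsDiv A I 𝔠.genus)
    (hI' : IsDiv A I' 𝔠.genus) (h : NS E ((Idiv I).tensor (E.const A)))
    (e : Iso ((Idiv I).tensor (E.const A)) ((Idiv I').tensor (E.const A))) : I = I' :=
  ChartUnique.ideal_eq_of_iso (E.const A) (ChartUnique.const_isInvertible E hE) hI.finite hI'.finite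
    h.1 e

end Fermat.Agent.S25
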