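/-
S25 / block X2 (auxiliary file): Euler characteristic of `𝔞 T` for a compatible triple of ideals with
finite-dimensional quotients, over a field.
Owner: helper205.
-/
import Fermat.Agent.S25.Charts.Defs
import Fermat.Agent.S25.Triple.IdealSMul
import Fermat.Agent.S25.Triple.IsoLemmas
import Fermat.Agent.S25.Triple.QC
import Fermat.Agent.S25.Alg.ChiLocConst

set_option autoImplicit false

universe u

open scoped TensorProduct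
open Function

namespace Fermat.Agent.S25

open Triple

namespace ChiTwist

/-! ### Algebra: `M / I M ≃ R / I` for an invertible module and an Artinian quotient -/

theorem exists_equiv_quot {R M : Type*} [CommRing R] [AddCommGroup M] [Module R M]
    [Module.Invertible R M] (I : Ideal R) (hart : IsArtinian R (R ⧸ I)) :
    Nonempty ((M ⧸ (I • ⊤ : Submodule R M)) ≃ₗ[R] (R ⧸ I)) := by
  have : IsArtinianRing (R ⧸ I) := isArtinian_of_tower R hart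
  have hfree : Module.Free (R ⧸ I) ((R ⧸ I) ⊗[R] M) := inferInstance
  obtain ⟨e⟩ := Module.Invertible.free_iff_linearEquiv.mp hfree
  exact ⟨(TensorProduct.quotTensorEquivQuotSMul M I).symm ≪≫ₗ e.restrictScalars R⟩

variable {k : Type u} [Field k] {𝔠 : CurveCharts k}

/-! ### ideals of the localisation `R₁₂` -/

section Ideals

variable {A : Type u} [CommRing A] [Algebra k A]

theorem map_comap_res₁ (J : Ideal (𝔠.R₁₂ A)) : (J.comap (𝔠.res₁ A)).map (𝔠.res₁ A) = J := by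
  apply le_antisymm Ideal.map_comap_le
  intro s hs
  obtain ⟨m, r, hr⟩ := TensorAux.exists_res₁_eq 𝔠 A s
  obtain ⟨u, hu⟩ := (𝔠.isUnit_res₁_xA A).pow m
  have hr' : r ∈ J.comap (𝔠.res₁ A) := by
    rw [Ideal.mem_comap, hr]
    exact J.mul_mem_left _ hs
  have : s = (↑u⁻¹ : 𝔠.R₁₂ A) * 𝔠.res₁ A r := by
    rw [hr, ← hu, ← mul_assoc, Units.inv_mul, one_mul]
  rw [this]
  exact Ideal.mul_mem_left _ _ (Ideal.mem_map_of_mem _ hr')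

theorem map_comap_res₂ (J : Ideal (𝔠.R₁₂ A)) : (J.comap (𝔠.res₂ A)).map (𝔠.res₂ A) = J := by
  apply le_antisymm Ideal.map_comap_le
  intro s hs
  obtain ⟨m, r, hr⟩ := TensorAux.exists_res₂_eq 𝔠 A s
  obtain ⟨u, hu⟩ := (𝔠.isUnit_res₂_yA A).pow m
  have hr' : r ∈ J.comap (𝔠.res₂ A) := by
    rw [Ideal.mem_comap, hr]
    exact J.mul_mem_left _ hs
  have : s = (↑u⁻¹ : 𝔠.R₁₂ A) * 𝔠.res₂ A r := by
    rw [hr, ← hu, ← mul_assoc, Units.inv_mul, one_mul]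
  rw [this]
  exact Ideal.mul_mem_left _ _ (Ideal.mem_map_of_mem _ hr')

end Ideals

variable {K : Type u} [Field K] [Algebra k K]

/-- finite cohomology of an invertible triple over a field -/
theorem finCoh {T : Triple 𝔠 K} (hT : T.IsInvertible) : T.FinCoh := by
  obtain ⟨m⟩ := exists_finiteModel T hT
  exact ⟨Module.Finite.equiv m.kerEquiv.symm, Module.Finite.equiv m.cokerEquiv.symm⟩

/-! ### the general formula -/

section General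

variable {T : Triple 𝔠 K} {a₁ : Ideal (𝔠.R₁ K)} {a₂ : Ideal (𝔠.R₂ K)} {a₁₂ : Ideal (𝔠.R₁₂ K)}

theorem exists_equiv₁ (hT : T.IsInvertible) (h₁ : a₁.map (𝔠.res₁ K) ≤ a₁₂)
    (h₂ : a₂.map (𝔠.res₂ K) ≤ a₁₂) [FiniteDimensional K (idealQuotTriple a₁ a₂ a₁₂ h₁ h₂).N₁] :
    Nonempty ((T.idealQuot a₁ a₂ a₁₂ h₁ h₂).N₁ ≃ₗ[K] (idealQuotTriple a₁ a₂ a₁₂ h₁ h₂).N₁) := by
  have := hT.inv₁
  have hart : IsArtinian (𝔠.R₁ K) (idealQuotTriple a₁ a₂ a₁₂ h₁ h₂).N₁ :=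
    isArtinian_of_tower K inferInstance
  obtain ⟨e⟩ := exists_equiv_quot (M := T.N₁) a₁ hart
  exact ⟨(show (T.idealQuot a₁ a₂ a₁₂ h₁ h₂).N₁ ≃ₗ[𝔠.R₁ K]
    (idealQuotTriple a₁ a₂ a₁₂ h₁ h₂).N₁ from e).restrictScalars K⟩

theorem exists_equiv₂ (hT : T.IsInvertible) (h₁ : a₁.map (𝔠.res₁ K) ≤ a₁₂)
    (h₂ : a₂.map (𝔠.res₂ K) ≤ a₁₂) [FiniteDimensional K (idealQuotTriple a₁ a₂ a₁₂ h₁ h₂).N₂] :
    Nonempty ((T.idealQuot a₁ a₂ a₁₂ h₁ h₂).N₂ ≃ₗ[K] (idealQuotTriple a₁ a₂ a₁₂ h₁ h₂).N₂) := by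
  have := hT.inv₂
  have hart : IsArtinian (𝔠.R₂ K) (idealQuotTriple a₁ a₂ a₁₂ h₁ h₂).N₂ :=
    isArtinian_of_tower K inferInstance
  obtain ⟨e⟩ := exists_equiv_quot (M := T.N₂) a₂ hart
  exact ⟨(show (T.idealQuot a₁ a₂ a₁₂ h₁ h₂).N₂ ≃ₗ[𝔠.R₂ K]
    (idealQuotTriple a₁ a₂ a₁₂ h₁ h₂).N₂ from e).restrictScalars K⟩

theorem exists_equiv₁₂ (hT : T.IsInvertible) (h₁ : a₁.map (𝔠.res₁ K) ≤ a₁₂)
    (h₂ : a₂.map (𝔠.res₂ K) ≤ a₁₂) [FiniteDimensional K (idealQuotTriple a₁ a₂ a₁₂ h₁ h₂).N₁₂] :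
    Nonempty ((T.idealQuot a₁ a₂ a₁₂ h₁ h₂).N₁₂ ≃ₗ[K] (idealQuotTriple a₁ a₂ a₁₂ h₁ h₂).N₁₂) := by
  have := hT.inv₁₂
  have hart : IsArtinian (𝔠.R₁₂ K) (idealQuotTriple a₁ a₂ a₁₂ h₁ h₂).N₁₂ :=
    isArtinian_of_tower K inferInstance
  obtain ⟨e⟩ := exists_equiv_quot (M := T.N₁₂) a₁₂ hart
  exact ⟨(show (T.idealQuot a₁ a₂ a₁₂ h₁ h₂).N₁₂ ≃ₗ[𝔠.R₁₂ K]
    (idealQuotTriple a₁ a₂ a₁₂ h₁ h₂).N₁₂ from e).restrictScalars K⟩

/-- `χ(𝔞 T) = χ(T) - χ(𝒪/𝔞)`. -/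
theorem chi_idealSMul (hT : T.IsInvertible) (e₁ : a₁.map (𝔠.res₁ K) = a₁₂)
    (e₂ : a₂.map (𝔠.res₂ K) = a₁₂)
    [FiniteDimensional K (idealQuotTriple a₁ a₂ a₁₂ e₁.le e₂.le).N₁]
    [FiniteDimensional K (idealQuotTriple a₁ a₂ a₁₂ e₁.le e₂.le).N₂] :
    (T.idealSMul a₁ a₂ a₁₂ e₁.le e₂.le).chi =
      T.chi - (idealQuotTriple a₁ a₂ a₁₂ e₁.le e₂.le).chi := by
  have hQ' : (idealQuotTriple a₁ a₂ a₁₂ e₁.le e₂.le).IsQC := idealQuotTriple_isQC unit_isQC e₁ e₂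
  have : FiniteDimensional K (idealQuotTriple a₁ a₂ a₁₂ e₁.le e₂.le).N₁₂ :=
    hQ'.finite_N₁₂_of_finite₁
  obtain ⟨ε₁⟩ := exists_equiv₁ hT e₁.le e₂.le
  obtain ⟨ε₂⟩ := exists_equiv₂ hT e₁.le e₂.le
  obtain ⟨ε₁₂⟩ := exists_equiv₁₂ hT e₁.le e₂.le
  have : FiniteDimensional K (T.idealQuot a₁ a₂ a₁₂ e₁.le e₂.le).N₁ := Module.Finite.equiv ε₁.symm
  have : FiniteDimensional K (T.idealQuot a₁ a₂ a₁₂ e₁.le e₂.le).N₂ := Module.Finite.equiv ε₂.symm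
  have hQ : (T.idealQuot a₁ a₂ a₁₂ e₁.le e₂.le).IsQC := hT.toIsQC.idealQuot e₁ e₂
  have E := T.shortExact_idealSMul a₁ a₂ a₁₂ e₁.le e₂.le
  have hadd := E.chi_add (E.finCoh_left (finCoh hT) hQ.finCoh_of_finite) hQ.finCoh_of_finite
  rw [hadd, hQ.chi_of_finite, hQ'.chi_of_finite, ε₁.finrank_eq, ε₂.finrank_eq, ε₁₂.finrank_eq]
  ring

end General

end ChiTwist

end Fermat.Agent.S25
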