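/-
S25 / block X2: Euler characteristic of `T ⊗ Idiv I`, `T ⊗ Idiv₂ I` over a field; sections of `T(-D)`.
Owner: helper205.
-/
import Fermat.Agent.S25.Charts.ChiTwistAux

set_option autoImplicit false

universe u

open scoped TensorProduct
open Function

namespace Fermat.Agent.S25

open Triple

namespace ChiTwist

variable {k : Type u} [Field k] {𝔠 : CurveCharts k}

/-! ### `Idiv I` as an ideal triple -/

section Iso

variable {A : Type u} [CommRing A] [Algebra k A]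

/-- `Idiv I` is the ideal triple `(I, (I R₁₂) ∩ R₂, I R₁₂)`. -/
noncomputable def IdivIso (I : Ideal (𝔠.R₁ A)) :
    Iso (Idiv I) (idealTriple I ((I.map (𝔠.res₁ A)).comap (𝔠.res₂ A)) (I.map (𝔠.res₁ A)) le_rfl
      (map_comap_res₂ _).le) where
  e₁ := LinearEquiv.refl _ _
  e₂ := LinearEquiv.refl _ _
  e₁₂ := LinearEquiv.refl _ _
  comm₁ _ := rfl
  comm₂ _ := rfl

/-- `Idiv₂ I` is the ideal triple `((I R₁₂) ∩ R₁, I, I R₁₂)`. -/
noncomputable def Idiv₂Iso (I : Ideal (𝔠.R₂ A)) :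
    Iso (Idiv₂ I) (idealTriple ((I.map (𝔠.res₂ A)).comap (𝔠.res₁ A)) I (I.map (𝔠.res₂ A))
      (map_comap_res₁ _).le le_rfl) where
  e₁ := LinearEquiv.refl _ _
  e₂ := LinearEquiv.refl _ _
  e₁₂ := LinearEquiv.refl _ _
  comm₁ _ := rfl
  comm₂ _ := rfl

/-- `T ⊗ Idiv I ≅ 𝔞 T`. -/
noncomputable def tensorIdivIso {T : Triple 𝔠 A} (hT : T.IsInvertible) (I : Ideal (𝔠.R₁ A)) :
    Iso (T.tensor (Idiv I)) (T.idealSMul I ((I.map (𝔠.res₁ A)).comap (𝔠.res₂ A))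
      (I.map (𝔠.res₁ A)) le_rfl (map_comap_res₂ _).le) :=
  have := hT.inv₁
  have := hT.inv₂
  have := hT.inv₁₂
  ((tensorComm T (Idiv I)).trans ((IdivIso I).tensor (Iso.refl T))).trans
    (idealTensorIso T le_rfl (map_comap_res₂ _).le)

/-- `T ⊗ Idiv₂ I ≅ 𝔞 T`. -/
noncomputable def tensorIdiv₂Iso {T : Triple 𝔠 A} (hT : T.IsInvertible) (I : Ideal (𝔠.R₂ A)) :
    Iso (T.tensor (Idiv₂ I)) (T.idealSMul ((I.map (𝔠.res₂ A)).comap (𝔠.res₁ A)) I
      (I.map (𝔠.res₂ A)) (map_comap_res₁ _).le le_rfl) :=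
  have := hT.inv₁
  have := hT.inv₂
  have := hT.inv₁₂
  ((tensorComm T (Idiv₂ I)).trans ((Idiv₂Iso I).tensor (Iso.refl T))).trans
    (idealTensorIso T (map_comap_res₁ _).le le_rfl)

end Iso

variable {K : Type u} [Field K] [Algebra k K]

/-! ### the first chart -/

section First

variable (I : Ideal (𝔠.R₁ K))

/-- `𝒪_D` for `D = V(I)` -/
noncomputable abbrev OD : Triple 𝔠 K :=
  idealQuotTriple I ((I.map (𝔠.res₁ K)).comap (𝔠.res₂ K)) (I.map (𝔠.res₁ K)) le_rfl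
    (map_comap_res₂ _).le

theorem OD_isQC : (OD I).IsQC := idealQuotTriple_isQC unit_isQC rfl (map_comap_res₂ _)

theorem OD_ρ₂_injective : Injective (OD I).ρ₂ := by
  rw [injective_iff_map_eq_zero]
  intro n hn
  obtain ⟨r, rfl⟩ := Submodule.Quotient.mk_surjective _ n
  have h : (Submodule.Quotient.mk ((unit 𝔠 K).ρ₂ r) :
      (unit 𝔠 K).N₁₂ ⧸ (I.map (𝔠.res₁ K) : Submodule (𝔠.R₁₂ K) (unit 𝔠 K).N₁₂)) = 0 := hn
  rw [Submodule.Quotient.mk_eq_zero] at h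
  exact (Submodule.Quotient.mk_eq_zero _).2 h

theorem OD_finite₂ [FiniteDimensional K (OD I).N₁] : FiniteDimensional K (OD I).N₂ := by
  have := (OD_isQC I).finite_N₁₂_of_finite₁
  exact Module.Finite.of_injective (OD I).ρ₂A (OD_ρ₂_injective I)

theorem OD_finrank₂ [FiniteDimensional K (OD I).N₁] :
    Module.finrank K (OD I).N₂ = Module.finrank K (OD I).N₁₂ := by
  have := OD_finite₂ I
  exact (LinearEquiv.ofBijective (OD I).ρ₂A
    ⟨OD_ρ₂_injective I, (OD_isQC I).ρ₂_surjective_of_finite⟩).finrank_eq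

variable {I}

theorem OD_finite₁ {r : ℕ} (hI : IsDiv K I r) : FiniteDimensional K (OD I).N₁ := by
  have := hI.finite
  exact Module.Finite.equiv ((show (𝔠.R₁ K ⧸ I) ≃ₗ[𝔠.R₁ K] (OD I).N₁ from
    LinearEquiv.refl _ _).restrictScalars K)

theorem OD_finrank₁ {r : ℕ} (hI : IsDiv K I r) : Module.finrank K (OD I).N₁ = r := by
  have h := hI.rank ⊥
  rw [Module.rankAtStalk_eq_finrank_of_free] at h
  rw [← h]
  exact ((show (𝔠.R₁ K ⧸ I) ≃ₗ[𝔠.R₁ K] (OD I).N₁ from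
    LinearEquiv.refl _ _).restrictScalars K).finrank_eq.symm

theorem OD_chi {r : ℕ} (hI : IsDiv K I r) : (OD I).chi = r := by
  have := OD_finite₁ hI
  have := OD_finite₂ I
  rw [(OD_isQC I).chi_of_finite, OD_finrank₂, OD_finrank₁ hI]
  ring

/-- `ρ₂` of `T / 𝔞 T` is injective. -/
theorem idealQuot_ρ₂_injective {T : Triple 𝔠 K} (hT : T.IsInvertible) {r : ℕ}
    (hI : IsDiv K I r) :
    Injective (T.idealQuot I ((I.map (𝔠.res₁ K)).comap (𝔠.res₂ K)) (I.map (𝔠.res₁ K)) le_rfl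
      (map_comap_res₂ _).le).ρ₂ := by
  have := OD_finite₁ hI
  have := OD_finite₂ I
  have := (OD_isQC I).finite_N₁₂_of_finite₁
  obtain ⟨ε₂⟩ := exists_equiv₂ hT (a₁ := I) le_rfl (map_comap_res₂ (I.map (𝔠.res₁ K))).le
  obtain ⟨ε₁₂⟩ := exists_equiv₁₂ hT (a₁ := I) le_rfl (map_comap_res₂ (I.map (𝔠.res₁ K))).le
  have hQ : (T.idealQuot I ((I.map (𝔠.res₁ K)).comap (𝔠.res₂ K)) (I.map (𝔠.res₁ K)) le_rfl
      (map_comap_res₂ _).le).IsQC := hT.toIsQC.idealQuot rfl (map_comap_res₂ _)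
  have f2 : FiniteDimensional K (T.idealQuot I ((I.map (𝔠.res₁ K)).comap (𝔠.res₂ K))
      (I.map (𝔠.res₁ K)) le_rfl (map_comap_res₂ _).le).N₂ := Module.Finite.equiv ε₂.symm
  have f12 : FiniteDimensional K (T.idealQuot I ((I.map (𝔠.res₁ K)).comap (𝔠.res₂ K))
      (I.map (𝔠.res₁ K)) le_rfl (map_comap_res₂ _).le).N₁₂ := Module.Finite.equiv ε₁₂.symm
  have hd : Module.finrank K (T.idealQuot I ((I.map (𝔠.res₁ K)).comap (𝔠.res₂ K))
      (I.map (𝔠.res₁ K)) le_rfl (map_comap_res₂ _).le).N₂ =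
      Module.finrank K (T.idealQuot I ((I.map (𝔠.res₁ K)).comap (𝔠.res₂ K))
      (I.map (𝔠.res₁ K)) le_rfl (map_comap_res₂ _).le).N₁₂ := by
    rw [ε₂.finrank_eq, ε₁₂.finrank_eq, OD_finrank₂]
  exact (LinearMap.injective_iff_surjective_of_finrank_eq_finrank hd
    (f := (T.idealQuot I ((I.map (𝔠.res₁ K)).comap (𝔠.res₂ K))
      (I.map (𝔠.res₁ K)) le_rfl (map_comap_res₂ _).le).ρ₂A)).2 hQ.ρ₂_surjective_of_finite

end First

/-! ### the second chart -/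

section Second

variable (I : Ideal (𝔠.R₂ K))

/-- `𝒪_D` for `D = V(I)` in the second chart -/
noncomputable abbrev OD₂ : Triple 𝔠 K :=
  idealQuotTriple ((I.map (𝔠.res₂ K)).comap (𝔠.res₁ K)) I (I.map (𝔠.res₂ K))
    (map_comap_res₁ _).le le_rfl

theorem OD₂_isQC : (OD₂ I).IsQC := idealQuotTriple_isQC unit_isQC (map_comap_res₁ _) rfl

theorem OD₂_ρ₁_injective : Injective (OD₂ I).ρ₁ := by
  rw [injective_iff_map_eq_zero]
  intro n hn
  obtain ⟨r, rfl⟩ := Submodule.Quotient.mk_surjective _ n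
  have h : (Submodule.Quotient.mk ((unit 𝔠 K).ρ₁ r) :
      (unit 𝔠 K).N₁₂ ⧸ (I.map (𝔠.res₂ K) : Submodule (𝔠.R₁₂ K) (unit 𝔠 K).N₁₂)) = 0 := hn
  rw [Submodule.Quotient.mk_eq_zero] at h
  exact (Submodule.Quotient.mk_eq_zero _).2 h

theorem OD₂_finite₁ [FiniteDimensional K (OD₂ I).N₂] : FiniteDimensional K (OD₂ I).N₁ := by
  have := (OD₂_isQC I).finite_N₁₂_of_finite₂
  exact Module.Finite.of_injective (OD₂ I).ρ₁A (OD₂_ρ₁_injective I)

theorem OD₂_finrank₁ [FiniteDimensional K (OD₂ I).N₂] :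
    Module.finrank K (OD₂ I).N₁ = Module.finrank K (OD₂ I).N₁₂ := by
  have := OD₂_finite₁ I
  exact (LinearEquiv.ofBijective (OD₂ I).ρ₁A
    ⟨OD₂_ρ₁_injective I, (OD₂_isQC I).ρ₁_surjective_of_finite⟩).finrank_eq

variable {I}

theorem OD₂_finite₂ {r : ℕ} (hI : IsDiv₂ K I r) : FiniteDimensional K (OD₂ I).N₂ := by
  have := hI.finite
  exact Module.Finite.equiv ((show (𝔠.R₂ K ⧸ I) ≃ₗ[𝔠.R₂ K] (OD₂ I).N₂ from
    LinearEquiv.refl _ _).restrictScalars K)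

theorem OD₂_finrank₂ {r : ℕ} (hI : IsDiv₂ K I r) : Module.finrank K (OD₂ I).N₂ = r := by
  have h := hI.rank ⊥
  rw [Module.rankAtStalk_eq_finrank_of_free] at h
  rw [← h]
  exact ((show (𝔠.R₂ K ⧸ I) ≃ₗ[𝔠.R₂ K] (OD₂ I).N₂ from
    LinearEquiv.refl _ _).restrictScalars K).finrank_eq.symm

theorem OD₂_chi {r : ℕ} (hI : IsDiv₂ K I r) : (OD₂ I).chi = r := by
  have := OD₂_finite₂ hI
  have := OD₂_finite₁ I
  rw [(OD₂_isQC I).chi_of_finite, OD₂_finrank₁, OD₂_finrank₂ hI]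
  ring

end Second

end ChiTwist

variable {k : Type u} [Field k] {𝔠 : CurveCharts k} {K : Type u} [Field K] [Algebra k K]

theorem chi_tensor_Idiv (T : Triple 𝔠 K) (hT : T.IsInvertible) {I : Ideal (𝔠.R₁ K)} {r : ℕ}
    (hI : IsDiv K I r) : (T.tensor (Idiv I)).chi = T.chi - r := by
  have := ChiTwist.OD_finite₁ hI
  have := ChiTwist.OD_finite₂ I
  rw [(ChiTwist.tensorIdivIso hT I).chi_eq,
    ChiTwist.chi_idealSMul hT rfl (ChiTwist.map_comap_res₂ _), ChiTwist.OD_chi hI]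

theorem chi_tensor_Idiv₂ (T : Triple 𝔠 K) (hT : T.IsInvertible) {I : Ideal (𝔠.R₂ K)} {r : ℕ}
    (hI : IsDiv₂ K I r) : (T.tensor (Idiv₂ I)).chi = T.chi - r := by
  have := ChiTwist.OD₂_finite₂ hI
  have := ChiTwist.OD₂_finite₁ I
  rw [(ChiTwist.tensorIdiv₂Iso hT I).chi_eq,
    ChiTwist.chi_idealSMul hT (ChiTwist.map_comap_res₁ _) rfl, ChiTwist.OD₂_chi hI]

end Fermat.Agent.S25
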