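/-
S25 / block X2: sections of `T(-D)` = sections of `T` vanishing on `D`.
Owner: helper205.
-/
import Fermat.Agent.S25.Charts.ChiTwistDiv

set_option autoImplicit false

universe u

open scoped TensorProduct
open Function

namespace Fermat.Agent.S25

open Triple

namespace ChiTwist

variable {k : Type u} [Field k] {𝔠 : CurveCharts k} {A : Type u} [CommRing A] [Algebra k A]

/-- Sections of a triple mapping injectively to `T`. -/
theorem nontrivial_ker_iff_of_injective {S T : Triple 𝔠 A} (ι : Hom S T) (i₁ : Injective ι.f₁)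
    (i₂ : Injective ι.f₂) (i₁₂ : Injective ι.f₁₂) :
    Nontrivial (LinearMap.ker S.δ) ↔
      ∃ z ∈ LinearMap.ker T.δ, z ≠ 0 ∧ z.1 ∈ LinearMap.range ι.f₁ ∧ z.2 ∈ LinearMap.range ι.f₂ := by
  constructor
  · intro hnt
    obtain ⟨⟨w, hw⟩, hw0⟩ := exists_ne (0 : LinearMap.ker S.δ)
    refine ⟨ι.map0 w, ?_, ?_, ⟨w.1, rfl⟩, ⟨w.2, rfl⟩⟩
    · rw [LinearMap.mem_ker, ← ι.map1_δ, LinearMap.mem_ker.1 hw, map_zero]
    · intro h0
      apply hw0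
      apply Subtype.ext
      have e1 : ι.f₁ w.1 = 0 := congrArg Prod.fst h0
      have e2 : ι.f₂ w.2 = 0 := congrArg Prod.snd h0
      exact Prod.ext (i₁ (e1.trans (map_zero _).symm)) (i₂ (e2.trans (map_zero _).symm))
  · rintro ⟨z, hz, hz0, ⟨a, ha⟩, ⟨b, hb⟩⟩
    have hz' : ι.map0 (a, b) = z := Prod.ext ha hb
    have hw : (a, b) ∈ LinearMap.ker S.δ := by
      rw [LinearMap.mem_ker]
      apply i₁₂
      have := ι.map1_δ (a, b)
      rw [hz', LinearMap.mem_ker.1 hz] at this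
      rw [map_zero]
      exact this
    refine ⟨⟨⟨_, hw⟩, 0, ?_⟩⟩
    intro h0
    apply hz0
    have e : (a, b) = (0 : S.N₁ × S.N₂) := congrArg Subtype.val h0
    rw [← hz', e, map_zero]

/-- Sections of a sub-triple. -/
theorem nontrivial_ker_sub_iff (T : Triple 𝔠 A) (S₁ : Submodule (𝔠.R₁ A) T.N₁)
    (S₂ : Submodule (𝔠.R₂ A) T.N₂) (S₁₂ : Submodule (𝔠.R₁₂ A) T.N₁₂)
    (h₁ : ∀ n ∈ S₁, T.ρ₁ n ∈ S₁₂) (h₂ : ∀ n ∈ S₂, T.ρ₂ n ∈ S₁₂) :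
    Nontrivial (LinearMap.ker (T.sub S₁ S₂ S₁₂ h₁ h₂).δ) ↔
      ∃ z ∈ LinearMap.ker T.δ, z ≠ 0 ∧ z.1 ∈ S₁ ∧ z.2 ∈ S₂ := by
  rw [nontrivial_ker_iff_of_injective (T.subHom S₁ S₂ S₁₂ h₁ h₂) S₁.subtype_injective
    S₂.subtype_injective S₁₂.subtype_injective]
  have r₁ : LinearMap.range (T.subHom S₁ S₂ S₁₂ h₁ h₂).f₁ = S₁ := S₁.range_subtype
  have r₂ : LinearMap.range (T.subHom S₁ S₂ S₁₂ h₁ h₂).f₂ = S₂ := S₂.range_subtype
  rw [r₁, r₂]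

end ChiTwist

variable {k : Type u} [Field k] {𝔠 : CurveCharts k} {K : Type u} [Field K] [Algebra k K]

/-- sections of `T(-D)` = sections of `T` vanishing on `D` -/
theorem h0_tensor_Idiv_pos_iff (T : Triple 𝔠 K) (hT : T.IsInvertible) {I : Ideal (𝔠.R₁ K)} {r : ℕ}
    (hI : IsDiv K I r) : 0 < (T.tensor (Idiv I)).h0 ↔
      ∃ z ∈ LinearMap.ker T.δ, z ≠ 0 ∧ z.1 ∈ I • (⊤ : Submodule (𝔠.R₁ K) T.N₁) := by
  have := ChiTwist.OD_finite₁ hI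
  have := ChiTwist.OD_finite₂ I
  have := (ChiTwist.OD_isQC I).finite_N₁₂_of_finite₁
  obtain ⟨ε₁⟩ := ChiTwist.exists_equiv₁ hT (a₁ := I) le_rfl
    (ChiTwist.map_comap_res₂ (I.map (𝔠.res₁ K))).le
  obtain ⟨ε₂⟩ := ChiTwist.exists_equiv₂ hT (a₁ := I) le_rfl
    (ChiTwist.map_comap_res₂ (I.map (𝔠.res₁ K))).le
  have f1 : FiniteDimensional K (T.idealQuot I ((I.map (𝔠.res₁ K)).comap (𝔠.res₂ K))
    (I.map (𝔠.res₁ K)) le_rfl (ChiTwist.map_comap_res₂ _).le).N₁ := Module.Finite.equiv ε₁.symm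
  have f2 : FiniteDimensional K (T.idealQuot I ((I.map (𝔠.res₁ K)).comap (𝔠.res₂ K))
    (I.map (𝔠.res₁ K)) le_rfl (ChiTwist.map_comap_res₂ _).le).N₂ := Module.Finite.equiv ε₂.symm
  have hQ : (T.idealQuot I ((I.map (𝔠.res₁ K)).comap (𝔠.res₂ K))
    (I.map (𝔠.res₁ K)) le_rfl (ChiTwist.map_comap_res₂ _).le).IsQC :=
    hT.toIsQC.idealQuot rfl (ChiTwist.map_comap_res₂ _)
  have E := T.shortExact_idealSMul I ((I.map (𝔠.res₁ K)).comap (𝔠.res₂ K)) (I.map (𝔠.res₁ K))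
    le_rfl (ChiTwist.map_comap_res₂ _).le
  have hfin := E.finCoh_left (ChiTwist.finCoh hT) hQ.finCoh_of_finite
  have := hfin.ker
  rw [(ChiTwist.tensorIdivIso hT I).h0_eq]
  unfold h0
  rw [Module.finrank_pos_iff]
  unfold idealSMul
  rw [ChiTwist.nontrivial_ker_sub_iff]
  constructor
  · rintro ⟨z, hz, hz0, hz1, -⟩
    exact ⟨z, hz, hz0, hz1⟩
  · rintro ⟨z, hz, hz0, hz1⟩
    refine ⟨z, hz, hz0, hz1, ?_⟩
    have hz' : T.ρ₁ z.1 - T.ρ₂ z.2 = 0 := by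
      rw [← δ_apply]
      exact hz
    have hinj := ChiTwist.idealQuot_ρ₂_injective hT hI
    have h12 : T.ρ₂ z.2 ∈ ((I.map (𝔠.res₁ K)) • ⊤ : Submodule (𝔠.R₁₂ K) T.N₁₂) := by
      rw [← sub_eq_zero.1 hz']
      exact T.ρ₁_mem_smul_top I _ le_rfl _ hz1
    have h0 : (T.idealQuot I ((I.map (𝔠.res₁ K)).comap (𝔠.res₂ K))
        (I.map (𝔠.res₁ K)) le_rfl (ChiTwist.map_comap_res₂ _).le).ρ₂
        (Submodule.Quotient.mk z.2) = 0 :=
      (Submodule.Quotient.mk_eq_zero _).2 h12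
    have h0' := hinj (h0.trans (map_zero _).symm)
    exact (Submodule.Quotient.mk_eq_zero _).1 h0'

end Fermat.Agent.S25
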