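/-
S25 / block X2: Euler characteristic of the twists `T ⊗ Otw j` over a field.
(`chi_tensor_Idiv`, `chi_tensor_Idiv₂` are in `ChiTwistDiv.lean`, `h0_tensor_Idiv_pos_iff` in
`ChiTwistH0.lean`; this file imports both.)
Owner: helper205.
-/
import Fermat.Agent.S25.Charts.ChiTwistH0

set_option autoImplicit false

universe u

open scoped TensorProduct
open Function

namespace Fermat.Agent.S25

open Triple

namespace ChiTwist

variable {k : Type u} [Field k] {𝔠 : CurveCharts k}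

section Twist

variable {A : Type u} [CommRing A] [Algebra k A]

/-- `T(j D_∞)`: the same modules, `ρ₂` multiplied by `x^j`. -/
noncomputable def twist (T : Triple 𝔠 A) (j : ℕ) : Triple 𝔠 A where
  N₁ := T.N₁
  N₂ := T.N₂
  N₁₂ := T.N₁₂
  ρ₁ := T.ρ₁
  ρ₂ :=
    { toFun := fun n => (𝔠.res₁ A (𝔠.xA A)) ^ j • T.ρ₂ n
      map_add' := fun a b => by rw [map_add, smul_add]
      map_smul' := fun r n => by rw [T.ρ₂.map_smulₛₗ, smul_comm] }

theorem twist_ρ₂ (T : Triple 𝔠 A) (j : ℕ) (n : T.N₂) :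
    (twist T j).ρ₂ n = (𝔠.res₁ A (𝔠.xA A)) ^ j • T.ρ₂ n := rfl

theorem rid_map_twist (T : Triple 𝔠 A) (j : ℕ) (ι : 𝔠.R₂ A →ₛₗ[(𝔠.res₂ A).toRingHom] 𝔠.R₁₂ A)
    (hι : ∀ r, ι r = (𝔠.res₁ A (𝔠.xA A)) ^ j * 𝔠.res₂ A r) (t : T.N₂ ⊗[𝔠.R₂ A] 𝔠.R₂ A) :
    TensorProduct.rid (𝔠.R₁₂ A) T.N₁₂ (TensorProduct.map T.ρ₂ ι t) =
      (𝔠.res₁ A (𝔠.xA A)) ^ j • T.ρ₂ (TensorProduct.rid (𝔠.R₂ A) T.N₂ t) := by
  induction t using TensorProduct.induction_on with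
  | zero => simp only [map_zero, smul_zero]
  | tmul n r =>
    rw [TensorProduct.map_tmul, TensorProduct.rid_tmul, TensorProduct.rid_tmul, hι,
      T.ρ₂.map_smulₛₗ, mul_smul]
    rfl
  | add a b ha hb => simp only [map_add, ha, hb, smul_add]

/-- `T ⊗ Otw j ≅ T(j D_∞)`. -/
noncomputable def tensorOtwIso (T : Triple 𝔠 A) (j : ℕ) :
    Iso (T.tensor (Otw 𝔠 A j)) (twist T j) where
  e₁ := TensorProduct.rid (𝔠.R₁ A) T.N₁
  e₂ := TensorProduct.rid (𝔠.R₂ A) T.N₂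
  e₁₂ := TensorProduct.rid (𝔠.R₁₂ A) T.N₁₂
  comm₁ := TensorAux.rid_map_comm T.ρ₁ (Otw 𝔠 A j).ρ₁ (fun _ => rfl)
  comm₂ := rid_map_twist T j (Otw 𝔠 A j).ρ₂ (fun _ => rfl)

theorem xy_pow_smul {M : Type*} [AddCommGroup M] [Module (𝔠.R₁₂ A) M] (j : ℕ) (n : M) :
    (𝔠.res₁ A (𝔠.xA A)) ^ j • (𝔠.res₂ A (𝔠.yA A)) ^ j • n = n := by
  rw [smul_smul, ← mul_pow, 𝔠.res₁_xA_mul_res₂_yA, one_pow, one_smul]

theorem twist_isInvertible {T : Triple 𝔠 A} (hT : T.IsInvertible) (j : ℕ) :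
    (twist T j).IsInvertible where
  surj₁ := hT.surj₁
  inj₁ := hT.inj₁
  surj₂ := fun n => by
    obtain ⟨m, n₂, h⟩ := hT.surj₂ n
    refine ⟨m, (𝔠.yA A) ^ j • n₂, ?_⟩
    have e : T.ρ₂ ((𝔠.yA A) ^ j • n₂) = (𝔠.res₂ A (𝔠.yA A)) ^ j • T.ρ₂ n₂ := by
      rw [T.ρ₂.map_smulₛₗ]
      simp
    rw [twist_ρ₂, e, xy_pow_smul]
    exact h
  inj₂ := fun n h => by
    apply hT.inj₂
    have h' : (𝔠.res₁ A (𝔠.xA A)) ^ j • T.ρ₂ n = 0 := h
    exact (((𝔠.isUnit_res₁_xA A).pow j).smul_eq_zero).1 h'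
  inv₁ := hT.inv₁
  inv₂ := hT.inv₂

/-- `T(0) ≅ T` -/
noncomputable def twistZero (T : Triple 𝔠 A) : Iso (twist T 0) T where
  e₁ := LinearEquiv.refl _ _
  e₂ := LinearEquiv.refl _ _
  e₁₂ := LinearEquiv.refl _ _
  comm₁ _ := rfl
  comm₂ n := by
    show (𝔠.res₁ A (𝔠.xA A)) ^ 0 • T.ρ₂ n = T.ρ₂ n
    rw [pow_zero, one_smul]

/-- `T((j+1) D_∞) ≅ T(j D_∞)(D_∞)` -/
noncomputable def twistSucc (T : Triple 𝔠 A) (j : ℕ) :
    Iso (twist T (j + 1)) (twist (twist T j) 1) where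
  e₁ := LinearEquiv.refl _ _
  e₂ := LinearEquiv.refl _ _
  e₁₂ := LinearEquiv.refl _ _
  comm₁ _ := rfl
  comm₂ n := by
    show (𝔠.res₁ A (𝔠.xA A)) ^ (j + 1) • T.ρ₂ n =
      (𝔠.res₁ A (𝔠.xA A)) ^ 1 • ((𝔠.res₁ A (𝔠.xA A)) ^ j • T.ρ₂ n)
    rw [smul_smul, pow_one, pow_succ']

theorem yA_mem_nonZeroDivisors : 𝔠.yA A ∈ nonZeroDivisors (𝔠.R₂ A) := by
  rw [mem_nonZeroDivisors_iff_right]
  intro a ha
  apply TensorAux.res₂_injective 𝔠 A
  have h : 𝔠.res₂ A a * 𝔠.res₂ A (𝔠.yA A) = 0 := by rw [← map_mul, ha, map_zero]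
  rw [map_zero]
  exact ((𝔠.isUnit_res₂_yA A).mul_left_eq_zero).1 h

theorem map_span_yA : (Ideal.span {𝔠.yA A}).map (𝔠.res₂ A) = ⊤ := by
  rw [Ideal.map_span, Set.image_singleton, Ideal.span_singleton_eq_top]
  exact 𝔠.isUnit_res₂_yA A

/-- multiplication by `y` : `N₂ ≃ y N₂` -/
noncomputable def smulEquiv {R M : Type*} [CommRing R] [AddCommGroup M] [Module R M] (y : R)
    (hy : IsSMulRegular M y) : M ≃ₗ[R] (Ideal.span {y} • ⊤ : Submodule R M) :=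
  LinearEquiv.ofBijective
    ((LinearMap.lsmul R M y).codRestrict _ fun n =>
      Submodule.smul_mem_smul (Ideal.mem_span_singleton_self y) Submodule.mem_top) (by
    constructor
    · intro a b hab
      exact hy (congrArg Subtype.val hab)
    · rintro ⟨x, hx⟩
      have : ∃ n : M, y • n = x := by
        induction hx using Submodule.smul_induction_on' with
        | smul r hr m _ =>
          obtain ⟨c, rfl⟩ := Ideal.mem_span_singleton'.1 hr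
          exact ⟨c • m, by rw [smul_smul, mul_comm]⟩
        | add a _ b _ ha hb =>
          obtain ⟨n, rfl⟩ := ha
          obtain ⟨n', rfl⟩ := hb
          exact ⟨n + n', smul_add _ _ _⟩
      obtain ⟨n, hn⟩ := this
      exact ⟨n, Subtype.ext hn⟩)

@[simp] theorem smulEquiv_coe {R M : Type*} [CommRing R] [AddCommGroup M] [Module R M] (y : R)
    (hy : IsSMulRegular M y) (n : M) : ((smulEquiv y hy n : _) : M) = y • n := rfl

/-- `T ≅ 𝔞 · T(D_∞)` for `𝔞 = 𝒪(-D_∞)`. -/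
noncomputable def isoIdealSMulTwist {T : Triple 𝔠 A} (hT : T.IsInvertible) :
    Iso T ((twist T 1).idealSMul (((Ideal.span {𝔠.yA A}).map (𝔠.res₂ A)).comap (𝔠.res₁ A))
      (Ideal.span {𝔠.yA A}) ((Ideal.span {𝔠.yA A}).map (𝔠.res₂ A))
      (map_comap_res₁ _).le le_rfl) where
  e₁ := (LinearEquiv.ofTop
    ((((Ideal.span {𝔠.yA A}).map (𝔠.res₂ A)).comap (𝔠.res₁ A)) • ⊤ : Submodule (𝔠.R₁ A) T.N₁)
    (by rw [map_span_yA, Ideal.comap_top, Submodule.top_smul]; rfl)).symm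
  e₂ :=
    have := hT.inv₂
    smulEquiv (M := T.N₂) (𝔠.yA A)
      (Module.Flat.isSMulRegular_of_nonZeroDivisors yA_mem_nonZeroDivisors)
  e₁₂ := (LinearEquiv.ofTop
    (((Ideal.span {𝔠.yA A}).map (𝔠.res₂ A)) • ⊤ : Submodule (𝔠.R₁₂ A) T.N₁₂)
    (by rw [map_span_yA, Submodule.top_smul]; rfl)).symm
  comm₁ _ := rfl
  comm₂ n := by
    apply Subtype.ext
    show T.ρ₂ n = (𝔠.res₁ A (𝔠.xA A)) ^ 1 • T.ρ₂ (𝔠.yA A • n)
    have e : T.ρ₂ (𝔠.yA A • n) = (𝔠.res₂ A (𝔠.yA A)) ^ 1 • T.ρ₂ n := by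
      rw [T.ρ₂.map_smulₛₗ, pow_one]
      rfl
    rw [e, xy_pow_smul]

end Twist

variable {K : Type u} [Field K] [Algebra k K]

/-- `B₂ / y B₂` is finite dimensional. -/
theorem finite_quot_y (𝔠 : CurveCharts k) : Module.Finite k (𝔠.B₂ ⧸ Ideal.span {𝔠.y}) := by
  classical
  let _ : Algebra (Polynomial k) 𝔠.B₂ := (Polynomial.aeval (R := k) 𝔠.y).toRingHom.toAlgebra
  have hfin : Module.Finite (Polynomial k) 𝔠.B₂ := 𝔠.fin₂
  obtain ⟨s, hs⟩ := hfin.fg_top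
  refine ⟨⟨s.image (Ideal.Quotient.mk (Ideal.span {𝔠.y})), ?_⟩⟩
  rw [eq_top_iff]
  rintro z -
  obtain ⟨b, rfl⟩ := Ideal.Quotient.mk_surjective z
  have hb : b ∈ Submodule.span (Polynomial k) (s : Set 𝔠.B₂) := hs ▸ Submodule.mem_top
  induction hb using Submodule.span_induction with
  | mem x hx =>
    exact Submodule.subset_span (by
      rw [Finset.coe_image]
      exact ⟨x, hx, rfl⟩)
  | zero => rw [map_zero]; exact zero_mem _
  | add x y _ _ hx hy => rw [map_add]; exact add_mem hx hy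
  | smul p x _ hx =>
    have h1 : p • x = Polynomial.aeval 𝔠.y p * x := rfl
    have h2 : Ideal.Quotient.mk (Ideal.span {𝔠.y}) (Polynomial.aeval 𝔠.y p) =
        Ideal.Quotient.mk (Ideal.span {𝔠.y}) (algebraMap k 𝔠.B₂ (p.eval 0)) := by
      rw [Ideal.Quotient.eq, Ideal.mem_span_singleton]
      obtain ⟨q, hq⟩ := Polynomial.X_dvd_sub_C (p := p)
      have h3 := congrArg (Polynomial.aeval 𝔠.y) hq
      rw [map_sub, map_mul, Polynomial.aeval_X, Polynomial.aeval_C, Polynomial.coeff_zero_eq_eval_zero]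
        at h3
      exact ⟨_, h3⟩
    rw [h1, map_mul, h2, ← map_mul, ← Algebra.smul_def]
    exact Submodule.smul_mem _ _ hx

/-- `D_∞` is a divisor of degree `degInf`. -/
theorem isDiv₂_span_yA : IsDiv₂ K (Ideal.span {𝔠.yA K}) 𝔠.degInf := by
  have hfin := finite_quot_y 𝔠
  have hmap : (Ideal.span {𝔠.y}).map
      (Algebra.TensorProduct.includeRight (R := k) (A := K) (B := 𝔠.B₂)) =
      Ideal.span {𝔠.yA K} := by
    rw [Ideal.map_span, Set.image_singleton]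
    rfl
  let e : K ⊗[k] (𝔠.B₂ ⧸ Ideal.span {𝔠.y}) ≃ₗ[K] (𝔠.R₂ K ⧸ Ideal.span {𝔠.yA K}) :=
    (Algebra.TensorProduct.tensorQuotientEquiv (R := k) K 𝔠.B₂ K
      (Ideal.span {𝔠.y})).toLinearEquiv ≪≫ₗ
      (Submodule.quotEquivOfEq _ _ hmap).restrictScalars K
  have hf : Module.Finite K (𝔠.R₂ K ⧸ Ideal.span {𝔠.yA K}) := Module.Finite.equiv e
  refine ⟨hf, inferInstance, fun p => ?_⟩
  rw [Module.rankAtStalk_eq_finrank_of_free]
  show Module.finrank K (𝔠.R₂ K ⧸ Ideal.span {𝔠.yA K}) = 𝔠.degInf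
  rw [← e.finrank_eq, Module.finrank_baseChange]
  rfl

theorem chi_twist_one {T : Triple 𝔠 K} (hT : T.IsInvertible) :
    (twist T 1).chi = T.chi + 𝔠.degInf := by
  have hI := isDiv₂_span_yA (𝔠 := 𝔠) (K := K)
  have := OD₂_finite₂ hI
  have := OD₂_finite₁ (Ideal.span {𝔠.yA K})
  have h := chi_idealSMul (twist_isInvertible hT 1)
    (map_comap_res₁ ((Ideal.span {𝔠.yA K}).map (𝔠.res₂ K))) rfl
  rw [← (isoIdealSMulTwist hT).chi_eq, OD₂_chi hI] at h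
  linarith

theorem chi_twist {T : Triple 𝔠 K} (hT : T.IsInvertible) (j : ℕ) :
    (twist T j).chi = T.chi + j * 𝔠.degInf := by
  induction j with
  | zero => rw [(twistZero T).chi_eq]; simp
  | succ j ih =>
    rw [(twistSucc T j).chi_eq, chi_twist_one (twist_isInvertible hT j), ih]
    push_cast
    ring

end ChiTwist

variable {k : Type u} [Field k] {𝔠 : CurveCharts k} {K : Type u} [Field K] [Algebra k K]

theorem chi_tensor_Otw (T : Triple 𝔠 K) (hT : T.IsInvertible) (j : ℕ) :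
    (T.tensor (Otw 𝔠 K j)).chi = T.chi + j * 𝔠.degInf := by
  rw [(ChiTwist.tensorOtwIso T j).chi_eq, ChiTwist.chi_twist hT j]

end Fermat.Agent.S25
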