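/-
S25 / block X, task X5 (helper151): auxiliary material for the covering lemma.

* coprime ideals and `I • ⊤`;
* a linear algebra lemma (cutting down a finite dimensional space by hyperplane-like conditions);
* the commutative monoid of isomorphism classes of triples;
* `degInf > 0`.
-/
import Fermat.Agent.S25.Charts.Defs
import Fermat.Agent.S25.Triple.IHomLemmas
import Fermat.Agent.S25.Triple.IsoLemmas
import Fermat.Agent.S25.Triple.BCLemmas
import Fermat.Agent.S25.Triple.TensorBC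
import Fermat.Agent.S25.Triple.Torsion
import Fermat.Agent.S25.Alg.Points

set_option autoImplicit false

universe u

open scoped TensorProduct

namespace Fermat.Agent.S25.Covering

/-! ### Coprime ideals -/

section Coprime

variable {R N : Type*} [CommRing R] [AddCommGroup N] [Module R N]

theorem mem_mul_smul_top_of_isCoprime {a b : Ideal R} (h : IsCoprime a b) {x : N}
    (ha : x ∈ a • (⊤ : Submodule R N)) (hb : x ∈ b • (⊤ : Submodule R N)) :
    x ∈ (a * b) • (⊤ : Submodule R N) := by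
  obtain ⟨α, hα, β, hβ, hαβ⟩ := Ideal.isCoprime_iff_exists.mp h
  have hx : x = α • x + β • x := by rw [← add_smul, hαβ, one_smul]
  rw [hx]
  refine add_mem ?_ ?_
  · rw [Submodule.mul_smul]
    exact Submodule.smul_mem_smul hα hb
  · rw [mul_comm, Submodule.mul_smul]
    exact Submodule.smul_mem_smul hβ ha

theorem mem_prod_smul_top {ι : Type*} (S : Finset ι) (m : ι → Ideal R)
    (hm : ∀ i ∈ S, ∀ j ∈ S, i ≠ j → IsCoprime (m i) (m j)) {x : N}
    (hx : ∀ i ∈ S, x ∈ m i • (⊤ : Submodule R N)) :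
    x ∈ (∏ i ∈ S, m i) • (⊤ : Submodule R N) := by
  classical
  induction S using Finset.induction_on with
  | empty =>
    rw [Finset.prod_empty, Ideal.one_eq_top, Submodule.top_smul]
    trivial
  | insert a S ha ih =>
    rw [Finset.prod_insert ha]
    refine mem_mul_smul_top_of_isCoprime ?_ (hx a (Finset.mem_insert_self a S)) (ih ?_ ?_)
    · refine IsCoprime.prod_right fun i hi => ?_
      exact hm a (Finset.mem_insert_self a S) i (Finset.mem_insert_of_mem hi)
        (fun h => ha (h ▸ hi))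
    · intro i hi j hj hij
      exact hm i (Finset.mem_insert_of_mem hi) j (Finset.mem_insert_of_mem hj) hij
    · intro i hi
      exact hx i (Finset.mem_insert_of_mem hi)

theorem mem_smul_top_of_mem_prod {ι : Type*} (S : Finset ι) (m : ι → Ideal R) {x : N}
    (hx : x ∈ (∏ i ∈ S, m i) • (⊤ : Submodule R N)) {i : ι} (hi : i ∈ S) :
    x ∈ m i • (⊤ : Submodule R N) :=
  Submodule.smul_mono_left (Ideal.prod_le_inf.trans (Finset.inf_le hi)) hx

end Coprime

/-! ### Cutting down a finite dimensional space -/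

section Cut

variable {K V ι : Type*} [Field K] [AddCommGroup V] [Module K V] [FiniteDimensional K V]

theorem exists_subset_forall_eq_zero (Sg : Finset ι) (W : ι → Submodule K V)
    (hSg : ∀ z : V, z ≠ 0 → ∃ R ∈ Sg, z ∉ W R) (n : ℕ) (hn : Module.finrank K V ≤ n)
    (hcard : n ≤ Sg.card) :
    ∃ S ⊆ Sg, S.card = n ∧ ∀ z : V, (∀ R ∈ S, z ∈ W R) → z = 0 := by
  classical
  have key : ∀ i : ℕ, i ≤ n → ∃ S ⊆ Sg, S.card = i ∧
      Module.finrank K (⨅ R ∈ S, W R : Submodule K V) + i ≤ n := by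
    intro i
    induction i with
    | zero =>
      intro _
      refine ⟨∅, Finset.empty_subset _, rfl, ?_⟩
      have h0 : (⨅ R ∈ (∅ : Finset ι), W R : Submodule K V) = ⊤ := by simp
      rw [h0, finrank_top]
      exact hn
    | succ i ih =>
      intro hi
      obtain ⟨S, hS, hSc, hfr⟩ := ih (by omega)
      by_cases hbot : (⨅ R ∈ S, W R : Submodule K V) = ⊥
      · obtain ⟨R, hR, hRS⟩ := Finset.exists_mem_notMem_of_card_lt_card
          (s := S) (t := Sg) (by omega)
        refine ⟨insert R S, Finset.insert_subset hR hS, by rw [Finset.card_insert_of_notMem hRS, hSc],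
          ?_⟩
        have h0 : (⨅ R' ∈ insert R S, W R' : Submodule K V) = ⊥ := by
          rw [Finset.iInf_insert, hbot, inf_bot_eq]
        rw [h0, finrank_bot]
        omega
      · obtain ⟨z, hz, hz0⟩ := (Submodule.ne_bot_iff _).mp hbot
        obtain ⟨R, hR, hzR⟩ := hSg z hz0
        have hRS : R ∉ S := by
          intro hRS
          apply hzR
          simp only [Submodule.mem_iInf] at hz
          exact hz R hRS
        refine ⟨insert R S, Finset.insert_subset hR hS, by rw [Finset.card_insert_of_notMem hRS, hSc],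
          ?_⟩
        have hlt : (⨅ R' ∈ insert R S, W R' : Submodule K V) < ⨅ R ∈ S, W R := by
          rw [Finset.iInf_insert]
          refine lt_of_le_of_ne inf_le_right fun heq => hzR ?_
          have : z ∈ W R ⊓ ⨅ R ∈ S, W R := by rw [heq]; exact hz
          exact this.1
        have := Submodule.finrank_lt_finrank_of_lt hlt
        omega
  obtain ⟨S, hS, hSc, hfr⟩ := key n le_rfl
  refine ⟨S, hS, hSc, fun z hz => ?_⟩
  have h0 : Module.finrank K (⨅ R ∈ S, W R : Submodule K V) = 0 := by omega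
  rw [Submodule.finrank_eq_zero] at h0
  have : z ∈ (⨅ R ∈ S, W R : Submodule K V) := by
    simp only [Submodule.mem_iInf]
    exact hz
  rw [h0] at this
  exact (Submodule.mem_bot K).mp this

end Cut

open Triple

variable {k : Type u} [Field k] {𝔠 : CurveCharts k}

/-! ### Isomorphism classes of triples -/

section Cl

variable (𝔠) (A : Type u) [CommRing A] [Algebra k A]

/-- the setoid of isomorphism of triples -/
def isoSetoid : Setoid (Triple 𝔠 A) where
  r T T' := Nonempty (Iso T T')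
  iseqv := ⟨fun T => ⟨Iso.refl T⟩, fun ⟨e⟩ => ⟨e.symm⟩, fun ⟨e⟩ ⟨e'⟩ => ⟨e.trans e'⟩⟩

/-- isomorphism classes of triples -/
def Cl : Type (u + 1) := Quotient (isoSetoid 𝔠 A)

variable {𝔠 A}

/-- the class of a triple -/
def cl (T : Triple 𝔠 A) : Cl 𝔠 A := Quotient.mk (isoSetoid 𝔠 A) T

theorem cl_eq_iff {T T' : Triple 𝔠 A} : cl T = cl T' ↔ Nonempty (Iso T T') :=
  ⟨fun h => Quotient.exact h, fun h => Quotient.sound h⟩

theorem cl_eq {T T' : Triple 𝔠 A} (e : Iso T T') : cl T = cl T' := cl_eq_iff.mpr ⟨e⟩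

noncomputable instance : CommMonoid (Cl 𝔠 A) where
  mul := Quotient.map₂ Triple.tensor (fun _ _ ⟨e⟩ _ _ ⟨e'⟩ => ⟨e.tensor e'⟩)
  one := cl (unit 𝔠 A)
  mul_assoc := by
    rintro ⟨a⟩ ⟨b⟩ ⟨c⟩
    exact Quotient.sound ⟨tensorAssoc a b c⟩
  one_mul := by
    rintro ⟨a⟩
    exact Quotient.sound ⟨unitTensor a⟩
  mul_one := by
    rintro ⟨a⟩
    exact Quotient.sound ⟨tensorUnit a⟩
  mul_comm := by
    rintro ⟨a⟩ ⟨b⟩
    exact Quotient.sound ⟨tensorComm a b⟩

theorem cl_tensor (T T' : Triple 𝔠 A) : cl (T.tensor T') = cl T * cl T' := rfl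

theorem cl_unit : cl (unit 𝔠 A) = 1 := rfl

theorem cl_mul_dual {T : Triple 𝔠 A} (h : T.IsInvertible) : cl T * cl (dual T) = 1 :=
  cl_eq (tensorDualIso h)

theorem cl_mul_ihom {T : Triple 𝔠 A} (h : T.IsInvertible) (T' : Triple 𝔠 A) :
    cl T * cl (ihom T T') = cl T' :=
  cl_eq (evIso h T')

theorem cl_ihom {T : Triple 𝔠 A} (h : T.IsInvertible) (T' : Triple 𝔠 A) :
    cl (ihom T T') = cl (dual T) * cl T' := by
  calc cl (ihom T T') = (cl T * cl (dual T)) * cl (ihom T T') := by rw [cl_mul_dual h, one_mul]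
    _ = cl (dual T) * (cl T * cl (ihom T T')) := by
      rw [mul_comm (cl T) (cl (dual T)), mul_assoc]
    _ = cl (dual T) * cl T' := by rw [cl_mul_ihom h]

end Cl

/-! ### `δ` and isomorphisms -/

theorem bijective_δ_of_iso {A : Type u} [CommRing A] [Algebra k A] {T T' : Triple 𝔠 A}
    (e : Iso T T') (h : Function.Bijective T.δ) : Function.Bijective T'.δ := by
  have h1 : (T'.δ : T'.N₁ × T'.N₂ → T'.N₁₂) = e.equiv₁ ∘ T.δ ∘ e.equiv₀.symm := by
    funext z
    simp only [Function.comp_apply]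
    rw [e.equiv₁_δ, LinearEquiv.apply_symm_apply]
  rw [h1]
  exact e.equiv₁.bijective.comp (h.comp e.equiv₀.symm.bijective)

theorem bijective_δ_of_h0_h1 {K : Type u} [Field K] [Algebra k K] (T : Triple 𝔠 K)
    (hf : Module.Finite K (LinearMap.ker T.δ) ∧ Module.Finite K (T.N₁₂ ⧸ LinearMap.range T.δ))
    (h0 : T.h0 = 0) (h1 : T.h1 = 0) : Function.Bijective T.δ := by
  obtain ⟨f0, f1⟩ := hf
  constructor
  · rw [← LinearMap.ker_eq_bot]
    exact Submodule.finrank_eq_zero.mp h0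
  · have : Subsingleton (T.N₁₂ ⧸ LinearMap.range T.δ) := Module.finrank_zero_iff.mp h1
    rw [← LinearMap.range_eq_top]
    exact Submodule.Quotient.subsingleton_iff.mp this

/-! ### `degInf > 0` -/

section DegInf

variable (𝔠)

theorem not_isUnit_y : ¬ IsUnit 𝔠.y := by
  rintro ⟨u, hu⟩
  have h1 : algebraMap 𝔠.B₁ 𝔠.B₁₂ 𝔠.x = algebraMap 𝔠.B₂ 𝔠.B₁₂ (↑u⁻¹ : 𝔠.B₂) := by
    have h2 : algebraMap 𝔠.B₂ 𝔠.B₁₂ 𝔠.y * algebraMap 𝔠.B₂ 𝔠.B₁₂ (↑u⁻¹ : 𝔠.B₂) = 1 := by
      rw [← map_mul, ← hu, Units.mul_inv, map_one]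
    calc algebraMap 𝔠.B₁ 𝔠.B₁₂ 𝔠.x
        = algebraMap 𝔠.B₁ 𝔠.B₁₂ 𝔠.x *
          (algebraMap 𝔠.B₂ 𝔠.B₁₂ 𝔠.y * algebraMap 𝔠.B₂ 𝔠.B₁₂ (↑u⁻¹ : 𝔠.B₂)) := by
            rw [h2, mul_one]
      _ = algebraMap 𝔠.B₂ 𝔠.B₁₂ (↑u⁻¹ : 𝔠.B₂) := by rw [← mul_assoc, 𝔠.xy, one_mul]
  obtain ⟨c, hc⟩ := 𝔠.const _ _ h1
  exact 𝔠.trans₁ (hc ▸ isAlgebraic_algebraMap c)

theorem finite_quot_y : Module.Finite k (𝔠.B₂ ⧸ Ideal.span {𝔠.y}) := by
  have h1 : ((Ideal.Quotient.mk (Ideal.span {𝔠.y})).comp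
      (Polynomial.aeval (R := k) 𝔠.y).toRingHom).Finite :=
    (RingHom.Finite.of_surjective _ Ideal.Quotient.mk_surjective).comp 𝔠.fin₂
  have h2 : (Ideal.Quotient.mk (Ideal.span {𝔠.y})).comp (Polynomial.aeval (R := k) 𝔠.y).toRingHom
      = (algebraMap k (𝔠.B₂ ⧸ Ideal.span {𝔠.y})).comp (Polynomial.evalRingHom 0) := by
    apply Polynomial.ringHom_ext
    · intro a
      simp
    · simp only [RingHom.comp_apply, Polynomial.coe_evalRingHom, Polynomial.eval_X, map_zero]
      rw [Ideal.Quotient.eq_zero_iff_mem]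
      simp
  rw [h2] at h1
  exact RingHom.finite_algebraMap.mp (RingHom.Finite.of_comp_finite h1)

theorem degInf_pos : 0 < 𝔠.degInf := by
  have := finite_quot_y 𝔠
  have : Nontrivial (𝔠.B₂ ⧸ Ideal.span {𝔠.y}) := by
    rw [Ideal.Quotient.nontrivial_iff]
    intro h
    exact not_isUnit_y 𝔠 (Ideal.span_singleton_eq_top.mp h)
  exact Module.finrank_pos

end DegInf

end Fermat.Agent.S25.Covering
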