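/-
S25 / block X, task X5 (helper151): the COVERING LEMMA `exists_twists`, proved from the other nodes
of the skeleton `WIP/ChartsSkeleton.lean`, which are collected (verbatim) in the hypothesis
structure `CoveringHyp 𝔠`.

Proof.  `g` = genus, `n₀` = degInf `> 0`, `m₀` from `exists_h1_vanishing`.  Fix `j` with
`n := j n₀ - g ≥ max m₀ 0` and a set `Sg` of `j n₀` points of `W₁(k)`.  The family is
`E_S := Idiv (∏_{R ∈ S} 𝔪_R) ⊗ Otw j`, `S ⊆ Sg`, `#S = n`.  For `T ∈ Pic⁰(K)` the bundle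
`M₀ := T^∨ ⊗ Otw j ⊗ IP0` has `χ = n ≥ m₀`, so `h¹ = 0`, `h⁰ = n`.  A nonzero section of `M₀` cannot
vanish at all points of `Sg` (degree count), so the `n`-dimensional space `H⁰(M₀)` is killed by the
vanishing conditions at `n` suitable points of `Sg`.  Then `M₀ ⊗ Idiv (∏_{R ∈ S} 𝔪_R)` has `h⁰ = 0`
and `χ = 0`.
-/
import Fermat.Agent.S25.Charts.CoveringAux

set_option autoImplicit false

universe u

open scoped TensorProduct

namespace Fermat.Agent.S25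

open Triple

variable {k : Type u} [Field k]

/-- The nodes of the skeleton used in the proof of the covering lemma. -/
structure CoveringHyp (𝔠 : CurveCharts k) : Prop where
  Idiv_isInvertible : ∀ {A : Type u} [CommRing A] [Algebra k A] {I : Ideal (𝔠.R₁ A)} {r : ℕ},
    IsDiv A I r → (Idiv I).IsInvertible
  Idiv_isRigid : ∀ {A : Type u} [CommRing A] [Algebra k A] {I : Ideal (𝔠.R₁ A)} {r : ℕ},
    IsDiv A I r → (Idiv I).IsRigid
  Idiv_bc : ∀ {A : Type u} [CommRing A] [Algebra k A] {A' : Type u} [CommRing A'] [Algebra k A']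
    {I : Ideal (𝔠.R₁ A)} {r : ℕ}, IsDiv A I r → ∀ φ : A →ₐ[k] A',
    IsBC φ (Idiv I) (Idiv (I.map (𝔠.bc₁ φ).toRingHom))
  isDiv_mul : ∀ {A : Type u} [CommRing A] [Algebra k A] {I I' : Ideal (𝔠.R₁ A)} {r r' : ℕ},
    IsDiv A I r → IsDiv A I' r' → IsDiv A (I * I') (r + r')
  isDiv_graphIdeal₁ : ∀ {A : Type u} [CommRing A] [Algebra k A] (σ : 𝔠.B₁ →ₐ[k] A),
    IsDiv A (graphIdeal₁ σ) 1
  graphIdeal₁_map : ∀ {A : Type u} [CommRing A] [Algebra k A] {A' : Type u} [CommRing A']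
    [Algebra k A'] (σ : 𝔠.B₁ →ₐ[k] A) (φ : A →ₐ[k] A'),
    (graphIdeal₁ σ).map (𝔠.bc₁ φ).toRingHom = graphIdeal₁ (φ.comp σ)
  isDiv₂_graphIdeal₂ : ∀ {A : Type u} [CommRing A] [Algebra k A] (τ : 𝔠.B₂ →ₐ[k] A),
    IsDiv₂ A (graphIdeal₂ τ) 1
  IP0_isInvertible : ∀ {A : Type u} [CommRing A] [Algebra k A], (IP0 𝔠 A).IsInvertible
  Otw_isInvertible : ∀ {A : Type u} [CommRing A] [Algebra k A] (j : ℕ), (Otw 𝔠 A j).IsInvertible
  Otw_isRigid : ∀ {A : Type u} [CommRing A] [Algebra k A] (j : ℕ), (Otw 𝔠 A j).IsRigid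
  Otw_bc : ∀ {A : Type u} [CommRing A] [Algebra k A] {A' : Type u} [CommRing A'] [Algebra k A']
    (j : ℕ) (φ : A →ₐ[k] A'), IsBC φ (Otw 𝔠 A j) (Otw 𝔠 A' j)
  finite_cohomology : ∀ {K : Type u} [Field K] [Algebra k K] (T : Triple 𝔠 K), T.IsInvertible →
    Module.Finite K (LinearMap.ker T.δ) ∧ Module.Finite K (T.N₁₂ ⧸ LinearMap.range T.δ)
  h0_unit : ∀ {K : Type u} [Field K] [Algebra k K], (unit 𝔠 K).h0 = 1
  h1_unit : ∀ {K : Type u} [Field K] [Algebra k K], (unit 𝔠 K).h1 = 𝔠.genus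
  chi_tensor_Idiv : ∀ {K : Type u} [Field K] [Algebra k K] (T : Triple 𝔠 K), T.IsInvertible →
    ∀ {I : Ideal (𝔠.R₁ K)} {r : ℕ}, IsDiv K I r → (T.tensor (Idiv I)).chi = T.chi - r
  chi_tensor_Idiv₂ : ∀ {K : Type u} [Field K] [Algebra k K] (T : Triple 𝔠 K), T.IsInvertible →
    ∀ {I : Ideal (𝔠.R₂ K)} {r : ℕ}, IsDiv₂ K I r → (T.tensor (Idiv₂ I)).chi = T.chi - r
  chi_tensor_Otw : ∀ {K : Type u} [Field K] [Algebra k K] (T : Triple 𝔠 K), T.IsInvertible →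
    ∀ j : ℕ, (T.tensor (Otw 𝔠 K j)).chi = T.chi + j * 𝔠.degInf
  h0_tensor_Idiv_pos_iff : ∀ {K : Type u} [Field K] [Algebra k K] (T : Triple 𝔠 K),
    T.IsInvertible → ∀ {I : Ideal (𝔠.R₁ K)} {r : ℕ}, IsDiv K I r →
    (0 < (T.tensor (Idiv I)).h0 ↔
      ∃ z ∈ LinearMap.ker T.δ, z ≠ 0 ∧ z.1 ∈ I • (⊤ : Submodule (𝔠.R₁ K) T.N₁))
  chi_ge_of_h0_pos : ∀ {K : Type u} [Field K] [Algebra k K] (T : Triple 𝔠 K), T.IsInvertible →
    0 < T.h0 → (unit 𝔠 K).chi ≤ T.chi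
  deg_ihom : ∀ {K : Type u} [Field K] [Algebra k K] (T T' : Triple 𝔠 K), T.IsInvertible →
    T'.IsInvertible → (ihom T T').deg = T'.deg - T.deg
  exists_h1_vanishing : ∃ m₀ : ℤ, ∀ (K : Type u) [Field K] [Algebra k K]
    (T : Triple 𝔠 K), T.IsInvertible → m₀ ≤ T.chi → T.h1 = 0

namespace Covering

variable {𝔠 : CurveCharts k}

/-! ### Divisors supported at finitely many points -/

section Div

variable {A : Type u} [CommRing A] [Algebra k A]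

theorem isDiv_top : IsDiv (𝔠 := 𝔠) A ⊤ 0 := by
  have : Subsingleton (𝔠.R₁ A ⧸ (⊤ : Ideal (𝔠.R₁ A))) := Ideal.Quotient.subsingleton_iff.mpr rfl
  exact
    { finite := inferInstance
      proj := inferInstance
      rank := fun p => by
        rw [Module.rankAtStalk_eq_zero_of_subsingleton]
        rfl }

/-- the ideal of a finite set of `A`-valued points of `W₁` -/
noncomputable def ptsIdeal {ι : Type*} (S : Finset ι) (σ : ι → (𝔠.B₁ →ₐ[k] A)) : Ideal (𝔠.R₁ A) :=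
  ∏ R ∈ S, graphIdeal₁ (σ R)

theorem isDiv_ptsIdeal (h : CoveringHyp 𝔠) {ι : Type*} (S : Finset ι) (σ : ι → (𝔠.B₁ →ₐ[k] A)) :
    IsDiv A (ptsIdeal S σ) S.card := by
  classical
  unfold ptsIdeal
  induction S using Finset.induction_on with
  | empty =>
    rw [Finset.prod_empty, Ideal.one_eq_top, Finset.card_empty]
    exact isDiv_top
  | insert a S ha ih =>
    rw [Finset.prod_insert ha, Finset.card_insert_of_notMem ha, add_comm]
    exact h.isDiv_mul (h.isDiv_graphIdeal₁ _) ih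

theorem ptsIdeal_map (h : CoveringHyp 𝔠) {A' : Type u} [CommRing A'] [Algebra k A'] {ι : Type*}
    (S : Finset ι) (σ : ι → (𝔠.B₁ →ₐ[k] A)) (φ : A →ₐ[k] A') :
    (ptsIdeal S σ).map (𝔠.bc₁ φ).toRingHom = ptsIdeal S (fun R => φ.comp (σ R)) := by
  unfold ptsIdeal
  rw [← Ideal.mapHom_apply, map_prod]
  exact Finset.prod_congr rfl fun R _ => h.graphIdeal₁_map _ _

end Div

/-! ### Graph ideals -/

section Graph

variable {A : Type u} [CommRing A] [Algebra k A]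

theorem sub_mem_graphIdeal₁ (σ : 𝔠.B₁ →ₐ[k] A) (b : 𝔠.B₁) :
    ((1 : A) ⊗ₜ[k] b - σ b ⊗ₜ[k] (1 : 𝔠.B₁) : 𝔠.R₁ A) ∈ graphIdeal₁ σ := by
  unfold graphIdeal₁
  rw [RingHom.mem_ker]
  simp

theorem isCoprime_graphIdeal₁ (σ σ' : 𝔠.B₁ →ₐ[k] A) (b : 𝔠.B₁) (hb : IsUnit (σ b - σ' b)) :
    IsCoprime (graphIdeal₁ σ) (graphIdeal₁ σ') := by
  obtain ⟨d, hd⟩ := hb
  rw [Ideal.isCoprime_iff_exists]
  refine ⟨-(((↑d⁻¹ : A) ⊗ₜ[k] (1 : 𝔠.B₁) : 𝔠.R₁ A) * ((1 : A) ⊗ₜ[k] b - σ b ⊗ₜ[k] (1 : 𝔠.B₁))),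
    neg_mem (Ideal.mul_mem_left _ _ (sub_mem_graphIdeal₁ σ b)),
    (((↑d⁻¹ : A) ⊗ₜ[k] (1 : 𝔠.B₁) : 𝔠.R₁ A) * ((1 : A) ⊗ₜ[k] b - σ' b ⊗ₜ[k] (1 : 𝔠.B₁))),
    Ideal.mul_mem_left _ _ (sub_mem_graphIdeal₁ σ' b), ?_⟩
  have h1 : -(((↑d⁻¹ : A) ⊗ₜ[k] (1 : 𝔠.B₁) : 𝔠.R₁ A) * ((1 : A) ⊗ₜ[k] b - σ b ⊗ₜ[k] (1 : 𝔠.B₁)))
      + (((↑d⁻¹ : A) ⊗ₜ[k] (1 : 𝔠.B₁) : 𝔠.R₁ A) * ((1 : A) ⊗ₜ[k] b - σ' b ⊗ₜ[k] (1 : 𝔠.B₁)))
      = ((↑d⁻¹ : A) ⊗ₜ[k] (1 : 𝔠.B₁) : 𝔠.R₁ A) * ((σ b - σ' b) ⊗ₜ[k] (1 : 𝔠.B₁)) := by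
    rw [TensorProduct.sub_tmul]
    ring
  rw [h1, ← hd, Algebra.TensorProduct.tmul_mul_tmul, Units.inv_mul, mul_one,
    Algebra.TensorProduct.one_def]

theorem ker_ev₀_eq : RingHom.ker (𝔠.ev₀ A).toRingHom
    = graphIdeal₂ ((Algebra.ofId k A).comp 𝔠.e₀) := by
  unfold graphIdeal₂
  congr 2
  apply AlgHom.ext
  intro z
  induction z using TensorProduct.induction_on with
  | zero => simp
  | tmul a b =>
    simp [CurveCharts.ev₀, Algebra.ofId_apply, Algebra.smul_def, mul_comm]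
  | add x y hx hy => rw [map_add, map_add, hx, hy]

end Graph

/-! ### Numerical facts over a field -/

section Num

variable {K : Type u} [Field K] [Algebra k K]

theorem chi_unit (h : CoveringHyp 𝔠) : (unit 𝔠 K).chi = 1 - (𝔠.genus : ℤ) := by
  rw [chi, h.h0_unit, h.h1_unit]
  rfl

theorem chi_Idiv (h : CoveringHyp 𝔠) {I : Ideal (𝔠.R₁ K)} {r : ℕ} (hI : IsDiv K I r) :
    (Idiv I).chi = 1 - (𝔠.genus : ℤ) - r := by
  rw [← (unitTensor (Idiv I)).chi_eq, h.chi_tensor_Idiv _ unit_isInvertible hI, chi_unit h]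

theorem chi_tensor_IP0 (h : CoveringHyp 𝔠) (T : Triple 𝔠 K) (hT : T.IsInvertible) :
    (T.tensor (IP0 𝔠 K)).chi = T.chi - 1 := by
  have h1 : IsDiv₂ K (RingHom.ker (𝔠.ev₀ K).toRingHom) 1 := by
    rw [ker_ev₀_eq]
    exact h.isDiv₂_graphIdeal₂ _
  have := h.chi_tensor_Idiv₂ T hT h1
  rw [Nat.cast_one] at this
  exact this

theorem chi_dual (h : CoveringHyp 𝔠) (T : Triple 𝔠 K) (hT : T.IsPic0) :
    (dual T).chi = 1 - (𝔠.genus : ℤ) := by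
  have h1 := h.deg_ihom T (unit 𝔠 K) hT.inv unit_isInvertible
  have h2 : T.chi = (unit 𝔠 K).chi := hT.deg0 K (AlgHom.id k K) T ⟨BaseChange.id T⟩
  unfold Triple.deg at h1
  rw [h2, sub_self, sub_eq_zero] at h1
  rw [dual, h1, chi_unit h]

end Num

/-! ### The family of twists -/

section Family

variable (𝔠)

/-- `E_S = 𝒪(j D_∞ - ∑_{R ∈ S} R)` -/
noncomputable def twist (j : ℕ) (S : Finset (𝔠.B₁ →ₐ[k] k)) : Triple 𝔠 k :=
  (Idiv (ptsIdeal S id)).tensor (Otw 𝔠 k j)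

variable {𝔠}

theorem twist_isInvertible (h : CoveringHyp 𝔠) (j : ℕ) (S : Finset (𝔠.B₁ →ₐ[k] k)) :
    (twist 𝔠 j S).IsInvertible :=
  (h.Idiv_isInvertible (isDiv_ptsIdeal h S id)).tensor (h.Otw_isInvertible j)

theorem twist_isRigid (h : CoveringHyp 𝔠) (j : ℕ) (S : Finset (𝔠.B₁ →ₐ[k] k)) :
    (twist 𝔠 j S).IsRigid :=
  (h.Idiv_isRigid (isDiv_ptsIdeal h S id)).tensor (h.Otw_isRigid j)

theorem twist_deg (h : CoveringHyp 𝔠) (j : ℕ) (S : Finset (𝔠.B₁ →ₐ[k] k)) :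
    (twist 𝔠 j S).deg = (j : ℤ) * 𝔠.degInf - S.card := by
  unfold Triple.deg twist
  rw [h.chi_tensor_Otw _ (h.Idiv_isInvertible (isDiv_ptsIdeal h S id)),
    chi_Idiv h (isDiv_ptsIdeal h S id), chi_unit h]
  ring

variable {K : Type u} [Field K] [Algebra k K]

/-- the points of `S`, as `K`-valued points -/
noncomputable def ptK (K : Type u) [Field K] [Algebra k K] (R : 𝔠.B₁ →ₐ[k] k) : 𝔠.B₁ →ₐ[k] K :=
  (Algebra.ofId k K).comp R

theorem isCoprime_ptK {R R' : 𝔠.B₁ →ₐ[k] k} (hR : R ≠ R') :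
    IsCoprime (graphIdeal₁ (ptK K R)) (graphIdeal₁ (ptK K R')) := by
  obtain ⟨b, hb⟩ := DFunLike.ne_iff.mp hR
  refine isCoprime_graphIdeal₁ _ _ b (IsUnit.mk0 _ ?_)
  have h1 : ptK K R b - ptK K R' b = algebraMap k K (R b - R' b) := by
    simp [ptK, Algebra.ofId_apply]
  rw [h1]
  exact (map_ne_zero _).mpr (sub_ne_zero.mpr hb)

theorem cl_twist_const (h : CoveringHyp 𝔠) (j : ℕ) (S : Finset (𝔠.B₁ →ₐ[k] k)) :
    cl ((twist 𝔠 j S).const K) = cl (Idiv (ptsIdeal S (ptK K))) * cl (Otw 𝔠 K j) := by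
  obtain ⟨b₁⟩ := h.Idiv_bc (isDiv_ptsIdeal h S id) (Algebra.ofId k K)
  obtain ⟨b₂⟩ := h.Otw_bc (A := k) (A' := K) j (Algebra.ofId k K)
  rw [ptsIdeal_map h] at b₁
  rw [← cl_tensor]
  exact cl_eq ((bcData (Algebra.ofId k K) (twist 𝔠 j S)).unique (b₁.tensor b₂))

/-- `M₀ = T^∨ ⊗ 𝒪(j D_∞) ⊗ 𝒪(-P₀)` -/
noncomputable def M₀ (j : ℕ) (T : Triple 𝔠 K) : Triple 𝔠 K :=
  ((dual T).tensor (Otw 𝔠 K j)).tensor (IP0 𝔠 K)

theorem M₀_isInvertible (h : CoveringHyp 𝔠) (j : ℕ) (T : Triple 𝔠 K) (hT : T.IsInvertible) :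
    (M₀ j T).IsInvertible :=
  ((dual_isInvertible hT).tensor (h.Otw_isInvertible j)).tensor h.IP0_isInvertible

theorem chi_M₀ (h : CoveringHyp 𝔠) (j : ℕ) (T : Triple 𝔠 K) (hT : T.IsPic0) :
    (M₀ j T).chi = (j : ℤ) * 𝔠.degInf - 𝔠.genus := by
  unfold M₀
  rw [chi_tensor_IP0 h _ ((dual_isInvertible hT.inv).tensor (h.Otw_isInvertible j)),
    h.chi_tensor_Otw _ (dual_isInvertible hT.inv), chi_dual h T hT]
  ring

theorem cl_NS (h : CoveringHyp 𝔠) (j : ℕ) (S : Finset (𝔠.B₁ →ₐ[k] k)) (T : Triple 𝔠 K)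
    (hT : T.IsInvertible) :
    cl ((M₀ j T).tensor (Idiv (ptsIdeal S (ptK K))))
      = cl ((ihom T ((twist 𝔠 j S).const K)).tensor (IP0 𝔠 K)) := by
  unfold M₀
  rw [cl_tensor, cl_tensor, cl_tensor, cl_tensor, cl_ihom hT, cl_twist_const h]
  ac_rfl

end Family

/-! ### The main argument -/

section Main

variable {K : Type u} [Field K] [Algebra k K]

/-- the sections of `M` vanishing along `I` -/
noncomputable def vanish (M : Triple 𝔠 K) (I : Ideal (𝔠.R₁ K)) :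
    Submodule K (LinearMap.ker M.δ) :=
  ((I • (⊤ : Submodule (𝔠.R₁ K) M.N₁)).restrictScalars K).comap
    ((LinearMap.fst K M.N₁ M.N₂).comp (LinearMap.ker M.δ).subtype)

theorem mem_vanish (M : Triple 𝔠 K) (I : Ideal (𝔠.R₁ K)) (z : LinearMap.ker M.δ) :
    z ∈ vanish M I ↔ z.1.1 ∈ I • (⊤ : Submodule (𝔠.R₁ K) M.N₁) := Iff.rfl

theorem exists_NS (h : CoveringHyp 𝔠) (j n : ℕ) (hn : (n : ℤ) = (j : ℤ) * 𝔠.degInf - 𝔠.genus)
    (hvan : ∀ M : Triple 𝔠 K, M.IsInvertible → (n : ℤ) ≤ M.chi → M.h1 = 0)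
    (Sg : Finset (𝔠.B₁ →ₐ[k] k)) (hSg : Sg.card = j * 𝔠.degInf) (T : Triple 𝔠 K)
    (hT : T.IsPic0) : ∃ S ⊆ Sg, S.card = n ∧ NS (twist 𝔠 j S) T := by
  have hM : (M₀ j T).IsInvertible := M₀_isInvertible h j T hT.inv
  have hchi : (M₀ j T).chi = n := by rw [chi_M₀ h j T hT, hn]
  have hh1 : (M₀ j T).h1 = 0 := hvan _ hM hchi.ge
  have hh0 : (M₀ j T).h0 = n := by
    have := hchi
    rw [chi, hh1] at this
    simpa using this
  have hfin : Module.Finite K (LinearMap.ker (M₀ j T).δ) := (h.finite_cohomology _ hM).1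
  have hinvS : ∀ S : Finset (𝔠.B₁ →ₐ[k] k),
      ((M₀ j T).tensor (Idiv (ptsIdeal S (ptK K)))).IsInvertible := fun S =>
    hM.tensor (h.Idiv_isInvertible (isDiv_ptsIdeal h S _))
  have hchiS : ∀ S : Finset (𝔠.B₁ →ₐ[k] k),
      ((M₀ j T).tensor (Idiv (ptsIdeal S (ptK K)))).chi = (n : ℤ) - S.card := fun S => by
    rw [h.chi_tensor_Idiv _ hM (isDiv_ptsIdeal h S _), hchi]
  have hcard : n ≤ Sg.card := by
    have : (n : ℤ) ≤ (Sg.card : ℤ) := by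
      rw [hSg, hn]
      push_cast
      omega
    exact_mod_cast this
  have hnv : ∀ z : LinearMap.ker (M₀ j T).δ, z ≠ 0 →
      ∃ R ∈ Sg, z ∉ vanish (M₀ j T) (graphIdeal₁ (ptK K R)) := by
    intro z hz0
    by_contra hcon
    push Not at hcon
    have hzI : z.1.1 ∈ ptsIdeal Sg (ptK K) • (⊤ : Submodule (𝔠.R₁ K) (M₀ j T).N₁) :=
      mem_prod_smul_top Sg _ (fun R _ R' _ hRR' => isCoprime_ptK hRR')
        (fun R hR => (mem_vanish _ _ _).mp (hcon R hR))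
    have hpos : 0 < ((M₀ j T).tensor (Idiv (ptsIdeal Sg (ptK K)))).h0 :=
      (h.h0_tensor_Idiv_pos_iff _ hM (isDiv_ptsIdeal h Sg _)).mpr
        ⟨z.1, z.2, fun h0 => hz0 (Subtype.ext h0), hzI⟩
    have := h.chi_ge_of_h0_pos _ (hinvS Sg) hpos
    rw [hchiS, chi_unit h, hSg, hn] at this
    push_cast at this
    omega
  obtain ⟨S, hS, hSc, hS0⟩ := exists_subset_forall_eq_zero Sg
    (fun R => vanish (M₀ j T) (graphIdeal₁ (ptK K R))) hnv n hh0.le hcard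
  refine ⟨S, hS, hSc, ?_⟩
  obtain ⟨e⟩ := cl_eq_iff.mp (cl_NS h j S T hT.inv)
  refine bijective_δ_of_iso e ?_
  have h0 : ((M₀ j T).tensor (Idiv (ptsIdeal S (ptK K)))).h0 = 0 := by
    by_contra hne
    obtain ⟨z, hz, hz0, hzI⟩ :=
      (h.h0_tensor_Idiv_pos_iff _ hM (isDiv_ptsIdeal h S _)).mp (Nat.pos_of_ne_zero hne)
    have := hS0 ⟨z, hz⟩ fun R hR => (mem_vanish _ _ _).mpr (mem_smul_top_of_mem_prod S _ hzI hR)
    exact hz0 (congrArg Subtype.val this)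
  refine bijective_δ_of_h0_h1 _ (h.finite_cohomology _ (hinvS S)) h0 ?_
  have := hchiS S
  rw [chi, h0, hSc] at this
  simpa using this

end Main

end Covering

open Covering in
/-- COVERING LEMMA, from the other nodes of the skeleton. -/
theorem exists_twists_of [IsAlgClosed k] {𝔠 : CurveCharts k} (h : CoveringHyp 𝔠) :
    ∃ (n : ℕ) (E : Fin n → Triple 𝔠 k),
    (∀ j, (E j).IsInvertible ∧ (E j).IsRigid ∧ (E j).deg = 𝔠.genus) ∧
    ∀ (K : Type u) [Field K] [Algebra k K] (T : Triple 𝔠 K), T.IsPic0 → ∃ j, NS (E j) T := by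
  classical
  obtain ⟨m₀, hm₀⟩ := h.exists_h1_vanishing
  have hpos := degInf_pos 𝔠
  set j : ℕ := 𝔠.genus + m₀.toNat with hj
  have hjle : j ≤ j * 𝔠.degInf := Nat.le_mul_of_pos_right _ hpos
  set n : ℕ := j * 𝔠.degInf - 𝔠.genus with hn
  have hn' : (n : ℤ) = (j : ℤ) * 𝔠.degInf - 𝔠.genus := by
    rw [hn, Nat.cast_sub (by omega)]
    push_cast
    rfl
  have hm₀n : m₀ ≤ n := by
    have : m₀.toNat ≤ n := by omega
    have h2 := Int.self_le_toNat m₀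
    omega
  have : Infinite (𝔠.B₁ →ₐ[k] k) :=
    have := Points.infinite_points₁₂ 𝔠
    Infinite.of_injective _ (Points.restr₁_injective 𝔠 (A := k))
  obtain ⟨Sg, hSg⟩ := Infinite.exists_subset_card_eq (𝔠.B₁ →ₐ[k] k) (j * 𝔠.degInf)
  refine ⟨(Finset.powersetCard n Sg).card,
    fun i => twist 𝔠 j ((Finset.powersetCard n Sg).equivFin.symm i).1, fun i => ?_,
    fun K _ _ T hT => ?_⟩
  · refine ⟨twist_isInvertible h _ _, twist_isRigid h _ _, ?_⟩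
    have hmem := ((Finset.powersetCard n Sg).equivFin.symm i).2
    rw [twist_deg h, (Finset.mem_powersetCard.mp hmem).2, hn']
    ring
  · obtain ⟨S, hS, hSc, hNS⟩ := exists_NS h j n hn'
      (fun M hM hle => hm₀ K M hM (hm₀n.trans hle)) Sg hSg T hT
    refine ⟨(Finset.powersetCard n Sg).equivFin ⟨S, Finset.mem_powersetCard.mpr ⟨hS, hSc⟩⟩, ?_⟩
    show NS (twist 𝔠 j ((Finset.powersetCard n Sg).equivFin.symm
      ((Finset.powersetCard n Sg).equivFin ⟨S, Finset.mem_powersetCard.mpr ⟨hS, hSc⟩⟩)).1) T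
    rw [Equiv.symm_apply_apply]
    exact hNS

end Fermat.Agent.S25
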