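/-
S25 / block X, node X1: cohomology over a field: finiteness, invariance under isomorphism and
field extension, the structure sheaf, constant bundles.
-/
import Fermat.Agent.S25.Charts.Defs
import Fermat.Agent.S25.Alg.ChiLocConst
import Fermat.Agent.S25.Triple.Delta
import Fermat.Agent.S25.Triple.IsoLemmas
import Fermat.Agent.S25.Triple.BCLemmas
import Fermat.Agent.S25.Triple.QC

set_option autoImplicit false

universe u

open scoped TensorProduct

namespace Fermat.Agent.S25

open Triple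

namespace FieldBasic

/-! ### linear algebra: kernels and cokernels under field extension -/

section LinAlg

variable {K K' : Type u} [Field K] [Field K'] [Algebra K K']
  {V W : Type u} [AddCommGroup V] [Module K V] [AddCommGroup W] [Module K W]

theorem finrank_ker_baseChange (d : V →ₗ[K] W) :
    Module.finrank K' (LinearMap.ker (d.baseChange K')) = Module.finrank K (LinearMap.ker d) := by
  have e : K' ⊗[K] LinearMap.ker d ≃ₗ[K'] LinearMap.ker (d.baseChange K') :=
    LinearMap.tensorKerEquiv K' K' d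
  rw [← e.finrank_eq, Module.finrank_baseChange]

theorem finrank_coker_baseChange (d : V →ₗ[K] W) :
    Module.finrank K' ((K' ⊗[K] W) ⧸ LinearMap.range (d.baseChange K')) =
      Module.finrank K (W ⧸ LinearMap.range d) := by
  let π : K' ⊗[K] W →ₗ[K'] K' ⊗[K] (W ⧸ LinearMap.range d) :=
    (LinearMap.range d).mkQ.baseChange K'
  have hs : Function.Surjective π := by
    have := LinearMap.lTensor_surjective K' (LinearMap.range d).mkQ_surjective
    exact this
  have hex : Function.Exact (d.lTensor K') ((LinearMap.range d).mkQ.lTensor K') :=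
    lTensor_exact K' (LinearMap.exact_map_mkQ_range d) (LinearMap.range d).mkQ_surjective
  have hk : LinearMap.ker π = LinearMap.range (d.baseChange K') := by
    ext z
    rw [LinearMap.mem_ker, LinearMap.mem_range]
    exact hex z
  have e : ((K' ⊗[K] W) ⧸ LinearMap.range (d.baseChange K')) ≃ₗ[K']
      K' ⊗[K] (W ⧸ LinearMap.range d) :=
    (Submodule.quotEquivOfEq _ _ hk.symm).trans (π.quotKerEquivOfSurjective hs)
  rw [e.finrank_eq, Module.finrank_baseChange]

end LinAlg

end FieldBasic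

variable {k : Type u} [Field k] {𝔠 : CurveCharts k}

namespace Triple

section FieldExt

variable {K K' : Type u} [Field K] [Algebra k K] [Field K'] [Algebra k K']

/-- `h⁰` is invariant under extension of the base field -/
theorem BaseChange.h0_eq {φ : K →ₐ[k] K'} {T : Triple 𝔠 K} {T' : Triple 𝔠 K'}
    (D : BaseChange φ T T') : T'.h0 = T.h0 := by
  let _ : Algebra K K' := φ.toRingHom.toAlgebra
  obtain ⟨e0, e1, h, -, -⟩ := D.exists_equiv_δ (fun _ => rfl)
  rw [h0, h0, ← finrank_ker_eq_of_equiv _ _ e0 e1 h, FieldBasic.finrank_ker_baseChange]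

/-- `h¹` is invariant under extension of the base field -/
theorem BaseChange.h1_eq {φ : K →ₐ[k] K'} {T : Triple 𝔠 K} {T' : Triple 𝔠 K'}
    (D : BaseChange φ T T') : T'.h1 = T.h1 := by
  let _ : Algebra K K' := φ.toRingHom.toAlgebra
  obtain ⟨e0, e1, h, -, -⟩ := D.exists_equiv_δ (fun _ => rfl)
  rw [h1, h1, ← finrank_coker_eq_of_equiv _ _ e0 e1 h, FieldBasic.finrank_coker_baseChange]

/-- `χ` is invariant under extension of the base field -/
theorem BaseChange.chi_eq {φ : K →ₐ[k] K'} {T : Triple 𝔠 K} {T' : Triple 𝔠 K'}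
    (D : BaseChange φ T T') : T'.chi = T.chi := by
  rw [chi, chi, D.h0_eq, D.h1_eq]

/-- the degree is invariant under extension of the base field -/
theorem BaseChange.deg_eq {φ : K →ₐ[k] K'} {T : Triple 𝔠 K} {T' : Triple 𝔠 K'}
    (D : BaseChange φ T T') : T'.deg = T.deg := by
  rw [deg, deg, D.chi_eq, (BaseChange.unit (𝔠 := 𝔠) φ).chi_eq]

theorem Iso.deg_eq {T T' : Triple 𝔠 K} (e : Iso T T') : T.deg = T'.deg := by
  rw [deg, deg, e.chi_eq]

end FieldExt

end Triple

section X

variable {K : Type u} [Field K] [Algebra k K]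

theorem finite_cohomology (T : Triple 𝔠 K) (hT : T.IsInvertible) :
    Module.Finite K (LinearMap.ker T.δ) ∧ Module.Finite K (T.N₁₂ ⧸ LinearMap.range T.δ) := by
  obtain ⟨m⟩ := exists_finiteModel T hT
  exact ⟨Module.Finite.equiv m.kerEquiv.symm, Module.Finite.equiv m.cokerEquiv.symm⟩

theorem chi_iso {T T' : Triple 𝔠 K} (e : Iso T T') : T.chi = T'.chi := e.chi_eq

namespace FieldBasic

theorem exists_one_tmul {B : Type u} [CommRing B] [Algebra k B] (n : k ⊗[k] B) :
    ∃ b : B, n = 1 ⊗ₜ b :=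
  ⟨TensorProduct.lid k B n, by
    rw [← TensorProduct.lid_symm_apply, LinearEquiv.symm_apply_apply]⟩

theorem one_tmul_injective {B : Type u} [CommRing B] [Algebra k B] {b b' : B}
    (h : (1 : k) ⊗ₜ[k] b = 1 ⊗ₜ b') : b = b' := by
  have := congrArg (TensorProduct.lid k B) h
  simpa using this

theorem algebraMap_B₂_injective (𝔠 : CurveCharts k) :
    Function.Injective (algebraMap 𝔠.B₂ 𝔠.B₁₂) := by
  have := 𝔠.away₂
  apply IsLocalization.injective 𝔠.B₁₂ (M := Submonoid.powers 𝔠.y)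
  apply powers_le_nonZeroDivisors_of_noZeroDivisors
  intro h0
  exact TripleFinite.transcendental_y 𝔠 (h0 ▸ isAlgebraic_zero)

/-- global sections of the structure sheaf over `k` are constant -/
theorem h0_unit_base (𝔠 : CurveCharts k) : (unit 𝔠 k).h0 = 1 := by
  rw [h0]
  let one₁ : (unit 𝔠 k).N₁ := (1 : 𝔠.R₁ k)
  let one₂ : (unit 𝔠 k).N₂ := (1 : 𝔠.R₂ k)
  have h11 : (one₁, one₂) ∈ LinearMap.ker (unit 𝔠 k).δ := by
    rw [LinearMap.mem_ker, δ_apply]
    show 𝔠.res₁ k 1 - 𝔠.res₂ k 1 = 0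
    rw [map_one, map_one, sub_self]
  rw [finrank_eq_one_iff']
  refine ⟨⟨_, h11⟩, ?_, ?_⟩
  · intro h
    have h1 : (1 : 𝔠.R₁ k) = 0 := congrArg (fun z : LinearMap.ker (unit 𝔠 k).δ => z.1.1) h
    have h2 : (1 : k) ⊗ₜ[k] (1 : 𝔠.B₁) = 1 ⊗ₜ 0 := by
      rw [TensorProduct.tmul_zero]; exact h1
    exact one_ne_zero (one_tmul_injective h2)
  · rintro ⟨⟨n₁, n₂⟩, hn⟩
    rw [LinearMap.mem_ker, δ_apply] at hn
    obtain ⟨b₁, rfl⟩ := exists_one_tmul (n₁ : k ⊗[k] 𝔠.B₁)
    obtain ⟨b₂, rfl⟩ := exists_one_tmul (n₂ : k ⊗[k] 𝔠.B₂)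
    have hn' : 𝔠.res₁ k (1 ⊗ₜ b₁) - 𝔠.res₂ k (1 ⊗ₜ b₂) = 0 := hn
    simp only [CurveCharts.res₁, CurveCharts.res₂, Algebra.TensorProduct.map_tmul,
      AlgHom.coe_id, id_eq, IsScalarTower.coe_toAlgHom', sub_eq_zero] at hn'
    have hb := one_tmul_injective hn'
    obtain ⟨c, rfl⟩ := 𝔠.const b₁ b₂ hb
    have hb₂ : b₂ = algebraMap k 𝔠.B₂ c := by
      apply algebraMap_B₂_injective 𝔠
      rw [← hb, ← IsScalarTower.algebraMap_apply, ← IsScalarTower.algebraMap_apply]
    subst hb₂
    refine ⟨c, ?_⟩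
    apply Subtype.ext
    show (algebraMap k (𝔠.R₁ k) c • (1 : 𝔠.R₁ k), algebraMap k (𝔠.R₂ k) c • (1 : 𝔠.R₂ k)) = _
    rw [smul_eq_mul, mul_one, smul_eq_mul, mul_one, Algebra.TensorProduct.algebraMap_apply,
      Algebra.TensorProduct.algebraMap_apply]
    simp only [Algebra.algebraMap_self, RingHom.id_apply]
    rw [Algebra.algebraMap_eq_smul_one, Algebra.algebraMap_eq_smul_one, TensorProduct.tmul_smul,
      TensorProduct.tmul_smul, TensorProduct.smul_tmul', TensorProduct.smul_tmul', smul_eq_mul,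
      mul_one]
    rfl

end FieldBasic

theorem h0_unit : (unit 𝔠 K).h0 = 1 := by
  rw [(BaseChange.unit (𝔠 := 𝔠) (Algebra.ofId k K)).h0_eq, FieldBasic.h0_unit_base]

theorem h1_unit : (unit 𝔠 K).h1 = 𝔠.genus :=
  (BaseChange.unit (𝔠 := 𝔠) (Algebra.ofId k K)).h1_eq

theorem chi_unit : (unit 𝔠 K).chi = 1 - (𝔠.genus : ℤ) := by
  rw [chi, h0_unit, h1_unit]; rfl

theorem deg_unit : (unit 𝔠 K).deg = 0 := by
  rw [deg, sub_self]

set_option linter.unusedVariables false in
theorem deg_const (E : Triple 𝔠 k) (hE : E.IsInvertible) : (E.const K).deg = E.deg :=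
  (E.bcData (Algebra.ofId k K)).deg_eq

end X

end Fermat.Agent.S25
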