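/-
S25-Q4: the twists `𝒪(j·D_∞)` and relative Serre vanishing.   (helper174)

* `Otw_isInvertible`, `Otw_isRigid`, `Otw_bc`, `Otw_add`
* `exists_Otw_surjective` : `H¹(T(j D_∞)) = 0` for `j ≫ 0`.
-/
import Fermat.Agent.S25.Charts.Defs
import Fermat.Agent.S25.Triple.BCLemmas
import Fermat.Agent.S25.Triple.QC

set_option autoImplicit false

universe u

open scoped TensorProduct

namespace Fermat.Agent.S25

open Triple

/-! ### `M / x M` is finitely generated over `A` (elementary form) -/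

namespace OtwAux

/-- `M = (finitely generated `A`-submodule) + x M`. -/
def FinModX (A : Type*) {R : Type*} (M : Type*) [CommRing A] [CommRing R] [AddCommGroup M]
    [Module A M] [Module R M] (x : R) : Prop :=
  ∃ G : Finset M, ∀ n : M, ∃ s ∈ Submodule.span A (G : Set M), ∃ n' : M, n = s + x • n'

theorem finModX_of_finite {k B : Type*} [Field k] [CommRing B] [Algebra k B] (x : B)
    (h : (Polynomial.aeval (R := k) x).toRingHom.Finite) : FinModX k B x := by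
  let _ : Algebra (Polynomial k) B := (Polynomial.aeval (R := k) x).toRingHom.toAlgebra
  have hfin : Module.Finite (Polynomial k) B := h
  obtain ⟨F, hF⟩ := hfin.fg_top
  refine ⟨F, ?_⟩
  have key : ∀ b ∈ Submodule.span (Polynomial k) (F : Set B),
      ∃ s ∈ Submodule.span k (F : Set B), ∃ n' : B, b = s + x • n' := by
    intro b hb
    induction hb using Submodule.span_induction with
    | mem b hb => exact ⟨b, Submodule.subset_span hb, 0, by simp⟩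
    | zero => exact ⟨0, Submodule.zero_mem _, 0, by simp⟩
    | add a b _ _ ha hb =>
      obtain ⟨s, hs, n, rfl⟩ := ha
      obtain ⟨s', hs', n', rfl⟩ := hb
      exact ⟨s + s', Submodule.add_mem _ hs hs', n + n', by rw [smul_add]; abel⟩
    | smul p b _ hb =>
      obtain ⟨s, hs, n, rfl⟩ := hb
      have hp : p • (s + x • n) = Polynomial.aeval x p * (s + x • n) := rfl
      refine ⟨p.coeff 0 • s, Submodule.smul_mem _ _ hs,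
        Polynomial.aeval x p.divX * s + Polynomial.aeval x p * n, ?_⟩
      have hpe : Polynomial.aeval x p =
          Polynomial.aeval x p.divX * x + algebraMap k B (p.coeff 0) := by
        conv_lhs => rw [← Polynomial.divX_mul_X_add p]
        simp only [map_add, map_mul, Polynomial.aeval_X, Polynomial.aeval_C]
      rw [hp, smul_eq_mul, smul_eq_mul, Algebra.smul_def]
      generalize Polynomial.aeval x p.divX = d at hpe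
      rw [hpe]
      ring
  intro b
  exact key b (hF ▸ Submodule.mem_top)

theorem FinModX.tensor {k A B : Type*} [CommRing k] [CommRing A] [Algebra k A] [CommRing B]
    [Algebra k B] {x : B} (h : FinModX k B x) : FinModX A (A ⊗[k] B) ((1 : A) ⊗ₜ[k] x) := by
  classical
  obtain ⟨F, hF⟩ := h
  refine ⟨F.image (fun b => (1 : A) ⊗ₜ[k] b), ?_⟩
  have hspan : ∀ (a : A), ∀ s ∈ Submodule.span k (F : Set B),
      a ⊗ₜ[k] s ∈ Submodule.span A ((F.image (fun b => (1 : A) ⊗ₜ[k] b) : Finset (A ⊗[k] B)) :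
        Set (A ⊗[k] B)) := by
    intro a s hs
    induction hs using Submodule.span_induction with
    | mem b hb =>
      have : a ⊗ₜ[k] b = a • ((1 : A) ⊗ₜ[k] b) := by
        rw [TensorProduct.smul_tmul', smul_eq_mul, mul_one]
      rw [this]
      refine Submodule.smul_mem _ _ (Submodule.subset_span ?_)
      rw [Finset.coe_image]
      exact ⟨b, hb, rfl⟩
    | zero => rw [TensorProduct.tmul_zero]; exact Submodule.zero_mem _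
    | add s t _ _ hs ht => rw [TensorProduct.tmul_add]; exact Submodule.add_mem _ hs ht
    | smul c s _ hs =>
      have : a ⊗ₜ[k] (c • s) = (algebraMap k A c) • (a ⊗ₜ[k] s) := by
        rw [TensorProduct.tmul_smul, algebraMap_smul]
      rw [this]
      exact Submodule.smul_mem _ _ hs
  intro t
  induction t using TensorProduct.induction_on with
  | zero => exact ⟨0, Submodule.zero_mem _, 0, by simp⟩
  | tmul a b =>
    obtain ⟨s, hs, b', rfl⟩ := hF b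
    refine ⟨a ⊗ₜ[k] s, hspan a s hs, a ⊗ₜ[k] b', ?_⟩
    rw [TensorProduct.tmul_add, smul_eq_mul, smul_eq_mul, Algebra.TensorProduct.tmul_mul_tmul,
      one_mul]
  | add s t hs ht =>
    obtain ⟨s₁, hs₁, n₁, rfl⟩ := hs
    obtain ⟨s₂, hs₂, n₂, rfl⟩ := ht
    exact ⟨s₁ + s₂, Submodule.add_mem _ hs₁ hs₂, n₁ + n₂, by rw [smul_add]; abel⟩

theorem FinModX.module {A R M : Type*} [CommRing A] [CommRing R] [Algebra A R] [AddCommGroup M]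
    [Module A M] [Module R M] [IsScalarTower A R M] {x : R} (h : FinModX A R x)
    [Module.Finite R M] : FinModX A M x := by
  classical
  obtain ⟨F, hF⟩ := h
  obtain ⟨G, hG⟩ := (inferInstance : Module.Finite R M).fg_top
  set G' : Finset M := (F ×ˢ G).image (fun p => p.1 • p.2) with hG'
  refine ⟨G', ?_⟩
  -- the `R`-submodule of good elements
  let Q : Submodule R M :=
    { carrier := {n | ∀ r : R, ∃ s ∈ Submodule.span A (G' : Set M), ∃ n' : M, r • n = s + x • n'}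
      add_mem' := by
        intro a b ha hb r
        obtain ⟨s, hs, n, hn⟩ := ha r
        obtain ⟨s', hs', n', hn'⟩ := hb r
        exact ⟨s + s', Submodule.add_mem _ hs hs', n + n', by
          rw [smul_add, hn, hn', smul_add]; abel⟩
      zero_mem' := fun r => ⟨0, Submodule.zero_mem _, 0, by simp⟩
      smul_mem' := by
        intro c n hn r
        obtain ⟨s, hs, n', hn'⟩ := hn (r * c)
        exact ⟨s, hs, n', by rw [smul_smul, hn']⟩ }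
  have hGQ : (G : Set M) ⊆ Q := by
    intro g hg r
    obtain ⟨s, hs, r', rfl⟩ := hF r
    refine ⟨s • g, ?_, r' • g, by rw [add_smul, smul_eq_mul, mul_smul]⟩
    induction hs using Submodule.span_induction with
    | mem f hf =>
      refine Submodule.subset_span ?_
      rw [hG', Finset.coe_image]
      exact ⟨(f, g), by simpa using ⟨hf, hg⟩, rfl⟩
    | zero => rw [zero_smul]; exact Submodule.zero_mem _
    | add s t _ _ hs ht => rw [add_smul]; exact Submodule.add_mem _ hs ht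
    | smul c s _ hs => rw [smul_assoc]; exact Submodule.smul_mem _ _ hs
  intro n
  have hn : n ∈ Q := Submodule.span_le.2 hGQ (hG ▸ Submodule.mem_top)
  simpa using hn 1

end OtwAux

namespace OtwAux

variable {k : Type u} [Field k] {𝔠 : CurveCharts k} {A : Type u} [CommRing A] [Algebra k A]

open TensorAux

theorem finModX_R₁ (𝔠 : CurveCharts k) (A : Type u) [CommRing A] [Algebra k A] :
    FinModX A (𝔠.R₁ A) (𝔠.xA A) :=
  (finModX_of_finite 𝔠.x 𝔠.fin₁).tensor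

theorem X_pow_mul_Y_pow (j : ℕ) :
    (𝔠.res₁ A (𝔠.xA A)) ^ j * (𝔠.res₂ A (𝔠.yA A)) ^ j = 1 := by
  rw [← mul_pow, res₁_xA_mul_res₂_yA, one_pow]

theorem ρ₁_smulA (T : Triple 𝔠 A) (a : A) (n : T.N₁) :
    T.ρ₁ (a • n) = algebraMap A (𝔠.R₁₂ A) a • T.ρ₁ n := T.ρ₁A.map_smul a n

theorem ρ₂_smulA (T : Triple 𝔠 A) (a : A) (n : T.N₂) :
    T.ρ₂ (a • n) = algebraMap A (𝔠.R₁₂ A) a • T.ρ₂ n := T.ρ₂A.map_smul a n

theorem ρ₁_smul (T : Triple 𝔠 A) (r : 𝔠.R₁ A) (n : T.N₁) :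
    T.ρ₁ (r • n) = 𝔠.res₁ A r • T.ρ₁ n := T.ρ₁.map_smulₛₗ r n

theorem ρ₂_smul (T : Triple 𝔠 A) (r : 𝔠.R₂ A) (n : T.N₂) :
    T.ρ₂ (r • n) = 𝔠.res₂ A r • T.ρ₂ n := T.ρ₂.map_smulₛₗ r n

/-- the core of relative Serre vanishing: `N₁₂ = ρ₁ N₁ + x^j ρ₂ N₂` for `j ≫ 0`. -/
theorem core (T : Triple 𝔠 A) (hQ : T.IsQC) (hfin : FinModX A T.N₁ (𝔠.xA A)) :
    ∃ j₀ : ℕ, ∀ j, j₀ ≤ j → ∀ w : T.N₁₂, ∃ (a : T.N₁) (b : T.N₂),
      w = T.ρ₁ a - (𝔠.res₁ A (𝔠.xA A)) ^ j • T.ρ₂ b := by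
  classical
  obtain ⟨G, hG⟩ := hfin
  choose d f hdf using fun g : T.N₁ => hQ.surj₂ (T.ρ₁ g)
  refine ⟨G.sup d, fun j hj => ?_⟩
  set X := 𝔠.res₁ A (𝔠.xA A) with hX
  set Y := 𝔠.res₂ A (𝔠.yA A) with hY
  have hXY : ∀ i : ℕ, X ^ i * Y ^ i = 1 := fun i => X_pow_mul_Y_pow i
  have hXY1 : X * Y = 1 := res₁_xA_mul_res₂_yA 𝔠 A
  -- step 1: generators
  have h1 : ∀ g ∈ G, ∃ b : T.N₂, T.ρ₁ g = X ^ j • T.ρ₂ b := by
    intro g hg
    have hdj : d g ≤ j := (Finset.le_sup hg).trans hj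
    refine ⟨(𝔠.yA A) ^ (j - d g) • f g, ?_⟩
    rw [ρ₂_smul, map_pow, hdf, smul_smul, smul_smul, ← hY, mul_assoc, ← pow_add,
      Nat.sub_add_cancel hdj, hXY, one_smul]
  -- step 2: their `A`-span
  have h2 : ∀ s ∈ Submodule.span A (G : Set T.N₁), ∃ b : T.N₂, T.ρ₁ s = X ^ j • T.ρ₂ b := by
    intro s hs
    induction hs using Submodule.span_induction with
    | mem g hg => exact h1 g hg
    | zero => exact ⟨0, by simp⟩
    | add s t _ _ hs ht =>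
      obtain ⟨b, hb⟩ := hs
      obtain ⟨b', hb'⟩ := ht
      exact ⟨b + b', by rw [map_add, map_add, hb, hb', smul_add]⟩
    | smul c s _ hs =>
      obtain ⟨b, hb⟩ := hs
      exact ⟨c • b, by rw [ρ₁_smulA, ρ₂_smulA, hb, smul_comm]⟩
  -- step 3: induction on the pole order
  have h3 : ∀ (m : ℕ) (n₁ : T.N₁), ∃ (a : T.N₁) (b : T.N₂),
      Y ^ m • T.ρ₁ n₁ = T.ρ₁ a - X ^ j • T.ρ₂ b := by
    intro m
    induction m with
    | zero => exact fun n₁ => ⟨n₁, 0, by simp⟩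
    | succ m ih =>
      intro n₁
      obtain ⟨s, hs, n', rfl⟩ := hG n₁
      obtain ⟨b₀, hb₀⟩ := h2 s hs
      obtain ⟨a', b', hab⟩ := ih n'
      refine ⟨a', b' - (𝔠.yA A) ^ (m + 1) • b₀, ?_⟩
      have e1 : Y ^ (m + 1) • T.ρ₁ (𝔠.xA A • n') = Y ^ m • T.ρ₁ n' := by
        rw [ρ₁_smul, ← hX, smul_smul, pow_succ, mul_assoc, mul_comm Y X, hXY1, mul_one]
      rw [map_add, smul_add, e1, hab, hb₀, map_sub, ρ₂_smul, map_pow, ← hY, smul_sub,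
        smul_comm (Y ^ (m + 1)) (X ^ j)]
      abel
  intro w
  obtain ⟨m, n₁, hn₁⟩ := hQ.surj₁ w
  obtain ⟨a, b, hab⟩ := h3 m n₁
  refine ⟨a, b, ?_⟩
  rw [← hab, hn₁, smul_smul, ← hX, mul_comm, hXY, one_smul]

end OtwAux

variable {k : Type u} [Field k] [IsAlgClosed k] {𝔠 : CurveCharts k}

section Q

variable {A : Type u} [CommRing A] [Algebra k A] {A' : Type u} [CommRing A'] [Algebra k A']

open TensorAux OtwAux

omit [IsAlgClosed k] in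
theorem OtwAux.surj₂_aux (j : ℕ) (n : 𝔠.R₁₂ A) : ∃ (m : ℕ) (r : 𝔠.R₂ A),
    (𝔠.res₁ A (𝔠.xA A)) ^ j * 𝔠.res₂ A r = (𝔠.res₂ A (𝔠.yA A)) ^ m * n := by
  obtain ⟨m, r, hr⟩ := exists_res₂_eq 𝔠 A ((𝔠.res₂ A (𝔠.yA A)) ^ j * n)
  refine ⟨m, r, ?_⟩
  rw [hr]
  calc (𝔠.res₁ A (𝔠.xA A)) ^ j * ((𝔠.res₂ A (𝔠.yA A)) ^ m * ((𝔠.res₂ A (𝔠.yA A)) ^ j * n))
      = ((𝔠.res₁ A (𝔠.xA A)) ^ j * (𝔠.res₂ A (𝔠.yA A)) ^ j) *
          ((𝔠.res₂ A (𝔠.yA A)) ^ m * n) := by ring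
    _ = (𝔠.res₂ A (𝔠.yA A)) ^ m * n := by rw [X_pow_mul_Y_pow, one_mul]

omit [IsAlgClosed k] in
theorem OtwAux.inj₂_aux (j : ℕ) (n : 𝔠.R₂ A)
    (hn : (𝔠.res₁ A (𝔠.xA A)) ^ j * 𝔠.res₂ A n = 0) : ∃ m : ℕ, (𝔠.yA A) ^ m * n = 0 := by
  refine ⟨0, ?_⟩
  rw [pow_zero, one_mul]
  apply res₂_injective 𝔠 A
  rw [map_zero]
  calc 𝔠.res₂ A n = ((𝔠.res₁ A (𝔠.xA A)) ^ j * (𝔠.res₂ A (𝔠.yA A)) ^ j) * 𝔠.res₂ A n := by
        rw [X_pow_mul_Y_pow, one_mul]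
    _ = (𝔠.res₂ A (𝔠.yA A)) ^ j * ((𝔠.res₁ A (𝔠.xA A)) ^ j * 𝔠.res₂ A n) := by ring
    _ = 0 := by rw [hn, mul_zero]

theorem Otw_isInvertible (j : ℕ) : (Otw 𝔠 A j).IsInvertible where
  surj₁ := (unit_isQC (𝔠 := 𝔠) (A := A)).surj₁
  inj₁ := (unit_isQC (𝔠 := 𝔠) (A := A)).inj₁
  surj₂ := OtwAux.surj₂_aux j
  inj₂ := OtwAux.inj₂_aux j
  inv₁ := inferInstanceAs (Module.Invertible (𝔠.R₁ A) (𝔠.R₁ A))
  inv₂ := inferInstanceAs (Module.Invertible (𝔠.R₂ A) (𝔠.R₂ A))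

theorem Otw_isRigid (j : ℕ) : (Otw 𝔠 A j).IsRigid := unit_isRigid (𝔠 := 𝔠) (A := A)

theorem Otw_bc (j : ℕ) (φ : A →ₐ[k] A') : IsBC φ (Otw 𝔠 A j) (Otw 𝔠 A' j) :=
  ⟨{ β₁ := selfAux (𝔠.bc₁ φ).toRingHom
     β₂ := selfAux (𝔠.bc₂ φ).toRingHom
     β₁₂ := selfAux (𝔠.bc₁₂ φ).toRingHom
     comm₁ := fun n => (𝔠.res₁_bc₁ φ n).symm
     comm₂ := fun n => by
      change 𝔠.bc₁₂ φ ((𝔠.res₁ A (𝔠.xA A)) ^ j * 𝔠.res₂ A n) =
        (𝔠.res₁ A' (𝔠.xA A')) ^ j * 𝔠.res₂ A' (𝔠.bc₂ φ n)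
      have hx : 𝔠.bc₁ φ (𝔠.xA A) = 𝔠.xA A' := by
        simp [CurveCharts.bc₁, CurveCharts.xA]
      rw [map_mul, map_pow, ← 𝔠.res₁_bc₁, hx, 𝔠.res₂_bc₂]
     isBC₁ := IsBCMap.self _ fun _ => rfl
     isBC₂ := IsBCMap.self _ fun _ => rfl
     isBC₁₂ := IsBCMap.self _ fun _ => rfl }⟩

theorem Otw_add (i j : ℕ) :
    Nonempty (Iso (Otw 𝔠 A (i + j)) ((Otw 𝔠 A i).tensor (Otw 𝔠 A j))) :=
  ⟨{ e₁ := (TensorProduct.lid (𝔠.R₁ A) (𝔠.R₁ A)).symm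
     e₂ := (TensorProduct.lid (𝔠.R₂ A) (𝔠.R₂ A)).symm
     e₁₂ := (TensorProduct.lid (𝔠.R₁₂ A) (𝔠.R₁₂ A)).symm
     comm₁ := fun n => by
      change (1 : 𝔠.R₁₂ A) ⊗ₜ[𝔠.R₁₂ A] (𝔠.res₁ A n) =
        (𝔠.res₁ A 1) ⊗ₜ[𝔠.R₁₂ A] (𝔠.res₁ A n)
      rw [map_one]
     comm₂ := fun n => by
      change (1 : 𝔠.R₁₂ A) ⊗ₜ[𝔠.R₁₂ A] ((𝔠.res₁ A (𝔠.xA A)) ^ (i + j) * 𝔠.res₂ A n) =
        ((𝔠.res₁ A (𝔠.xA A)) ^ i * 𝔠.res₂ A 1) ⊗ₜ[𝔠.R₁₂ A]
          ((𝔠.res₁ A (𝔠.xA A)) ^ j * 𝔠.res₂ A n)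
      rw [map_one, mul_one, pow_add, mul_assoc]
      conv_rhs => rw [← mul_one ((𝔠.res₁ A (𝔠.xA A)) ^ i), ← smul_eq_mul,
        TensorProduct.smul_tmul, smul_eq_mul] }⟩

/-- relative Serre vanishing -/
theorem exists_Otw_surjective (T : Triple 𝔠 A) (hT : T.IsInvertible) :
    ∃ j₀ : ℕ, ∀ j, j₀ ≤ j → Function.Surjective (T.tensor (Otw 𝔠 A j)).δ := by
  have := hT.inv₁
  have hfin : FinModX A T.N₁ (𝔠.xA A) := (finModX_R₁ 𝔠 A).module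
  obtain ⟨j₀, hj₀⟩ := core T hT.toIsQC hfin
  refine ⟨j₀, fun j hj z => ?_⟩
  have hz : ∀ z : T.N₁₂ ⊗[𝔠.R₁₂ A] 𝔠.R₁₂ A, ∃ w : T.N₁₂, w ⊗ₜ[𝔠.R₁₂ A] (1 : 𝔠.R₁₂ A) = z :=
    fun z => ⟨TensorProduct.rid (𝔠.R₁₂ A) T.N₁₂ z,
      (TensorProduct.rid (𝔠.R₁₂ A) T.N₁₂).symm_apply_apply z⟩
  obtain ⟨w, rfl⟩ := hz z
  obtain ⟨a, b, rfl⟩ := hj₀ j hj w
  refine ⟨((a ⊗ₜ[𝔠.R₁ A] (1 : 𝔠.R₁ A) : T.N₁ ⊗[𝔠.R₁ A] 𝔠.R₁ A),
    (b ⊗ₜ[𝔠.R₂ A] (1 : 𝔠.R₂ A) : T.N₂ ⊗[𝔠.R₂ A] 𝔠.R₂ A)), ?_⟩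
  rw [δ_apply]
  have e : (T.ρ₁ a ⊗ₜ[𝔠.R₁₂ A] (𝔠.res₁ A 1) -
      T.ρ₂ b ⊗ₜ[𝔠.R₁₂ A] ((𝔠.res₁ A (𝔠.xA A)) ^ j * 𝔠.res₂ A 1) : T.N₁₂ ⊗[𝔠.R₁₂ A] 𝔠.R₁₂ A) =
      (T.ρ₁ a - (𝔠.res₁ A (𝔠.xA A)) ^ j • T.ρ₂ b) ⊗ₜ[𝔠.R₁₂ A] (1 : 𝔠.R₁₂ A) := by
    rw [map_one, map_one, TensorProduct.sub_tmul, ← smul_eq_mul, TensorProduct.tmul_smul,
      TensorProduct.smul_tmul']
  exact e

end Q

end Fermat.Agent.S25
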