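/-
S25 / block X4 (part 1): structure of line bundles over a field `K/k`:
every invertible triple is `𝒪(-D) ⊗ 𝒪(j·D_∞)` with `D ⊆ W₁` a finite divisor.

Proof.  Take a functional `f₂ : N₂ → R₂` not vanishing at the marked point `P₀`; it extends to the
overlap, and after multiplication by `x ^ j` it is regular on `W₁`.  This is an injective morphism
`T → 𝒪(j·D_∞)`, an isomorphism near `P₀`; its image is `𝒪(-D)(j·D_∞)`.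
-/
import Fermat.Agent.S25.Charts.Defs
import Fermat.Agent.S25.Alg.Dedekind
import Fermat.Agent.S25.Triple.IHomLemmas
import Fermat.Agent.S25.Triple.IsoLemmas

set_option autoImplicit false

universe u

open scoped TensorProduct

namespace Fermat.Agent.S25.StructAux

section Inv

variable {R M : Type*} [CommRing R] [AddCommGroup M] [Module R M]

theorem apply_smul_comm [Module.Invertible R M] (l : M →ₗ[R] R) (m₁ m₂ : M) :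
    l m₁ • m₂ = l m₂ • m₁ := by
  have h := congrArg (fun t => (TensorProduct.lid R M) (l.rTensor M t))
    (Module.Invertible.tmul_comm (R := R) (m₁ := m₁) (m₂ := m₂))
  simpa using h

theorem injective_of_apply_ne_zero [IsDomain R] [Module.Invertible R M] (l : M →ₗ[R] R) {m₀ : M}
    (h : l m₀ ≠ 0) : Function.Injective l := by
  rw [injective_iff_map_eq_zero]
  intro m hm
  have h1 := apply_smul_comm l m₀ m
  rw [hm, zero_smul] at h1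
  exact (smul_eq_zero.mp h1).resolve_left h

theorem eq_zero_of_smul_eq_zero [IsDomain R] [Module.Invertible R M] {r : R} {m : M}
    (h : r • m = 0) (hr : r ≠ 0) : m = 0 :=
  (smul_eq_zero.mp h).resolve_left hr

theorem exists_apply_notMem [Module.Invertible R M] (I : Ideal R) (hI : I ≠ ⊤) :
    ∃ (l : M →ₗ[R] R) (m : M), l m ∉ I := by
  by_contra hcon
  have hcon' : ∀ (l : M →ₗ[R] R) (m : M), l m ∈ I := by
    intro l m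
    by_contra h
    exact hcon ⟨l, m, h⟩
  apply hI
  rw [Ideal.eq_top_iff_one]
  have key : ∀ t : Module.Dual R M ⊗[R] M, contractLeft R M t ∈ I := by
    intro t
    induction t using TensorProduct.induction_on with
    | zero => simp
    | tmul l m => simpa using hcon' l m
    | add a b ha hb =>
      rw [map_add]
      exact I.add_mem ha hb
  obtain ⟨t, ht⟩ := (Module.Invertible.bijective (R := R) (M := M)).2 1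
  rw [← ht]
  exact key t

end Inv

theorem finite_quotient_of_ne_bot (K S : Type*) [Field K] [CommRing S] [Algebra K S]
    [IsDedekindDomain S] [Algebra.FiniteType K S] (I : Ideal S) (hI : I ≠ ⊥) :
    Module.Finite K (S ⧸ I) := by
  rw [Module.finite_iff_krullDimLE_zero, Ring.krullDimLE_zero_iff]
  intro P hP
  have h1 : (P.comap (Ideal.Quotient.mk I)).IsPrime := Ideal.comap_isPrime _ _
  have h2 : P.comap (Ideal.Quotient.mk I) ≠ ⊥ := by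
    refine ne_bot_of_le_ne_bot hI ?_
    intro a ha
    rw [Ideal.mem_comap, Ideal.Quotient.eq_zero_iff_mem.mpr ha]
    exact P.zero_mem
  have h3 := h1.isMaximal h2
  have h4 := Ideal.map_comap_of_surjective _ (Ideal.Quotient.mk_surjective (I := I)) P
  rw [← h4]
  refine (Ideal.map_eq_top_or_isMaximal_of_surjective _ Ideal.Quotient.mk_surjective h3).resolve_left
    ?_
  rw [h4]
  exact hP.ne_top

end Fermat.Agent.S25.StructAux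


namespace Fermat.Agent.S25

open Triple TensorAux

section NoAlgClosed

variable {k : Type u} [Field k] {𝔠 : CurveCharts k}

section Pole

variable (𝔠) (A : Type u) [CommRing A] [Algebra k A]

theorem CurveCharts.ev₀_tmul_eq_smul (a : A) (b : 𝔠.B₂) : 𝔠.ev₀ A (a ⊗ₜ b) = 𝔠.e₀ b • a := by
  simp [CurveCharts.ev₀]

/-- `z - z(P₀)` lies in the ideal generated by the functions `1 ⊗ b`, `b(P₀) = 0`. -/
theorem CurveCharts.sub_ev₀_mem_span (z : 𝔠.R₂ A) :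
    z - algebraMap A (𝔠.R₂ A) (𝔠.ev₀ A z) ∈
      Ideal.span {w : 𝔠.R₂ A | ∃ b : 𝔠.B₂, 𝔠.e₀ b = 0 ∧ w = 1 ⊗ₜ b} := by
  induction z using TensorProduct.induction_on with
  | zero => simp
  | tmul a b =>
    have h : (a ⊗ₜ[k] b : 𝔠.R₂ A) - algebraMap A (𝔠.R₂ A) (𝔠.ev₀ A (a ⊗ₜ b)) =
        (a ⊗ₜ[k] (1 : 𝔠.B₂)) * ((1 : A) ⊗ₜ[k] (b - algebraMap k 𝔠.B₂ (𝔠.e₀ b))) := by
      rw [CurveCharts.ev₀_tmul_eq_smul, Algebra.TensorProduct.algebraMap_apply,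
        Algebra.TensorProduct.tmul_mul_tmul, mul_one, one_mul, TensorProduct.tmul_sub,
        Algebra.algebraMap_eq_smul_one, Algebra.algebraMap_eq_smul_one, TensorProduct.tmul_smul,
        TensorProduct.smul_tmul']
      simp
    rw [h]
    refine Ideal.mul_mem_left _ _ (Ideal.subset_span ⟨_, ?_, rfl⟩)
    simp
  | add a b ha hb =>
    have h : a + b - algebraMap A (𝔠.R₂ A) (𝔠.ev₀ A (a + b)) =
        (a - algebraMap A (𝔠.R₂ A) (𝔠.ev₀ A a)) + (b - algebraMap A (𝔠.R₂ A) (𝔠.ev₀ A b)) := by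
      rw [map_add, map_add]
      ring
    rw [h]
    exact Ideal.add_mem _ ha hb

/-- The only zero of `y` on `W₂ × Spec A` is the marked section. -/
theorem CurveCharts.ker_ev₀_le_of_yA_mem (𝔮 : Ideal (𝔠.R₂ A)) [h𝔮 : 𝔮.IsPrime]
    (h : 𝔠.yA A ∈ 𝔮) : RingHom.ker (𝔠.ev₀ A).toRingHom ≤ 𝔮 := by
  intro z hz
  have hz' : 𝔠.ev₀ A z = 0 := hz
  have h1 := 𝔠.sub_ev₀_mem_span A z
  rw [hz', map_zero, sub_zero] at h1
  refine (Ideal.span_le.mpr ?_) h1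
  rintro w ⟨b, hb, rfl⟩
  have hrad : b ∈ (Ideal.span {𝔠.y}).radical := by
    rw [Ideal.radical_eq_sInf, Ideal.mem_sInf]
    rintro J ⟨hJ, hJp⟩
    rw [𝔠.pole J hJp (hJ (Ideal.mem_span_singleton_self _))]
    exact hb
  obtain ⟨n, hn⟩ := hrad
  obtain ⟨c, hc⟩ := Ideal.mem_span_singleton'.mp hn
  refine h𝔮.mem_of_pow_mem n ?_
  have h2 : ((1 : A) ⊗ₜ[k] b : 𝔠.R₂ A) ^ n = ((1 : A) ⊗ₜ[k] c) * 𝔠.yA A := by
    rw [Algebra.TensorProduct.tmul_pow, one_pow, ← hc, CurveCharts.yA,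
      Algebra.TensorProduct.tmul_mul_tmul, one_mul]
  show ((1 : A) ⊗ₜ[k] b : 𝔠.R₂ A) ^ n ∈ 𝔮
  rw [h2]
  exact Ideal.mul_mem_left _ _ h

end Pole

/-! ### Morphisms to `𝒪(j·D_∞)` -/

section General

variable {A : Type u} [CommRing A] [Algebra k A]

/-- An injective morphism `T → 𝒪(j·D_∞)` whose image is saturated at `P₀` identifies `T` with
`𝒪(-D)(j·D_∞)`. -/
theorem nonempty_iso_Idiv_tensor_Otw (T : Triple 𝔠 A) (j : ℕ)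
    (f₁ : T.N₁ →ₗ[𝔠.R₁ A] 𝔠.R₁ A) (f₂ : T.N₂ →ₗ[𝔠.R₂ A] 𝔠.R₂ A)
    (f₁₂ : T.N₁₂ →ₗ[𝔠.R₁₂ A] 𝔠.R₁₂ A)
    (h₁ : ∀ n, f₁₂ (T.ρ₁ n) = 𝔠.res₁ A (f₁ n))
    (h₂ : ∀ n, f₁₂ (T.ρ₂ n) = (𝔠.res₁ A (𝔠.xA A)) ^ j * 𝔠.res₂ A (f₂ n))
    (i₁ : Function.Injective f₁) (i₂ : Function.Injective f₂) (i₁₂ : Function.Injective f₁₂)
    (hb : LinearMap.range f₁₂ = Ideal.map (𝔠.res₁ A).toRingHom (LinearMap.range f₁))
    (hc : LinearMap.range f₂ =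
      Ideal.comap (𝔠.res₂ A).toRingHom (Ideal.map (𝔠.res₁ A).toRingHom (LinearMap.range f₁))) :
    Nonempty (Iso T ((Idiv (LinearMap.range f₁)).tensor (Otw 𝔠 A j))) := by
  let I₁ : Ideal (𝔠.R₁ A) := LinearMap.range f₁
  let I₁₂ : Ideal (𝔠.R₁₂ A) := Ideal.map (𝔠.res₁ A).toRingHom I₁
  let I₂ : Ideal (𝔠.R₂ A) := Ideal.comap (𝔠.res₂ A).toRingHom I₁₂
  let e₁ : T.N₁ ≃ₗ[𝔠.R₁ A] I₁ ⊗[𝔠.R₁ A] 𝔠.R₁ A :=
    (LinearEquiv.ofInjective f₁ i₁) ≪≫ₗ (TensorProduct.rid (𝔠.R₁ A) I₁).symm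
  let e₂ : T.N₂ ≃ₗ[𝔠.R₂ A] I₂ ⊗[𝔠.R₂ A] 𝔠.R₂ A :=
    (LinearEquiv.ofInjective f₂ i₂) ≪≫ₗ (LinearEquiv.ofEq _ _ hc) ≪≫ₗ
      (TensorProduct.rid (𝔠.R₂ A) I₂).symm
  let e₁₂ : T.N₁₂ ≃ₗ[𝔠.R₁₂ A] I₁₂ ⊗[𝔠.R₁₂ A] 𝔠.R₁₂ A :=
    (LinearEquiv.ofInjective f₁₂ i₁₂) ≪≫ₗ (LinearEquiv.ofEq _ _ hb) ≪≫ₗ
      (TensorProduct.rid (𝔠.R₁₂ A) I₁₂).symm
  have m₁₂ : ∀ n, f₁₂ n ∈ I₁₂ := fun n => by
    have : f₁₂ n ∈ LinearMap.range f₁₂ := LinearMap.mem_range_self f₁₂ n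
    rwa [hb] at this
  have m₂ : ∀ n, 𝔠.res₂ A (f₂ n) ∈ I₁₂ := fun n => by
    have : f₂ n ∈ LinearMap.range f₂ := LinearMap.mem_range_self f₂ n
    rw [hc] at this
    exact this
  refine ⟨{ e₁ := e₁, e₂ := e₂, e₁₂ := e₁₂, comm₁ := ?_, comm₂ := ?_ }⟩
  · intro n
    have l : e₁₂ (T.ρ₁ n) =
        (⟨f₁₂ (T.ρ₁ n), m₁₂ _⟩ : I₁₂) ⊗ₜ[𝔠.R₁₂ A] (1 : 𝔠.R₁₂ A) := rfl
    have r : ((Idiv I₁).tensor (Otw 𝔠 A j)).ρ₁ (e₁ n) =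
        (⟨𝔠.res₁ A (f₁ n), Ideal.mem_map_of_mem _ (LinearMap.mem_range_self f₁ n)⟩ : I₁₂)
          ⊗ₜ[𝔠.R₁₂ A] (𝔠.res₁ A 1) := rfl
    refine l.trans (Eq.trans ?_ r.symm)
    rw [map_one]
    congr 1
    exact Subtype.ext (h₁ n)
  · intro n
    have l : e₁₂ (T.ρ₂ n) =
        (⟨f₁₂ (T.ρ₂ n), m₁₂ _⟩ : I₁₂) ⊗ₜ[𝔠.R₁₂ A] (1 : 𝔠.R₁₂ A) := rfl
    have r : ((Idiv I₁).tensor (Otw 𝔠 A j)).ρ₂ (e₂ n) =
        (⟨𝔠.res₂ A (f₂ n), m₂ n⟩ : I₁₂)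
          ⊗ₜ[𝔠.R₁₂ A] ((𝔠.res₁ A (𝔠.xA A)) ^ j * 𝔠.res₂ A 1) := rfl
    refine l.trans (Eq.trans ?_ r.symm)
    rw [map_one, mul_one]
    have e : (⟨f₁₂ (T.ρ₂ n), m₁₂ _⟩ : I₁₂) =
        ((𝔠.res₁ A (𝔠.xA A)) ^ j) • (⟨𝔠.res₂ A (f₂ n), m₂ n⟩ : I₁₂) := Subtype.ext (h₂ n)
    rw [e, TensorProduct.smul_tmul, smul_eq_mul, mul_one]

/-- Every functional on `N₂` becomes a morphism `T → 𝒪(j·D_∞)` for `j` large. -/
theorem exists_hom_Otw (T : Triple 𝔠 A) (hT : T.IsInvertible)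
    (f₂ : T.N₂ →ₗ[𝔠.R₂ A] 𝔠.R₂ A) :
    ∃ (j : ℕ) (f₁ : T.N₁ →ₗ[𝔠.R₁ A] 𝔠.R₁ A) (f₁₂ : T.N₁₂ →ₗ[𝔠.R₁₂ A] 𝔠.R₁₂ A),
      (∀ n, f₁₂ (T.ρ₁ n) = 𝔠.res₁ A (f₁ n)) ∧
      (∀ n, f₁₂ (T.ρ₂ n) = (𝔠.res₁ A (𝔠.xA A)) ^ j * 𝔠.res₂ A (f₂ n)) := by
  let g : T.N₁₂ →ₗ[𝔠.R₁₂ A] 𝔠.R₁₂ A := (ihom T (unit 𝔠 A)).ρ₂ f₂
  have hg : ∀ n, g (T.ρ₂ n) = 𝔠.res₂ A (f₂ n) := ihom_ρ₂_apply hT.toIsQC (unit 𝔠 A) f₂
  obtain ⟨j, f₁', hf₁'⟩ := (ihom_isQC hT (unit_isQC (𝔠 := 𝔠) (A := A))).surj₁ g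
  obtain ⟨f₁, hf₁⟩ : ∃ f₁ : T.N₁ →ₗ[𝔠.R₁ A] 𝔠.R₁ A,
      (ihom T (unit 𝔠 A)).ρ₁ f₁ = (𝔠.res₁ A (𝔠.xA A)) ^ j • g := ⟨f₁', hf₁'⟩
  have h1 : ∀ n, ((𝔠.res₁ A (𝔠.xA A)) ^ j • g) (T.ρ₁ n) = 𝔠.res₁ A (f₁ n) := by
    intro n
    have := ihom_ρ₁_apply hT.toIsQC (unit 𝔠 A) f₁ n
    rw [hf₁] at this
    exact this
  refine ⟨j, f₁, (𝔠.res₁ A (𝔠.xA A)) ^ j • g, h1, fun n => ?_⟩
  rw [LinearMap.smul_apply, hg, smul_eq_mul]

/-- the image on the overlap is generated by the image on `W₁` -/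
theorem range_eq_map_range (T : Triple 𝔠 A) (hT : T.IsQC)
    (f₁ : T.N₁ →ₗ[𝔠.R₁ A] 𝔠.R₁ A) (f₁₂ : T.N₁₂ →ₗ[𝔠.R₁₂ A] 𝔠.R₁₂ A)
    (h₁ : ∀ n, f₁₂ (T.ρ₁ n) = 𝔠.res₁ A (f₁ n)) :
    LinearMap.range f₁₂ = Ideal.map (𝔠.res₁ A).toRingHom (LinearMap.range f₁) := by
  apply le_antisymm
  · rintro _ ⟨n, rfl⟩
    obtain ⟨m, n₁, hn₁⟩ := hT.surj₁ n
    have e : f₁₂ n = (𝔠.res₂ A (𝔠.yA A)) ^ m * 𝔠.res₁ A (f₁ n₁) := by
      rw [← h₁, hn₁, map_smul, smul_eq_mul, ← mul_assoc, ← mul_pow, mul_comm (𝔠.res₂ A _),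
        res₁_xA_mul_res₂_yA, one_pow, one_mul]
    rw [e]
    exact Ideal.mul_mem_left _ _ (Ideal.mem_map_of_mem _ (LinearMap.mem_range_self f₁ n₁))
  · rw [Ideal.map_le_iff_le_comap]
    rintro _ ⟨n, rfl⟩
    exact ⟨T.ρ₁ n, h₁ n⟩

/-- saturation at `P₀` -/
theorem range_eq_comap_range (T : Triple 𝔠 A) (hT : T.IsQC) (j : ℕ)
    (f₂ : T.N₂ →ₗ[𝔠.R₂ A] 𝔠.R₂ A) (f₁₂ : T.N₁₂ →ₗ[𝔠.R₁₂ A] 𝔠.R₁₂ A)
    (h₂ : ∀ n, f₁₂ (T.ρ₂ n) = (𝔠.res₁ A (𝔠.xA A)) ^ j * 𝔠.res₂ A (f₂ n))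
    (hcop : (LinearMap.range f₂ : Ideal (𝔠.R₂ A)) ⊔ Ideal.span {𝔠.yA A} = ⊤) :
    LinearMap.range f₂ = Ideal.comap (𝔠.res₂ A).toRingHom (LinearMap.range f₁₂) := by
  apply le_antisymm
  · rintro _ ⟨n, rfl⟩
    refine ⟨(𝔠.res₂ A (𝔠.yA A)) ^ j • T.ρ₂ n, ?_⟩
    rw [map_smul, h₂, smul_eq_mul, ← mul_assoc, ← mul_pow, mul_comm (𝔠.res₂ A _),
      res₁_xA_mul_res₂_yA, one_pow, one_mul]
    rfl
  · rintro r ⟨n, hn⟩
    have hn' : f₁₂ n = 𝔠.res₂ A r := hn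
    obtain ⟨m, n₂, hn₂⟩ := hT.surj₂ n
    have e : (𝔠.yA A) ^ (m + j) * r = f₂ n₂ := by
      apply res₂_injective 𝔠 A
      have e1 : 𝔠.res₂ A (f₂ n₂) =
          (𝔠.res₂ A (𝔠.yA A)) ^ j * ((𝔠.res₁ A (𝔠.xA A)) ^ j * 𝔠.res₂ A (f₂ n₂)) := by
        rw [← mul_assoc, ← mul_pow, mul_comm (𝔠.res₂ A _), res₁_xA_mul_res₂_yA, one_pow, one_mul]
      rw [e1, ← h₂, hn₂, map_smul, hn', smul_eq_mul, map_mul, map_pow, pow_add]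
      ring
    have hc : IsCoprime (LinearMap.range f₂ : Ideal (𝔠.R₂ A)) (Ideal.span {𝔠.yA A} ^ (m + j)) :=
      (Ideal.isCoprime_iff_sup_eq.mpr hcop).pow_right
    rw [Ideal.span_singleton_pow, Ideal.isCoprime_iff_exists] at hc
    obtain ⟨a, ha, b, hb, hab⟩ := hc
    obtain ⟨c, rfl⟩ := Ideal.mem_span_singleton'.mp hb
    have e2 : r = r * a + c * ((𝔠.yA A) ^ (m + j) * r) := by
      calc r = r * (a + c * (𝔠.yA A) ^ (m + j)) := by rw [hab, mul_one]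
        _ = _ := by ring
    rw [e2, e]
    exact Ideal.add_mem _ (Ideal.mul_mem_left _ _ ha)
      (Ideal.mul_mem_left _ _ (LinearMap.mem_range_self f₂ n₂))

end General

end NoAlgClosed

/-! ### Over a field -/

section Field

variable {k : Type u} [Field k] [IsAlgClosed k] {𝔠 : CurveCharts k}
  {K : Type u} [Field K] [Algebra k K]

/-- a nonzero ideal of `R₁ K` is a divisor -/
theorem isDiv_of_ne_bot (I : Ideal (𝔠.R₁ K)) (hI : I ≠ ⊥) :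
    IsDiv K I (Module.finrank K (𝔠.R₁ K ⧸ I)) := by
  have := 𝔠.isDedekindDomain_R₁ K
  have hfin : Module.Finite K (𝔠.R₁ K ⧸ I) := StructAux.finite_quotient_of_ne_bot K _ I hI
  exact ⟨hfin, inferInstance, fun p => by rw [Module.rankAtStalk_eq_finrank_of_free]; rfl⟩

omit [IsAlgClosed k] in
/-- an ideal of `R₂ K` with a member not vanishing at `P₀` is prime to `y` -/
theorem sup_span_yA_eq_top (J : Ideal (𝔠.R₂ K)) {a : 𝔠.R₂ K} (ha : a ∈ J)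
    (h0 : 𝔠.ev₀ K a ≠ 0) : J ⊔ Ideal.span {𝔠.yA K} = ⊤ := by
  by_contra hne
  obtain ⟨𝔮, h𝔮, hle⟩ := Ideal.exists_le_maximal _ hne
  have hp := h𝔮.isPrime
  have hy : 𝔠.yA K ∈ 𝔮 := hle (Ideal.mem_sup_right (Ideal.mem_span_singleton_self _))
  have ha' : a ∈ 𝔮 := hle (Ideal.mem_sup_left ha)
  have hk := 𝔠.ker_ev₀_le_of_yA_mem K 𝔮 hy
  have h1 : a - algebraMap K (𝔠.R₂ K) (𝔠.ev₀ K a) ∈ 𝔮 := by
    apply hk
    show 𝔠.ev₀ K (a - algebraMap K (𝔠.R₂ K) (𝔠.ev₀ K a)) = 0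
    rw [map_sub, AlgHom.commutes]
    simp
  have h2 : algebraMap K (𝔠.R₂ K) (𝔠.ev₀ K a) ∈ 𝔮 := by
    have := 𝔮.sub_mem ha' h1
    simpa using this
  exact h𝔮.ne_top (Ideal.eq_top_of_isUnit_mem _ h2 ((IsUnit.mk0 _ h0).map _))

/-- structure of line bundles over a field -/
theorem exists_iso_Idiv_tensor_Otw (T : Triple 𝔠 K) (hT : T.IsInvertible) :
    ∃ (j r : ℕ) (I : Ideal (𝔠.R₁ K)), IsDiv K I r ∧
      Nonempty (Iso T ((Idiv I).tensor (Otw 𝔠 K j))) := by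
  have := hT.inv₁
  have := hT.inv₂
  have := 𝔠.isDomain_R₁ K
  have := 𝔠.isDomain_R₂ K
  have := 𝔠.isDomain_R₁₂ K
  obtain ⟨f₂, n₀, h0⟩ := StructAux.exists_apply_notMem (M := T.N₂)
    (RingHom.ker (𝔠.ev₀ K).toRingHom) (RingHom.ker_ne_top _)
  have h0' : 𝔠.ev₀ K (f₂ n₀) ≠ 0 := h0
  have h0'' : f₂ n₀ ≠ 0 := fun h => h0' (by rw [h, map_zero])
  obtain ⟨j, f₁, f₁₂, h₁, h₂⟩ := exists_hom_Otw T hT f₂
  have ux : IsUnit ((𝔠.res₁ K (𝔠.xA K)) ^ j) := (isUnit_res₁_xA 𝔠 K).pow j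
  have i₂ : Function.Injective f₂ := StructAux.injective_of_apply_ne_zero f₂ h0''
  have i₁₂ : Function.Injective f₁₂ := by
    rw [injective_iff_map_eq_zero]
    intro n hn
    obtain ⟨m, n₂, hn₂⟩ := hT.surj₂ n
    have e1 : (𝔠.res₁ K (𝔠.xA K)) ^ j * 𝔠.res₂ K (f₂ n₂) = 0 := by
      rw [← h₂, hn₂, map_smul, hn, smul_zero]
    have e2 : 𝔠.res₂ K (f₂ n₂) = 0 := (ux.mul_right_eq_zero).mp e1
    have e3 : n₂ = 0 := by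
      apply i₂
      rw [map_zero]
      exact res₂_injective 𝔠 K (e2.trans (map_zero _).symm)
    rw [e3, map_zero] at hn₂
    exact (((isUnit_res₂_yA 𝔠 K).pow m).smul_eq_zero).mp hn₂.symm
  have hx0 : 𝔠.xA K ≠ 0 := by
    intro h
    have := isUnit_res₁_xA 𝔠 K
    rw [h, map_zero] at this
    exact not_isUnit_zero this
  have i₁ : Function.Injective f₁ := by
    rw [injective_iff_map_eq_zero]
    intro n hn
    have e1 : T.ρ₁ n = 0 := by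
      apply i₁₂
      rw [h₁, hn, map_zero, map_zero]
    obtain ⟨m, hm⟩ := hT.inj₁ n e1
    exact StructAux.eq_zero_of_smul_eq_zero hm (pow_ne_zero _ hx0)
  have hb := range_eq_map_range T hT.toIsQC f₁ f₁₂ h₁
  have hc := range_eq_comap_range T hT.toIsQC j f₂ f₁₂ h₂
    (sup_span_yA_eq_top _ (LinearMap.mem_range_self f₂ n₀) h0')
  rw [hb] at hc
  have hI : (LinearMap.range f₁ : Ideal (𝔠.R₁ K)) ≠ ⊥ := by
    intro h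
    rw [h, Ideal.map_bot] at hb
    have e1 : f₁₂ (T.ρ₂ n₀) = 0 := by
      have : f₁₂ (T.ρ₂ n₀) ∈ LinearMap.range f₁₂ := LinearMap.mem_range_self _ _
      rw [hb] at this
      exact this
    rw [h₂] at e1
    have e2 : 𝔠.res₂ K (f₂ n₀) = 0 := (ux.mul_right_eq_zero).mp e1
    exact h0'' (res₂_injective 𝔠 K (e2.trans (map_zero _).symm))
  exact ⟨j, _, LinearMap.range f₁, isDiv_of_ne_bot _ hI,
    nonempty_iso_Idiv_tensor_Otw T j f₁ f₂ f₁₂ h₁ h₂ i₁ i₂ i₁₂ hb hc⟩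

end Field

end Fermat.Agent.S25
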