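/-
S25 / block X4 (part 2): additivity of the degree of line bundles over a field `K/k`.
(`exists_iso_Idiv_tensor_Otw` is in `Charts/Structure.lean`.)
-/
import Fermat.Agent.S25.Charts.Structure
import Fermat.Agent.S25.Charts.ChiTwist
import Fermat.Agent.S25.Charts.FieldBasic
import Fermat.Agent.S25.Charts.Otw

set_option autoImplicit false

universe u

open scoped TensorProduct

namespace Fermat.Agent.S25

open Triple

variable {k : Type u} [Field k] [IsAlgClosed k] {𝔠 : CurveCharts k}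
  {K : Type u} [Field K] [Algebra k K]

/-- `χ(S ⊗ 𝒪(-D)(j·D_∞)) = χ(S) + j·deg D_∞ - deg D` -/
theorem chi_tensor_Idiv_tensor_Otw (S : Triple 𝔠 K) (hS : S.IsInvertible) {I : Ideal (𝔠.R₁ K)}
    {r : ℕ} (hI : IsDiv K I r) (j : ℕ) :
    (S.tensor ((Idiv I).tensor (Otw 𝔠 K j))).chi = S.chi + j * 𝔠.degInf - r := by
  have e : Iso (S.tensor ((Idiv I).tensor (Otw 𝔠 K j))) ((S.tensor (Otw 𝔠 K j)).tensor (Idiv I)) :=
    ((Iso.refl S).tensor (tensorComm (Idiv I) (Otw 𝔠 K j))).trans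
      (tensorAssoc S (Otw 𝔠 K j) (Idiv I)).symm
  rw [chi_iso e, chi_tensor_Idiv _ (hS.tensor (Otw_isInvertible j)) hI, chi_tensor_Otw S hS j]

theorem deg_tensor (T T' : Triple 𝔠 K) (hT : T.IsInvertible) (hT' : T'.IsInvertible) :
    (T.tensor T').deg = T.deg + T'.deg := by
  obtain ⟨j, r, I, hI, ⟨e⟩⟩ := exists_iso_Idiv_tensor_Otw T' hT'
  have h1 : (T.tensor T').chi = T.chi + j * 𝔠.degInf - r := by
    rw [chi_iso ((Iso.refl T).tensor e), chi_tensor_Idiv_tensor_Otw T hT hI j]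
  have h2 : T'.chi = (unit 𝔠 K).chi + j * 𝔠.degInf - r := by
    rw [chi_iso (e.trans (unitTensor _).symm),
      chi_tensor_Idiv_tensor_Otw (unit 𝔠 K) unit_isInvertible hI j]
  rw [Triple.deg, Triple.deg, Triple.deg, h1, h2]
  ring

theorem deg_ihom (T T' : Triple 𝔠 K) (hT : T.IsInvertible) (hT' : T'.IsInvertible) :
    (ihom T T').deg = T'.deg - T.deg := by
  have h := deg_tensor T (ihom T T') hT (ihom_isInvertible hT hT')
  rw [(evIso hT T').deg_eq] at h
  rw [h]
  ring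

end Fermat.Agent.S25
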