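/-
S25 / block P7: the geometrically integral family `W₁^m ⟶ Pic⁰`.   Owner: helper49.

`F = B₁ ⊗ ⋯ ⊗ B₁` (`m` factors), `fam = 𝒪(-Σ Pᵢ) ⊗ E` with `Pᵢ` the universal points.
The nodes of blocks Q, X, H which are used are explicit hypotheses of `exists_fam_of_nodes`
(statements verbatim from the skeleton).
-/
import Fermat.Agent.S25.Charts.Defs
import Fermat.Agent.S25.Triple.TensorBC
import Fermat.Agent.S25.Triple.BCLemmas
import Fermat.Agent.S25.Triple.IsoLemmas
import Fermat.Agent.S27.H.TensorDomain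

set_option autoImplicit false

universe u

open scoped TensorProduct

namespace Fermat.Agent.S25

open Triple

namespace Family

/-! ### The `m`-fold tensor power of a finite type domain -/

/-- The `m`-fold tensor power of `B` over an algebraically closed field: a finite type domain with
the universal property of the coproduct. -/
theorem exists_power {k : Type u} [Field k] [IsAlgClosed k] (B : Type u) [CommRing B] [Algebra k B]
    [IsDomain B] [Algebra.FiniteType k B] (m : ℕ) :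
    ∃ (F : Type u) (_ : CommRing F) (_ : Algebra k F) (incl : Fin m → B →ₐ[k] F),
      IsDomain F ∧ Algebra.FiniteType k F ∧
        ∀ (K : Type u) [CommRing K] [Algebra k K] (σ : Fin m → B →ₐ[k] K),
          ∃ φ : F →ₐ[k] K, ∀ i, φ.comp (incl i) = σ i := by
  induction m with
  | zero =>
    exact ⟨k, inferInstance, inferInstance, fun i => i.elim0, inferInstance, inferInstance,
      fun K _ _ σ => ⟨Algebra.ofId k K, fun i => i.elim0⟩⟩
  | succ m ih =>
    obtain ⟨F, _, _, incl, hdom, hft, huniv⟩ := ih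
    refine ⟨B ⊗[k] F, inferInstance, inferInstance,
      Fin.cons Algebra.TensorProduct.includeLeft
        (fun i => Algebra.TensorProduct.includeRight.comp (incl i)),
      Fermat.Agent.S27.H.isDomain_tensorProduct_of_isAlgClosed k B F, ?_, ?_⟩
    · have h1 : Algebra.FiniteType B (B ⊗[k] F) := inferInstance
      exact Algebra.FiniteType.trans (S := B) inferInstance h1
    · intro K _ _ σ
      obtain ⟨φ, hφ⟩ := huniv K (fun i => σ i.succ)
      refine ⟨Algebra.TensorProduct.lift (σ 0) φ (fun _ _ => Commute.all _ _), fun i => ?_⟩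
      refine Fin.cases ?_ (fun j => ?_) i
      · rw [Fin.cons_zero]
        exact Algebra.TensorProduct.lift_comp_includeLeft _ _ _
      · rw [Fin.cons_succ, ← hφ j]
        ext b
        simp

variable {k : Type u} [Field k] {𝔠 : CurveCharts k}

section Base

variable (A : Type u) [CommRing A] [Algebra k A]

/-- The empty divisor. -/
theorem isDiv_one : IsDiv (𝔠 := 𝔠) A 1 0 := by
  have : Subsingleton (𝔠.R₁ A ⧸ (1 : Ideal (𝔠.R₁ A))) := by
    rw [Ideal.one_eq_top]; exact Ideal.Quotient.subsingleton_iff.mpr rfl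
  exact ⟨inferInstance, inferInstance, fun p => by
    rw [Module.rankAtStalk_eq_zero_of_subsingleton]; rfl⟩

/-- `𝒪(-∅) = 𝒪`. -/
noncomputable def idivOne : Iso (Idiv (1 : Ideal (𝔠.R₁ A))) (unit 𝔠 A) where
  e₁ := LinearEquiv.ofTop (1 : Ideal (𝔠.R₁ A)) Ideal.one_eq_top
  e₂ := LinearEquiv.ofTop
    (((1 : Ideal (𝔠.R₁ A)).map (𝔠.res₁ A).toRingHom).comap (𝔠.res₂ A).toRingHom)
    (by rw [Ideal.one_eq_top, Ideal.map_top, Ideal.comap_top])
  e₁₂ := LinearEquiv.ofTop ((1 : Ideal (𝔠.R₁ A)).map (𝔠.res₁ A).toRingHom)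
    (by rw [Ideal.one_eq_top, Ideal.map_top])
  comm₁ _ := rfl
  comm₂ _ := rfl

end Base

/-- The nodes of blocks Q, X, H used in the construction of the family
(statements verbatim from the skeleton). -/
structure Nodes (𝔠 : CurveCharts k) : Prop where
  mul : ∀ {A : Type u} [CommRing A] [Algebra k A] {I I' : Ideal (𝔠.R₁ A)} {r r' : ℕ},
    IsDiv A I r → IsDiv A I' r' → IsDiv A (I * I') (r + r')
  idiv_mul : ∀ {A : Type u} [CommRing A] [Algebra k A] {I I' : Ideal (𝔠.R₁ A)} {r r' : ℕ},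
    IsDiv A I r → IsDiv A I' r' → Nonempty (Iso (Idiv (I * I')) ((Idiv I).tensor (Idiv I')))
  graph : ∀ {A : Type u} [CommRing A] [Algebra k A] (σ : 𝔠.B₁ →ₐ[k] A),
    IsDiv A (graphIdeal₁ σ) 1
  graph_map : ∀ {A : Type u} [CommRing A] [Algebra k A] {A' : Type u} [CommRing A'] [Algebra k A']
    (σ : 𝔠.B₁ →ₐ[k] A) (φ : A →ₐ[k] A'),
    (graphIdeal₁ σ).map (𝔠.bc₁ φ).toRingHom = graphIdeal₁ (φ.comp σ)
  idiv_bc : ∀ {A : Type u} [CommRing A] [Algebra k A] {A' : Type u} [CommRing A'] [Algebra k A']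
    {I : Ideal (𝔠.R₁ A)} {r : ℕ}, IsDiv A I r → ∀ φ : A →ₐ[k] A',
    IsBC φ (Idiv I) (Idiv (I.map (𝔠.bc₁ φ).toRingHom))
  pic0 : ∀ {A : Type u} [CommRing A] [Algebra k A] (E : Triple 𝔠 k), E.IsInvertible → E.IsRigid →
    ∀ {r : ℕ}, E.deg = r → ∀ {I : Ideal (𝔠.R₁ A)}, IsDiv A I r →
    ((Idiv I).tensor (E.const A)).IsPic0
  points : ∃ (m : ℕ) (E : Triple 𝔠 k),
    E.IsInvertible ∧ E.IsRigid ∧ E.deg = m ∧
    ∀ (K : Type u) [Field K] [IsAlgClosed K] [Algebra k K] (T : Triple 𝔠 K), T.IsPic0 →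
      ∃ σ : Fin m → (𝔠.B₁ →ₐ[k] K),
        Nonempty (Iso T ((tensorList (List.ofFn fun i => Ipt (σ i))).tensor (E.const K)))

section Lists

variable (h : Nodes 𝔠) {A : Type u} [CommRing A] [Algebra k A]
  {A' : Type u} [CommRing A'] [Algebra k A']

/-- The ideal of the divisor `Σ σᵢ`. -/
noncomputable def sumIdeal (l : List (𝔠.B₁ →ₐ[k] A)) : Ideal (𝔠.R₁ A) :=
  (l.map graphIdeal₁).prod

include h in
theorem isDiv_sumIdeal (l : List (𝔠.B₁ →ₐ[k] A)) : IsDiv A (sumIdeal l) l.length := by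
  induction l with
  | nil => exact isDiv_one A
  | cons σ l ih =>
    have := h.mul (h.graph σ) ih
    rw [add_comm] at this
    simpa [sumIdeal] using this

include h in
theorem idiv_sumIdeal (l : List (𝔠.B₁ →ₐ[k] A)) :
    Nonempty (Iso (Idiv (sumIdeal l)) (tensorList (l.map Ipt))) := by
  induction l with
  | nil => exact ⟨idivOne A⟩
  | cons σ l ih =>
    obtain ⟨e⟩ := ih
    obtain ⟨e'⟩ := h.idiv_mul (h.graph σ) (isDiv_sumIdeal h l)
    have e'' : Iso (Idiv (sumIdeal (σ :: l))) ((Idiv (graphIdeal₁ σ)).tensor (Idiv (sumIdeal l))) := by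
      have hs : sumIdeal (σ :: l) = graphIdeal₁ σ * sumIdeal l := by simp [sumIdeal]
      rw [hs]; exact e'
    exact ⟨e''.trans ((Iso.refl _).tensor e)⟩

include h in
theorem sumIdeal_map (l : List (𝔠.B₁ →ₐ[k] A)) (φ : A →ₐ[k] A') :
    (sumIdeal l).map (𝔠.bc₁ φ).toRingHom = sumIdeal (l.map fun σ => φ.comp σ) := by
  induction l with
  | nil => simp [sumIdeal, Ideal.one_eq_top, Ideal.map_top]
  | cons σ l ih =>
    have hs : sumIdeal (σ :: l) = graphIdeal₁ σ * sumIdeal l := by simp [sumIdeal]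
    have hs' : sumIdeal ((σ :: l).map fun σ => φ.comp σ) =
        graphIdeal₁ (φ.comp σ) * sumIdeal (l.map fun σ => φ.comp σ) := by simp [sumIdeal]
    rw [hs, hs', Ideal.map_mul, ih, h.graph_map]

end Lists

/-- Constant families are compatible with base change. -/
theorem const_bc (E : Triple 𝔠 k) {A : Type u} [CommRing A] [Algebra k A]
    {A' : Type u} [CommRing A'] [Algebra k A'] (φ : A →ₐ[k] A') :
    IsBC φ (E.const A) (E.const A') := by
  have D₁ : BaseChange (Algebra.ofId k A) E (E.const A) := bcData _ E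
  have D₂ : BaseChange φ (E.const A) ((E.const A).bc φ) := bcData _ _
  have D₃ : BaseChange (Algebra.ofId k A') E (E.const A') := bcData _ E
  have D₄ : BaseChange (φ.comp (Algebra.ofId k A)) E ((E.const A).bc φ) := D₁.comp D₂
  have hφ : φ.comp (Algebra.ofId k A) = Algebra.ofId k A' := Subsingleton.elim _ _
  rw [hφ] at D₄
  exact ⟨D₂.ofIso (D₄.unique D₃)⟩

/-- **P7**, from the nodes of blocks Q, X, H. -/
theorem exists_fam_of_nodes [IsAlgClosed k] (𝔠 : CurveCharts k) (h : Nodes 𝔠) :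
    ∃ (F : Type u) (_ : CommRing F) (_ : Algebra k F),
    Algebra.FiniteType k F ∧ (∀ (K : Type u) [Field K] [Algebra k K], IsDomain (K ⊗[k] F)) ∧
    ∃ fam : Triple 𝔠 F, fam.IsPic0 ∧
      ∀ (K : Type u) [Field K] [IsAlgClosed K] [Algebra k K] (T : Triple 𝔠 K), T.IsPic0 →
        ∃ φ : F →ₐ[k] K, IsBC φ fam T := by
  obtain ⟨m, E, hE, hEr, hEd, hpts⟩ := h.points
  have hft : Algebra.FiniteType k 𝔠.B₁ := inferInstance
  obtain ⟨F, _, _, incl, hdom, hF, huniv⟩ := exists_power (k := k) 𝔠.B₁ m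
  refine ⟨F, inferInstance, inferInstance, hF,
    fun K _ _ => Fermat.Agent.S27.H.isDomain_tensorProduct_of_isAlgClosed k K F,
    (Idiv (sumIdeal (List.ofFn incl))).tensor (E.const F), ?_, ?_⟩
  · have hd := isDiv_sumIdeal h (List.ofFn incl)
    rw [List.length_ofFn] at hd
    exact h.pic0 E hE hEr hEd hd
  · intro K _ _ _ T hT
    obtain ⟨σ, ⟨e⟩⟩ := hpts K T hT
    obtain ⟨φ, hφ⟩ := huniv K σ
    refine ⟨φ, ?_⟩
    obtain ⟨b₁⟩ := h.idiv_bc (isDiv_sumIdeal h (List.ofFn incl)) φ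
    obtain ⟨b₂⟩ := const_bc E φ
    have hl : ((List.ofFn incl).map fun τ => φ.comp τ) = List.ofFn σ := by
      rw [List.map_ofFn]
      congr 1
      funext i
      exact hφ i
    rw [sumIdeal_map h, hl] at b₁
    obtain ⟨e₁⟩ := idiv_sumIdeal h (List.ofFn σ)
    rw [List.map_ofFn] at e₁
    exact ⟨(b₁.tensor b₂).ofIso ((e₁.tensor (Iso.refl _)).trans e.symm)⟩

end Family

end Fermat.Agent.S25
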