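/-
S25 / block H, node H3c: finitely many `g`-tuples of elements of `B₁` suffice as bases of `𝒪_D`.
Owner: helper279.
-/
import Fermat.Agent.S25.Charts.Defs
import Fermat.Agent.S25.Hilb.Ring

set_option autoImplicit false
set_option linter.unusedSectionVars false

universe u

open scoped TensorProduct

namespace Fermat.Agent.S25

namespace FiniteBases

/-- A spanning family of a vector space of dimension `g` contains a basis indexed by `Fin g`. -/
theorem exists_bijective_linearCombination {K Q ι : Type*} [Field K] [AddCommGroup Q] [Module K Q]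
    [Module.Finite K Q] {g : ℕ} (hg : Module.finrank K Q = g) (s : ι → Q)
    (hs : Submodule.span K (Set.range s) = ⊤) :
    ∃ f : Fin g → ι, Function.Bijective (Fintype.linearCombination K (s ∘ f)) := by
  obtain ⟨κ, a, -, hspan, hli⟩ := exists_linearIndependent' K s
  rw [hs] at hspan
  let bas : Module.Basis κ K Q := Module.Basis.mk hli hspan.ge
  have : Fintype κ := FiniteDimensional.fintypeBasisIndex bas
  have hcard : Fintype.card κ = g := by
    rw [← hg, Module.finrank_eq_card_basis bas]
  let e : κ ≃ Fin g := Fintype.equivFinOfCardEq hcard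
  refine ⟨a ∘ e.symm, ?_⟩
  have h : Fintype.linearCombination K (s ∘ (a ∘ e.symm)) =
      ((bas.reindex e).equivFun.symm : (Fin g → K) →ₗ[K] Q) := by
    refine LinearMap.ext fun c => ?_
    rw [Fintype.linearCombination_apply, LinearEquiv.coe_coe, Module.Basis.equivFun_symm_apply]
    refine Finset.sum_congr rfl fun i _ => ?_
    rw [Module.Basis.reindex_apply, Module.Basis.mk_apply]
    rfl
  rw [h]
  exact (bas.reindex e).equivFun.symm.bijective

/-- Cayley-Hamilton: in a commutative algebra of dimension `g` every polynomial in `X` is a linear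
combination of `1, X, …, X^(g-1)`. -/
theorem aeval_mul_mem_span {K Q : Type*} [Field K] [CommRing Q] [Algebra K Q]
    [Module.Finite K Q] {g : ℕ} (hg : Module.finrank K Q = g) (X y : Q) (P : Polynomial K)
    (M : Submodule K Q) (hM : ∀ l : ℕ, l < g → X ^ l * y ∈ M) :
    Polynomial.aeval X P * y ∈ M := by
  set χ : Polynomial K := (Algebra.lmul K Q X).charpoly with hχ
  have hmonic : χ.Monic := LinearMap.charpoly_monic _
  have hdeg : χ.degree = g := by
    rw [Polynomial.degree_eq_natDegree hmonic.ne_zero, hχ, LinearMap.charpoly_natDegree, hg]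
  have hroot : Polynomial.aeval X χ = 0 := by
    have h1 := LinearMap.aeval_self_charpoly (Algebra.lmul K Q X)
    rw [Polynomial.aeval_algHom_apply] at h1
    have h2 := LinearMap.congr_fun h1 1
    have h3 : Algebra.lmul K Q (Polynomial.aeval X χ) 1 = Polynomial.aeval X χ * 1 := rfl
    rw [← mul_one (Polynomial.aeval X χ), ← h3]
    exact h2
  rw [← Polynomial.aeval_modByMonic_eq_self_of_root hroot, Polynomial.aeval_eq_sum_range,
    Finset.sum_mul]
  refine Submodule.sum_mem _ fun l _ => ?_
  by_cases hl : l < g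
  · rw [smul_mul_assoc]
    exact M.smul_mem _ (hM l hl)
  · have h0 : (P %ₘ χ).coeff l = 0 := by
      apply Polynomial.coeff_eq_zero_of_degree_lt
      refine lt_of_lt_of_le (Polynomial.degree_modByMonic_lt P hmonic) ?_
      rw [hdeg]
      exact_mod_cast not_lt.mp hl
    rw [h0, zero_smul, zero_mul]
    exact M.zero_mem

/-- The spanning statement. -/
theorem span_pow_mul_eq_top {k K B Q : Type*} [Field k] [Field K] [Algebra k K] [CommRing B]
    [Algebra k B] [CommRing Q] [Algebra K Q] [Algebra k Q] [IsScalarTower k K Q]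
    [Module.Finite K Q] {g : ℕ} (hg : Module.finrank K Q = g)
    (ψ : B →ₐ[k] Q) (hψ : Submodule.span K (Set.range ψ) = ⊤) (x : B) {n : ℕ} (e : Fin n → B)
    (he : ∀ b : B, ∃ c : Fin n → Polynomial k, b = ∑ i, Polynomial.aeval x (c i) * e i) :
    Submodule.span K (Set.range fun il : Fin g × Fin n => ψ (x ^ (il.1 : ℕ) * e il.2)) = ⊤ := by
  rw [eq_top_iff, ← hψ, Submodule.span_le]
  rintro _ ⟨b, rfl⟩
  obtain ⟨c, rfl⟩ := he b
  rw [map_sum]
  refine Submodule.sum_mem _ fun i _ => ?_
  rw [map_mul, ← Polynomial.aeval_algHom_apply, ← Polynomial.aeval_map_algebraMap K]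
  refine aeval_mul_mem_span hg _ _ _ _ fun l hl => ?_
  refine Submodule.subset_span ⟨(⟨l, hl⟩, i), ?_⟩
  simp only [map_mul, map_pow]

/-- Generators of `B` as a module over `k[x]`. -/
theorem exists_generators {k B : Type*} [Field k] [CommRing B] [Algebra k B] (x : B)
    (hfin : (Polynomial.aeval (R := k) x).toRingHom.Finite) :
    ∃ (n : ℕ) (e : Fin n → B),
      ∀ b : B, ∃ c : Fin n → Polynomial k, b = ∑ i, Polynomial.aeval x (c i) * e i := by
  let _ := (Polynomial.aeval (R := k) x).toRingHom.toAlgebra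
  have : Module.Finite (Polynomial k) B := hfin
  obtain ⟨n, e, he⟩ := Module.Finite.exists_fin (R := Polynomial k) (M := B)
  refine ⟨n, e, fun b => ?_⟩
  have hb : b ∈ Submodule.span (Polynomial k) (Set.range e) := he ▸ Submodule.mem_top
  obtain ⟨c, hc⟩ := (Submodule.mem_span_range_iff_exists_fun _).mp hb
  exact ⟨c, hc.symm⟩

theorem basisMap_eq_linearCombination {k : Type u} [Field k] {B : Type u} [CommRing B]
    [Algebra k B] {g : ℕ} (β : Fin g → B) {K : Type u} [CommRing K] [Algebra k K]
    (I : Ideal (K ⊗[k] B)) :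
    Hilb.basisMap β I =
      Fintype.linearCombination K (fun j => Ideal.Quotient.mk I ((1 : K) ⊗ₜ[k] β j)) := by
  refine LinearMap.ext fun c => ?_
  rw [Hilb.basisMap_apply, Hilb.sec_apply, Fintype.linearCombination_apply, map_sum]
  refine Finset.sum_congr rfl fun j _ => ?_
  rw [Hilb.mk_smul]

/-- The abstract form of the node. -/
theorem exists_finite_bases_aux {k : Type u} [Field k] {B : Type u} [CommRing B] [Algebra k B]
    (x : B) (hfin : (Polynomial.aeval (R := k) x).toRingHom.Finite) (g : ℕ) :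
    ∃ (n : ℕ) (β : Fin n → (Fin g → B)),
      ∀ (K : Type u) [Field K] [Algebra k K] (I : Ideal (K ⊗[k] B)),
        Module.Finite K ((K ⊗[k] B) ⧸ I) → Module.finrank K ((K ⊗[k] B) ⧸ I) = g →
        ∃ j, Function.Bijective (Hilb.basisMap (β j) I) := by
  obtain ⟨n, e, he⟩ := exists_generators x hfin
  let E : (Fin g → Fin g × Fin n) ≃ Fin (Fintype.card (Fin g → Fin g × Fin n)) :=
    Fintype.equivFin _
  refine ⟨_, fun j t => x ^ ((E.symm j t).1 : ℕ) * e (E.symm j t).2, ?_⟩
  intro K _ _ I hfinQ hrank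
  let ψ : B →ₐ[k] (K ⊗[k] B) ⧸ I :=
    ((Ideal.Quotient.mkₐ K I).restrictScalars k).comp Algebra.TensorProduct.includeRight
  have hψapp : ∀ b, ψ b = Ideal.Quotient.mk I ((1 : K) ⊗ₜ[k] b) := fun _ => rfl
  have hψ : Submodule.span K (Set.range ψ) = ⊤ := by
    rw [eq_top_iff]
    rintro z -
    obtain ⟨z, rfl⟩ := Ideal.Quotient.mk_surjective z
    induction z using TensorProduct.induction_on with
    | zero => rw [map_zero]; exact Submodule.zero_mem _
    | add z z' hz hz' => rw [map_add]; exact Submodule.add_mem _ hz hz'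
    | tmul a b =>
      have h1 : (a ⊗ₜ[k] b : K ⊗[k] B) = a • ((1 : K) ⊗ₜ[k] b) := by
        rw [TensorProduct.smul_tmul', smul_eq_mul, mul_one]
      rw [h1, Hilb.mk_smul]
      exact Submodule.smul_mem _ _ (Submodule.subset_span ⟨b, rfl⟩)
  have hspan := span_pow_mul_eq_top hrank ψ hψ x e he
  obtain ⟨f, hf⟩ := exists_bijective_linearCombination hrank _ hspan
  refine ⟨E f, ?_⟩
  rw [basisMap_eq_linearCombination]
  have hfun : (fun j => Ideal.Quotient.mk I ((1 : K) ⊗ₜ[k]
      (x ^ ((E.symm (E f) j).1 : ℕ) * e (E.symm (E f) j).2))) =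
      (fun il : Fin g × Fin n => ψ (x ^ (il.1 : ℕ) * e il.2)) ∘ f := by
    funext t
    simp only [Equiv.symm_apply_apply, Function.comp_apply, hψapp]
  rw [hfun]
  exact hf

end FiniteBases

variable {k : Type u} [Field k] [IsAlgClosed k]

/-- finitely many `g`-tuples `β` of elements of `B₁` suffice as bases of `𝒪_D` -/
theorem exists_finite_bases (𝔠 : CurveCharts k) (g : ℕ) : ∃ (n : ℕ) (β : Fin n → (Fin g → 𝔠.B₁)),
    ∀ (K : Type u) [Field K] [Algebra k K] (I : Ideal (𝔠.R₁ K)), IsDiv K I g →
      ∃ j, Function.Bijective (Hilb.basisMap (β j) I) := by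
  obtain ⟨n, β, h⟩ := FiniteBases.exists_finite_bases_aux 𝔠.x 𝔠.fin₁ g
  refine ⟨n, β, fun K _ _ I hI => h K I hI.finite ?_⟩
  have h1 := hI.rank ⊥
  rw [Module.rankAtStalk_eq_finrank_of_free] at h1
  exact h1

end Fermat.Agent.S25
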