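/-
S25 / block Q, task Q1: abstract commutative algebra used for the divisor bundles `Idiv I`.
-/
import Fermat.Agent.S25.Alg.InvertibleIdeal

set_option autoImplicit false

open scoped TensorProduct

namespace Fermat.Agent.S25.IdivAux

/-- An ideal of `R` containing an element coprime to `y` is determined by its extension to
`R[1/y]`. -/
theorem le_of_map_le {R S : Type*} [CommRing R] [CommRing S] (g : R →+* S) (y : R)
    (hloc : @IsLocalization.Away R _ y S _ g.toAlgebra) {𝔞 𝔟 : Ideal R}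
    (h : 𝔞.map g ≤ 𝔟.map g) {b : R} (hb : b ∈ 𝔟) (hby : IsCoprime b y) : 𝔞 ≤ 𝔟 := by
  let _ : Algebra R S := g.toAlgebra
  intro z hz
  have h1 : algebraMap R S z ∈ 𝔟.map (algebraMap R S) := h (Ideal.mem_map_of_mem g hz)
  rw [IsLocalization.mem_map_algebraMap_iff (Submonoid.powers y)] at h1
  obtain ⟨⟨⟨w, hw⟩, ⟨_, n, rfl⟩⟩, h2⟩ := h1
  simp only at h2
  rw [← map_mul, IsLocalization.eq_iff_exists (Submonoid.powers y)] at h2
  obtain ⟨⟨_, m, rfl⟩, h3⟩ := h2
  simp only at h3
  obtain ⟨u, v, huv⟩ := (hby.pow_right (n := m + n))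
  have h4 : z = u * z * b + v * (y ^ m * w) := by
    rw [← h3]
    linear_combination (-z) * huv
  rw [h4]
  exact 𝔟.add_mem (𝔟.mul_mem_left _ hb) (𝔟.mul_mem_left _ (𝔟.mul_mem_left _ hw))

theorem eq_of_map_eq {R S : Type*} [CommRing R] [CommRing S] (g : R →+* S) (y : R)
    (hloc : @IsLocalization.Away R _ y S _ g.toAlgebra) {𝔞 𝔟 : Ideal R}
    (h : 𝔞.map g = 𝔟.map g) {a b : R} (ha : a ∈ 𝔞) (hay : IsCoprime a y)
    (hb : b ∈ 𝔟) (hby : IsCoprime b y) : 𝔞 = 𝔟 :=
  le_antisymm (le_of_map_le g y hloc h.le hb hby) (le_of_map_le g y hloc h.ge ha hay)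

/-- extension and contraction for a localization -/
theorem map_comap_eq {R S : Type*} [CommRing R] [CommRing S] (g : R →+* S) (y : R)
    (hloc : @IsLocalization.Away R _ y S _ g.toAlgebra) (J : Ideal S) :
    (J.comap g).map g = J := by
  let _ : Algebra R S := g.toAlgebra
  exact IsLocalization.map_under (Submonoid.powers y) S J

/-- an ideal which divides a principal ideal generated by a nonzerodivisor is invertible -/
theorem invertible_of_mul_eq_span {R : Type*} [CommRing R] (I J : Ideal R) (a : R)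
    (ha : a ∈ nonZeroDivisors R) (h : I * J = Ideal.span {a}) : Module.Invertible R I := by
  have key : ∀ x ∈ J, ∃ θ : Module.Dual R I, ∀ z : I, a * θ z = x * z := by
    intro x hx
    have h1 : ∀ z : I, ∃ r, a * r = x * z := by
      intro z
      have h2 : (z : R) * x ∈ Ideal.span {a} := h ▸ Ideal.mul_mem_mul z.2 hx
      obtain ⟨r, hr⟩ := Ideal.mem_span_singleton'.1 h2
      exact ⟨r, by rw [mul_comm, hr, mul_comm]⟩
    choose r hr using h1
    refine ⟨{ toFun := r, map_add' := fun z w => ?_, map_smul' := fun c z => ?_ }, hr⟩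
    · apply (mul_cancel_left_mem_nonZeroDivisors ha).1
      rw [hr, mul_add, hr, hr, Submodule.coe_add, mul_add]
    · apply (mul_cancel_left_mem_nonZeroDivisors ha).1
      rw [hr, RingHom.id_apply, smul_eq_mul, mul_left_comm, hr, Submodule.coe_smul, smul_eq_mul,
        mul_left_comm]
  have h2 : ∀ w ∈ I * J, ∃ t ∈ LinearMap.range (contractLeft R I), a * t = w := by
    intro w hw
    induction hw using Submodule.mul_induction_on' with
    | mem_mul_mem m hm n hn =>
      obtain ⟨θ, hθ⟩ := key n hn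
      exact ⟨θ ⟨m, hm⟩, ⟨θ ⊗ₜ ⟨m, hm⟩, contractLeft_apply _ _⟩, by
        rw [hθ, mul_comm]⟩
    | add x _ y _ hx hy =>
      obtain ⟨t, ht, rfl⟩ := hx
      obtain ⟨s, hs, rfl⟩ := hy
      exact ⟨t + s, Submodule.add_mem _ ht hs, mul_add _ _ _⟩
  obtain ⟨t, ⟨η, hη⟩, ht⟩ := h2 a (h ▸ Ideal.mem_span_singleton_self a)
  have ht1 : t = 1 := (mul_cancel_left_mem_nonZeroDivisors ha).1 (by rw [ht, mul_one])
  apply InvertibleIdeal.invertible_of_surjective
  intro c
  exact ⟨c • η, by rw [map_smul, hη, ht1, smul_eq_mul, mul_one]⟩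

/-- an invertible ideal divides the principal ideals generated by its elements -/
theorem exists_mul_eq_span {R : Type*} [CommRing R] (I : Ideal R) (hI : Module.Invertible R I)
    {f : R} (hf : f ∈ I) : ∃ J : Ideal R, f ∈ J ∧ I * J = Ideal.span {f} := by
  let f₀ : I := ⟨f, hf⟩
  let J : Ideal R := LinearMap.range (LinearMap.applyₗ f₀ : Module.Dual R I →ₗ[R] R)
  have hJ : ∀ θ : Module.Dual R I, θ f₀ ∈ J := fun θ => ⟨θ, rfl⟩
  refine ⟨J, ⟨I.subtype, rfl⟩, le_antisymm ?_ ?_⟩
  · rw [Ideal.mul_le]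
    rintro r hr _ ⟨θ, rfl⟩
    refine Ideal.mem_span_singleton'.2 ⟨θ ⟨r, hr⟩, ?_⟩
    have := InvertibleIdeal.apply_mul_comm I θ ⟨r, hr⟩ f₀
    rw [mul_comm r]
    exact this.symm
  · rw [Ideal.span_singleton_le_iff_mem]
    have h1 : ∀ η : Module.Dual R I ⊗[R] I, contractLeft R I η * f ∈ I * J := by
      intro η
      induction η using TensorProduct.induction_on with
      | zero => simp
      | tmul θ z =>
        rw [contractLeft_apply]
        have := InvertibleIdeal.apply_mul_comm I θ f₀ z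
        have h2 : θ z * f = (z : R) * θ f₀ := by rw [mul_comm (z : R)]; exact this
        rw [h2]
        exact Ideal.mul_mem_mul z.2 (hJ θ)
      | add x y hx hy =>
        rw [map_add, add_mul]
        exact Ideal.add_mem _ hx hy
    obtain ⟨η, hη⟩ := hI.bijective.2 1
    have := h1 η
    rwa [hη, one_mul] at this

/-- **Invertibility in the second chart.**  `R₁₂ = R₂[1/y]`; `I` an invertible ideal of `R₁`,
`f ∈ I`, and `Q ∈ R₂` a nonzerodivisor, coprime to `y`, which is a unit multiple of `f` in `R₁₂`.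
Then `(I R₁₂) ∩ R₂` is invertible. -/
theorem invertible_comap {R₁ R₂ R₁₂ : Type*} [CommRing R₁] [CommRing R₂] [CommRing R₁₂]
    (g₁ : R₁ →+* R₁₂) (g₂ : R₂ →+* R₁₂) (y : R₂)
    (hloc : @IsLocalization.Away R₂ _ y R₁₂ _ g₂.toAlgebra)
    (I : Ideal R₁) (hI : Module.Invertible R₁ I) {f : R₁} (hf : f ∈ I) {Q : R₂} {u : R₁₂}
    (hu : IsUnit u) (hQ : g₂ Q = u * g₁ f) (hQy : IsCoprime Q y) (hQn : Q ∈ nonZeroDivisors R₂) :
    Module.Invertible R₂ ((I.map g₁).comap g₂ : Ideal R₂) := by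
  obtain ⟨J, hfJ, hIJ⟩ := exists_mul_eq_span I hI hf
  have hQI : Q ∈ (I.map g₁).comap g₂ := by
    rw [Ideal.mem_comap, hQ]
    exact Ideal.mul_mem_left _ _ (Ideal.mem_map_of_mem _ hf)
  have hQJ : Q ∈ (J.map g₁).comap g₂ := by
    rw [Ideal.mem_comap, hQ]
    exact Ideal.mul_mem_left _ _ (Ideal.mem_map_of_mem _ hfJ)
  apply invertible_of_mul_eq_span _ ((J.map g₁).comap g₂) Q hQn
  apply eq_of_map_eq g₂ y hloc ?_ (Ideal.mul_mem_mul hQI hQJ) (hQy.mul_left hQy)
    (Ideal.mem_span_singleton_self Q) hQy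
  rw [Ideal.map_mul, map_comap_eq g₂ y hloc, map_comap_eq g₂ y hloc, ← Ideal.map_mul, hIJ,
    Ideal.map_span, Ideal.map_span, Set.image_singleton, Set.image_singleton, hQ,
    Ideal.span_singleton_mul_left_unit hu]

end Fermat.Agent.S25.IdivAux
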