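/-
S25 / block Q, task Q1: the divisor bundles `Idiv I` for a relative effective divisor
`V(I) ⊆ W₁ × Spec A` (finite locally free over `A`): `Idiv_isInvertible`, `Idiv_isRigid`,
`IsDiv.map`, `Idiv_bc`.

Method.  `x` is integral modulo `I`: `P(x) ∈ I` with `P` monic; the reversed polynomial gives
`Q = y^d P(x) = 1 + y c ∈ I₂ := (I R₁₂) ∩ R₂`.  `I` is invertible by the relative Cartier lemma; ideals of
`R₂` containing an element coprime to `y` are determined by their extension to `R₁₂ = R₂[1/y]`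
(`IdivAux.eq_of_map_eq`), which gives `I₂ J₂ = (Q)` from `I J = (P(x))`, and the base change of `I₂`.
-/
import Fermat.Agent.S25.Charts.Defs
import Fermat.Agent.S25.Charts.IdivAux
import Fermat.Agent.S25.Alg.RelCartier
import Fermat.Agent.S25.Alg.Dedekind
import Fermat.Agent.S25.Alg.Points
import Fermat.Agent.S25.Triple.QC

set_option autoImplicit false

universe u

open scoped TensorProduct

namespace Fermat.Agent.S25

open Triple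

variable {k : Type u} [Field k] {𝔠 : CurveCharts k}
variable {A : Type u} [CommRing A] [Algebra k A] {A' : Type u} [CommRing A'] [Algebra k A']

namespace IdivAux

theorem exists_mem_of_mem_map {R S : Type*} [CommRing R] [CommRing S] (g : R →+* S) (x : R)
    (hloc : @IsLocalization.Away R _ x S _ g.toAlgebra) (I : Ideal R) {n : S} (hn : n ∈ I.map g) :
    ∃ (m : ℕ) (i : R), i ∈ I ∧ g i = (g x) ^ m * n := by
  let _ : Algebra R S := g.toAlgebra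
  have h1 : n ∈ I.map (algebraMap R S) := hn
  rw [IsLocalization.mem_map_algebraMap_iff (Submonoid.powers x)] at h1
  obtain ⟨⟨⟨w, hw⟩, ⟨_, m, rfl⟩⟩, h2⟩ := h1
  refine ⟨m, w, hw, ?_⟩
  have h3 : n * g (x ^ m) = g w := h2
  rw [← h3, map_pow, mul_comm]

variable (𝔠) in
/-- the marked point is a zero of `y` -/
theorem e₀_y : 𝔠.e₀ 𝔠.y = 0 := by
  have hnu : ¬ IsUnit 𝔠.y := by
    rintro ⟨v, hv⟩
    have h1 : algebraMap 𝔠.B₁ 𝔠.B₁₂ 𝔠.x = algebraMap 𝔠.B₂ 𝔠.B₁₂ (v⁻¹ : 𝔠.B₂ˣ) := by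
      have h2 : algebraMap 𝔠.B₂ 𝔠.B₁₂ 𝔠.y * algebraMap 𝔠.B₂ 𝔠.B₁₂ (v⁻¹ : 𝔠.B₂ˣ) = 1 := by
        rw [← map_mul, ← hv, Units.mul_inv, map_one]
      calc algebraMap 𝔠.B₁ 𝔠.B₁₂ 𝔠.x
          = algebraMap 𝔠.B₁ 𝔠.B₁₂ 𝔠.x *
            (algebraMap 𝔠.B₂ 𝔠.B₁₂ 𝔠.y * algebraMap 𝔠.B₂ 𝔠.B₁₂ (v⁻¹ : 𝔠.B₂ˣ)) := by
              rw [h2, mul_one]
        _ = algebraMap 𝔠.B₂ 𝔠.B₁₂ (v⁻¹ : 𝔠.B₂ˣ) := by rw [← mul_assoc, 𝔠.xy, one_mul]
    obtain ⟨c, hc⟩ := 𝔠.const _ _ h1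
    exact 𝔠.trans₁ (hc ▸ isAlgebraic_algebraMap c)
  obtain ⟨m, hm, hym⟩ := exists_max_ideal_of_mem_nonunits hnu
  have := 𝔠.pole m hm.isPrime hym
  rw [this] at hym
  exact hym

variable (𝔠 A) in
theorem ev₀_yA : 𝔠.ev₀ A (𝔠.yA A) = 0 := by
  simp [CurveCharts.ev₀, CurveCharts.yA, e₀_y]

/-- `x` is integral modulo `I` -/
theorem exists_monic {I : Ideal (𝔠.R₁ A)} {r : ℕ} (hI : IsDiv A I r) :
    ∃ P : Polynomial A, P.Monic ∧ Polynomial.aeval (𝔠.xA A) P ∈ I := by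
  have := hI.finite
  obtain ⟨P, hP, h0⟩ := (Algebra.IsIntegral.of_finite A (𝔠.R₁ A ⧸ I)).isIntegral
    (Ideal.Quotient.mkₐ A I (𝔠.xA A))
  refine ⟨P, hP, ?_⟩
  rw [← Polynomial.aeval_def, Polynomial.aeval_algHom_apply] at h0
  exact Ideal.Quotient.eq_zero_iff_mem.1 h0

/-- the reversed polynomial -/
theorem res₂_aeval_reverse (P : Polynomial A) :
    𝔠.res₂ A (Polynomial.aeval (𝔠.yA A) P.reverse) =
      (𝔠.res₂ A (𝔠.yA A)) ^ P.natDegree * 𝔠.res₁ A (Polynomial.aeval (𝔠.xA A) P) := by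
  have hxy := Points.res₁_xA_mul_res₂_yA 𝔠 A
  let _ : Invertible (𝔠.res₁ A (𝔠.xA A)) := ⟨𝔠.res₂ A (𝔠.yA A), by rw [mul_comm, hxy], hxy⟩
  have h1 := Polynomial.eval₂_reverse_mul_pow (algebraMap A (𝔠.R₁₂ A)) (𝔠.res₁ A (𝔠.xA A)) P
  rw [← Polynomial.aeval_algHom_apply, ← Polynomial.aeval_algHom_apply, Polynomial.aeval_def,
    Polynomial.aeval_def, ← h1]
  change _ = _ * (Polynomial.eval₂ _ (𝔠.res₂ A (𝔠.yA A)) _ * _)
  rw [mul_left_comm, ← mul_pow, mul_comm (𝔠.res₂ A (𝔠.yA A)), hxy, one_pow, mul_one]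

theorem exists_aeval_reverse_eq {P : Polynomial A} (hP : P.Monic) :
    ∃ c : 𝔠.R₂ A, Polynomial.aeval (𝔠.yA A) P.reverse = 1 + 𝔠.yA A * c := by
  obtain ⟨g, hg⟩ := Polynomial.X_dvd_sub_C (p := P.reverse)
  rw [Polynomial.coeff_zero_reverse, hP.leadingCoeff, map_one] at hg
  refine ⟨Polynomial.aeval (𝔠.yA A) g, ?_⟩
  have h1 := congrArg (Polynomial.aeval (𝔠.yA A)) hg
  rw [map_sub, map_one, map_mul, Polynomial.aeval_X] at h1
  rw [← h1]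
  ring

end IdivAux

theorem IsDiv.map {I : Ideal (𝔠.R₁ A)} {r : ℕ} (hI : IsDiv A I r) (φ : A →ₐ[k] A') :
    IsDiv A' (I.map (𝔠.bc₁ φ).toRingHom) r := by
  let _ : Algebra A A' := φ.toRingHom.toAlgebra
  have : IsScalarTower k A A' := .of_algebraMap_eq' φ.comp_algebraMap.symm
  let e₁ := Algebra.TensorProduct.tensorQuotientEquiv (R := A) A' (𝔠.R₁ A) A' I
  let e₂ := Algebra.TensorProduct.cancelBaseChange k A A' A' 𝔠.B₁
  have h : I.map (𝔠.bc₁ φ).toRingHom =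
      (I.map (Algebra.TensorProduct.includeRight (R := A) (A := A') (B := 𝔠.R₁ A))).map
        (e₂ : A' ⊗[A] 𝔠.R₁ A →+* 𝔠.R₁ A') := by
    change _ = Ideal.map (e₂ : A' ⊗[A] 𝔠.R₁ A →+* 𝔠.R₁ A') (Ideal.map
      (Algebra.TensorProduct.includeRight (R := A) (A := A') (B := 𝔠.R₁ A)).toRingHom I)
    rw [Ideal.map_map]
    congr 1
    refine RingHom.ext fun z => ?_
    induction z using TensorProduct.induction_on with
    | zero => simp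
    | tmul a b =>
      simp [e₂, CurveCharts.bc₁, Algebra.smul_def, RingHom.algebraMap_toAlgebra]
    | add x y hx hy => simp only [map_add, hx, hy]
  let e₃ := Ideal.quotientEquivAlg _ _ e₂ h
  let e := (e₁.trans e₃).toLinearEquiv
  have := hI.finite
  have := hI.proj
  refine ⟨Module.Finite.equiv e, Module.Projective.of_equiv e, fun p => ?_⟩
  rw [← Module.rankAtStalk_eq_of_equiv e, Module.rankAtStalk_baseChange, hI.rank]

namespace IdivAux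

theorem fg {I : Ideal (𝔠.R₁ A)} {r : ℕ} (hI : IsDiv A I r) : I.FG := by
  have := hI.finite
  have := hI.proj
  have : Module.FinitePresentation A (𝔠.R₁ A ⧸ I) := Module.finitePresentation_of_projective A _
  have : Algebra.FinitePresentation A (𝔠.R₁ A ⧸ I) := inferInstance
  have : Algebra.FinitePresentation k 𝔠.B₁ := inferInstance
  have : Algebra.FinitePresentation A (𝔠.R₁ A) := inferInstance
  have h := Algebra.FinitePresentation.ker_fG_of_surjective (Ideal.Quotient.mkₐ A I)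
    (Ideal.Quotient.mkₐ_surjective A I)
  have h2 : RingHom.ker (Ideal.Quotient.mkₐ A I).toRingHom = I := Ideal.mk_ker
  rwa [h2] at h

theorem isRelCartier {I : Ideal (𝔠.R₁ A)} {r : ℕ} (hI : IsDiv A I r) : Cartier.IsRelCartier I where
  fg := fg hI
  flat := by
    have := hI.proj
    infer_instance
  fib_ne p := Points.ne_bot_of_finite_quotient 𝔠.trans₁ _
    (hI.map (IsScalarTower.toAlgHom k A p.asIdeal.ResidueField)).finite

theorem invertible₁ [IsAlgClosed k] {I : Ideal (𝔠.R₁ A)} {r : ℕ} (hI : IsDiv A I r) :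
    Module.Invertible (𝔠.R₁ A) I :=
  (isRelCartier hI).invertible (fun K _ _ => 𝔠.isDedekindDomain_R₁ K)

theorem mem_nonZeroDivisors_of_ev₀ [IsAlgClosed k] {Q : 𝔠.R₂ A} (hQ : 𝔠.ev₀ A Q = 1) :
    Q ∈ nonZeroDivisors (𝔠.R₂ A) := by
  apply NZD.mem_nonZeroDivisors (fun K _ _ => 𝔠.isDomain_R₂ K)
  intro p h0
  have h1 := Fibre.mem_map_of_fib_eq_zero p Q h0
  have h2 : p.asIdeal.map (algebraMap A (𝔠.R₂ A)) ≤ p.asIdeal.comap (𝔠.ev₀ A).toRingHom := by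
    rw [Ideal.map_le_iff_le_comap]
    intro a ha
    rw [Ideal.mem_comap, Ideal.mem_comap]
    have : (𝔠.ev₀ A).toRingHom (algebraMap A (𝔠.R₂ A) a) = a := (𝔠.ev₀ A).commutes a
    rwa [this]
  have h3 : 𝔠.ev₀ A Q ∈ p.asIdeal := h2 h1
  rw [hQ] at h3
  exact p.2.ne_top ((Ideal.eq_top_iff_one _).2 h3)

/-- the data in the second chart -/
theorem exists_Q {I : Ideal (𝔠.R₁ A)} {r : ℕ} (hI : IsDiv A I r) :
    ∃ (f : 𝔠.R₁ A) (Q c : 𝔠.R₂ A) (d : ℕ), f ∈ I ∧ Q = 1 + 𝔠.yA A * c ∧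
      𝔠.res₂ A Q = (𝔠.res₂ A (𝔠.yA A)) ^ d * 𝔠.res₁ A f := by
  obtain ⟨P, hP, hPI⟩ := exists_monic hI
  obtain ⟨c, hc⟩ := exists_aeval_reverse_eq (𝔠 := 𝔠) hP
  exact ⟨_, _, c, _, hPI, hc, res₂_aeval_reverse P⟩

theorem isUnit_res₂_yA : IsUnit (𝔠.res₂ A (𝔠.yA A)) :=
  IsUnit.of_mul_eq_one _ (by rw [mul_comm]; exact Points.res₁_xA_mul_res₂_yA 𝔠 A)

theorem isCoprime_of_eq {Q c : 𝔠.R₂ A} (h : Q = 1 + 𝔠.yA A * c) : IsCoprime Q (𝔠.yA A) :=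
  ⟨1, -c, by rw [h]; ring⟩

theorem ev₀_of_eq {Q c : 𝔠.R₂ A} (h : Q = 1 + 𝔠.yA A * c) : 𝔠.ev₀ A Q = 1 := by
  rw [h, map_add, map_mul, ev₀_yA, zero_mul, add_zero, map_one]

theorem invertible₂ [IsAlgClosed k] {I : Ideal (𝔠.R₁ A)} {r : ℕ} (hI : IsDiv A I r) :
    Module.Invertible (𝔠.R₂ A)
      ((I.map (𝔠.res₁ A).toRingHom).comap (𝔠.res₂ A).toRingHom : Ideal (𝔠.R₂ A)) := by
  obtain ⟨f, Q, c, d, hf, hQ, hres⟩ := exists_Q hI
  exact invertible_comap (𝔠.res₁ A).toRingHom (𝔠.res₂ A).toRingHom (𝔠.yA A)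
    (𝔠.isLocalization_res₂ A) I (invertible₁ hI) hf (isUnit_res₂_yA.pow d) hres
    (isCoprime_of_eq hQ) (mem_nonZeroDivisors_of_ev₀ (ev₀_of_eq hQ))

/-- `Idiv I` is quasi-coherent for every ideal `I` -/
theorem isQC (I : Ideal (𝔠.R₁ A)) : (Idiv I).IsQC where
  surj₁ n := by
    obtain ⟨m, i, hi, h⟩ := exists_mem_of_mem_map _ _ (𝔠.isLocalization_res₁ A) I n.2
    exact ⟨m, ⟨i, hi⟩, Subtype.ext h⟩
  inj₁ n₁ h := by
    obtain ⟨m, hm⟩ := (QC.away_self _ _ (𝔠.isLocalization_res₁ A)).2 n₁.1 (congrArg Subtype.val h)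
    exact ⟨m, Subtype.ext hm⟩
  surj₂ n := by
    obtain ⟨m, n₂, h⟩ := (QC.away_self _ _ (𝔠.isLocalization_res₂ A)).1 n.1
    refine ⟨m, ⟨n₂, ?_⟩, Subtype.ext h⟩
    rw [Ideal.mem_comap, h]
    exact Ideal.mul_mem_left _ _ n.2
  inj₂ n₂ h := by
    obtain ⟨m, hm⟩ := (QC.away_self _ _ (𝔠.isLocalization_res₂ A)).2 n₂.1 (congrArg Subtype.val h)
    exact ⟨m, Subtype.ext hm⟩

end IdivAux

theorem Idiv_isInvertible [IsAlgClosed k] {I : Ideal (𝔠.R₁ A)} {r : ℕ} (hI : IsDiv A I r) :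
    (Idiv I).IsInvertible :=
  { IdivAux.isQC I with
    inv₁ := IdivAux.invertible₁ hI
    inv₂ := IdivAux.invertible₂ hI }

theorem Idiv_isRigid {I : Ideal (𝔠.R₁ A)} {r : ℕ} (hI : IsDiv A I r) : (Idiv I).IsRigid := by
  obtain ⟨f, Q, c, d, hf, hQ, hres⟩ := IdivAux.exists_Q hI
  have hQI : Q ∈ (I.map (𝔠.res₁ A).toRingHom).comap (𝔠.res₂ A).toRingHom := by
    rw [Ideal.mem_comap]
    have : (𝔠.res₂ A).toRingHom Q = _ := hres
    rw [this]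
    exact Ideal.mul_mem_left _ _ (Ideal.mem_map_of_mem _ hf)
  let n : (Idiv I).N₂ := ⟨Q, hQI⟩
  refine ⟨n, fun m => ⟨m.1, ?_⟩⟩
  have h1 : m - (show 𝔠.R₂ A from m.1) • n = (1 - Q) • m := by
    apply Subtype.ext
    change m.1 - m.1 * Q = (1 - Q) * m.1
    ring
  rw [h1]
  apply Submodule.smul_mem_smul _ Submodule.mem_top
  rw [RingHom.mem_ker]
  change 𝔠.ev₀ A (1 - Q) = 0
  rw [map_sub, map_one, IdivAux.ev₀_of_eq hQ, sub_self]

namespace IdivAux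

/-- the map `I → J` induced by a ring homomorphism `f` with `f(I) ⊆ J` -/
def incl {R S : Type*} [CommRing R] [CommRing S] (f : R →+* S) (I : Ideal R) (J : Ideal S)
    (h : I.map f ≤ J) : I →ₛₗ[f] J where
  toFun x := ⟨f x, h (Ideal.mem_map_of_mem f x.2)⟩
  map_add' a b := Subtype.ext (map_add f a.1 b.1)
  map_smul' r a := Subtype.ext (map_mul f r a.1)

theorem isBCMap_incl {R S : Type u} [CommRing R] [CommRing S] (f : R →+* S) (I : Ideal R)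
    (J : Ideal S) (h : I.map f = J) (h1 : Module.Invertible R I) (h2 : Module.Invertible S J) :
    IsBCMap f (incl f I J h.le) := by
  subst h
  exact Cartier.isBCMap_mapIncl f I h1 h2

theorem map₁₂ (I : Ideal (𝔠.R₁ A)) (φ : A →ₐ[k] A') :
    (I.map (𝔠.res₁ A).toRingHom).map (𝔠.bc₁₂ φ).toRingHom =
      (I.map (𝔠.bc₁ φ).toRingHom).map (𝔠.res₁ A').toRingHom := by
  rw [Ideal.map_map, Ideal.map_map]
  congr 1
  exact RingHom.ext fun a => (𝔠.res₁_bc₁ φ a).symm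

theorem bc₂_yA (φ : A →ₐ[k] A') : 𝔠.bc₂ φ (𝔠.yA A) = 𝔠.yA A' := by
  simp [CurveCharts.bc₂, CurveCharts.yA]

theorem mem_comap_of_eq {I : Ideal (𝔠.R₁ A)} {f : 𝔠.R₁ A} (hf : f ∈ I) {Q : 𝔠.R₂ A} {u : 𝔠.R₁₂ A}
    (h : 𝔠.res₂ A Q = u * 𝔠.res₁ A f) :
    Q ∈ (I.map (𝔠.res₁ A).toRingHom).comap (𝔠.res₂ A).toRingHom := by
  rw [Ideal.mem_comap]
  have : (𝔠.res₂ A).toRingHom Q = _ := h
  rw [this]
  exact Ideal.mul_mem_left _ _ (Ideal.mem_map_of_mem _ hf)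

theorem map₂ {I : Ideal (𝔠.R₁ A)} {r : ℕ} (hI : IsDiv A I r) (φ : A →ₐ[k] A') :
    ((I.map (𝔠.res₁ A).toRingHom).comap (𝔠.res₂ A).toRingHom).map (𝔠.bc₂ φ).toRingHom =
      ((I.map (𝔠.bc₁ φ).toRingHom).map (𝔠.res₁ A').toRingHom).comap (𝔠.res₂ A').toRingHom := by
  obtain ⟨f, Q, c, d, hf, hQ, hres⟩ := exists_Q hI
  obtain ⟨f', Q', c', d', hf', hQ', hres'⟩ := exists_Q (hI.map φ)
  have hcop : IsCoprime ((𝔠.bc₂ φ).toRingHom Q) (𝔠.yA A') := by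
    have := (isCoprime_of_eq hQ).map (𝔠.bc₂ φ).toRingHom
    rwa [show (𝔠.bc₂ φ).toRingHom (𝔠.yA A) = 𝔠.yA A' from bc₂_yA φ] at this
  apply eq_of_map_eq (𝔠.res₂ A').toRingHom (𝔠.yA A') (𝔠.isLocalization_res₂ A') ?_
    (Ideal.mem_map_of_mem _ (mem_comap_of_eq hf hres)) hcop
    (mem_comap_of_eq hf' hres') (isCoprime_of_eq hQ')
  rw [map_comap_eq _ _ (𝔠.isLocalization_res₂ A'), ← map₁₂, Ideal.map_map]
  have h1 : (𝔠.res₂ A').toRingHom.comp (𝔠.bc₂ φ).toRingHom =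
      (𝔠.bc₁₂ φ).toRingHom.comp (𝔠.res₂ A).toRingHom := RingHom.ext fun a => 𝔠.res₂_bc₂ φ a
  rw [h1, ← Ideal.map_map, map_comap_eq _ _ (𝔠.isLocalization_res₂ A)]

theorem invertible₁₂ [IsAlgClosed k] {I : Ideal (𝔠.R₁ A)} {r : ℕ} (hI : IsDiv A I r) :
    Module.Invertible (𝔠.R₁₂ A) (I.map (𝔠.res₁ A).toRingHom : Ideal (𝔠.R₁₂ A)) :=
  ((isQC_iff _).1 (isQC I)).1.invertible (invertible₁ hI)

end IdivAux

theorem Idiv_bc [IsAlgClosed k] {I : Ideal (𝔠.R₁ A)} {r : ℕ} (hI : IsDiv A I r) (φ : A →ₐ[k] A') :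
    IsBC φ (Idiv I) (Idiv (I.map (𝔠.bc₁ φ).toRingHom)) :=
  ⟨{ β₁ := IdivAux.incl _ _ _ le_rfl
     β₂ := IdivAux.incl _ _ _ (IdivAux.map₂ hI φ).le
     β₁₂ := IdivAux.incl _ _ _ (IdivAux.map₁₂ I φ).le
     comm₁ := fun n => Subtype.ext (𝔠.res₁_bc₁ φ n.1).symm
     comm₂ := fun n => Subtype.ext (𝔠.res₂_bc₂ φ n.1).symm
     isBC₁ := IdivAux.isBCMap_incl _ _ _ rfl (IdivAux.invertible₁ hI)
       (IdivAux.invertible₁ (hI.map φ))
     isBC₂ := IdivAux.isBCMap_incl _ _ _ (IdivAux.map₂ hI φ) (IdivAux.invertible₂ hI)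
       (IdivAux.invertible₂ (hI.map φ))
     isBC₁₂ := IdivAux.isBCMap_incl _ _ _ (IdivAux.map₁₂ I φ) (IdivAux.invertible₁₂ hI)
       (IdivAux.invertible₁₂ (hI.map φ)) }⟩

end Fermat.Agent.S25
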