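/-
S25 / block Q, task Q3: the ideal sheaves `Idiv₂ I` of relative divisors in the second chart, the
ideal sheaf `IP0` of the marked section, comparison of `Ipt` and `Ipt₂`.   Owner: helper266.

Main point: if `R₂ / I` is finite over `A` then `N₁ = (I R₁₂) ∩ R₁` contains an element `1 + x g`
(reverse of an integral equation of `y` modulo `I`).  Hence `N₁` is `x`-saturated, locally principal
(`Cartier.IsLocPrincipal`), and its formation commutes with base change.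
-/
import Fermat.Agent.S25.Charts.Defs
import Fermat.Agent.S25.Alg.RelCartier
import Fermat.Agent.S25.Alg.Dedekind
import Fermat.Agent.S25.Alg.Points
import Fermat.Agent.S25.Triple.QC
import Fermat.Agent.S25.Triple.BCLemmas

set_option autoImplicit false
set_option linter.unusedSectionVars false

universe u

open scoped TensorProduct

namespace Fermat.Agent.S25.Idiv2

open Cartier Fibre

/-! ### generalities on ideals -/

section Gen2

variable {R S : Type u} [CommRing R] [CommRing S]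

/-- a map `I → J = I S` between invertible ideals which is the restriction of `f` is a base change -/
theorem isBCMap_of_map_eq (f : R →+* S) (I : Ideal R) (J : Ideal S) (hJ : I.map f = J)
    (h1 : Module.Invertible R I) (h2 : Module.Invertible S J) (β : I →ₛₗ[f] J)
    (hβ : ∀ x, (β x : S) = f x) : IsBCMap f β := by
  subst hJ
  have : β = Cartier.mapIncl f I := by
    ext x
    exact hβ x
  rw [this]
  exact Cartier.isBCMap_mapIncl f I h1 h2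

/-- an ideal containing `1 + x g` is `x`-saturated -/
theorem mem_of_pow_mul_mem (J : Ideal R) (x g z : R) (hu : 1 + x * g ∈ J) (l : ℕ)
    (h : x ^ l * z ∈ J) : z ∈ J := by
  induction l with
  | zero => simpa using h
  | succ l ih =>
    apply ih
    have h1 : x ^ l * z = (1 + x * g) * (x ^ l * z) - g * (x ^ (l + 1) * z) := by ring
    rw [h1]
    exact J.sub_mem (J.mul_mem_right _ hu) (J.mul_mem_left _ h)

theorem mem_smul_top_of_mem_mul (P : Ideal R) (m : P) (h : (m : R) ∈ P * P) :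
    m ∈ P • (⊤ : Submodule R P) := by
  have h1 : Submodule.map P.subtype (P • (⊤ : Submodule R P)) = P * P := by
    rw [Submodule.map_smul'', Submodule.map_top, Submodule.range_subtype, smul_eq_mul]
  rw [← h1] at h
  obtain ⟨m', hm', hmm⟩ := h
  have : m' = m := Subtype.ext hmm
  rwa [← this]

end Gen2

/-! ### ideals of `A ⊗[k] B` with finite locally free quotient -/

section Generic

variable {k : Type u} [Field k] {A A' B : Type u} [CommRing A] [CommRing A'] [CommRing B]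
  [Algebra k A] [Algebra k A'] [Algebra k B]

/-- the quotient by the extended ideal is the base change of the quotient -/
theorem exists_quotient_map_equiv (φ : A →ₐ[k] A') (I : Ideal (A ⊗[k] B)) :
    letI : Algebra A A' := φ.toRingHom.toAlgebra
    Nonempty (((A' ⊗[k] B) ⧸ I.map (Algebra.TensorProduct.map φ (AlgHom.id k B)).toRingHom)
      ≃ₗ[A'] A' ⊗[A] ((A ⊗[k] B) ⧸ I)) := by
  let _ : Algebra A A' := φ.toRingHom.toAlgebra
  have : IsScalarTower k A A' := IsScalarTower.of_algebraMap_eq' (by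
    ext c
    exact (φ.commutes c).symm)
  let e₁ := Algebra.TensorProduct.tensorQuotientEquiv (R := A) A' (A ⊗[k] B) A' I
  let e₂ : A' ⊗[A] (A ⊗[k] B) ≃ₐ[A'] A' ⊗[k] B := Algebra.TensorProduct.cancelBaseChange k A A' A' B
  have hmap : (I.map (Algebra.TensorProduct.map φ (AlgHom.id k B)).toRingHom) =
      (I.map (Algebra.TensorProduct.includeRight : (A ⊗[k] B) →ₐ[A] A' ⊗[A] (A ⊗[k] B))).map
        (e₂ : A' ⊗[A] (A ⊗[k] B) →+* A' ⊗[k] B) := by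
    rw [← Ideal.map_coe (Algebra.TensorProduct.includeRight : (A ⊗[k] B) →ₐ[A] A' ⊗[A] (A ⊗[k] B)),
      Ideal.map_map]
    congr 1
    refine RingHom.ext fun z => ?_
    induction z using TensorProduct.induction_on with
    | zero => simp
    | tmul a b =>
      simp [e₂, Algebra.TensorProduct.cancelBaseChange_tmul, RingHom.algebraMap_toAlgebra, Algebra.smul_def]
    | add x y hx hy => simp only [map_add, hx, hy]
  let e₃ := Ideal.quotientEquivAlg _ _ e₂ hmap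
  exact ⟨(e₃.symm.toLinearEquiv).trans e₁.symm.toLinearEquiv⟩

theorem finite_quotient_map (φ : A →ₐ[k] A') (I : Ideal (A ⊗[k] B))
    (h1 : Module.Finite A ((A ⊗[k] B) ⧸ I)) :
    Module.Finite A'
      ((A' ⊗[k] B) ⧸ I.map (Algebra.TensorProduct.map φ (AlgHom.id k B)).toRingHom) := by
  let _ : Algebra A A' := φ.toRingHom.toAlgebra
  obtain ⟨e⟩ := exists_quotient_map_equiv φ I
  exact Module.Finite.equiv e.symm

theorem finite_proj_rank_map (φ : A →ₐ[k] A') (I : Ideal (A ⊗[k] B)) (r : ℕ)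
    (h1 : Module.Finite A ((A ⊗[k] B) ⧸ I)) (h2 : Module.Projective A ((A ⊗[k] B) ⧸ I))
    (h3 : ∀ p : PrimeSpectrum A, Module.rankAtStalk (R := A) ((A ⊗[k] B) ⧸ I) p = r) :
    Module.Finite A' ((A' ⊗[k] B) ⧸ I.map (Algebra.TensorProduct.map φ (AlgHom.id k B)).toRingHom) ∧
    Module.Projective A'
      ((A' ⊗[k] B) ⧸ I.map (Algebra.TensorProduct.map φ (AlgHom.id k B)).toRingHom) ∧
    ∀ p : PrimeSpectrum A', Module.rankAtStalk (R := A')
      ((A' ⊗[k] B) ⧸ I.map (Algebra.TensorProduct.map φ (AlgHom.id k B)).toRingHom) p = r := by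
  let _ : Algebra A A' := φ.toRingHom.toAlgebra
  obtain ⟨e⟩ := exists_quotient_map_equiv φ I
  refine ⟨Module.Finite.equiv e.symm, Module.Projective.of_equiv e.symm, fun p => ?_⟩
  rw [Module.rankAtStalk_eq_of_equiv e, Module.rankAtStalk_baseChange, h3]

/-- a finite locally free quotient defines a relative Cartier divisor -/
theorem isRelCartier_of_finite_projective [Algebra.FinitePresentation k B] {x : B}
    (hx : Transcendental k x) (I : Ideal (A ⊗[k] B))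
    (h1 : Module.Finite A ((A ⊗[k] B) ⧸ I)) (h2 : Module.Projective A ((A ⊗[k] B) ⧸ I)) :
    Cartier.IsRelCartier I := by
  refine ⟨?_, inferInstance, fun p => ?_⟩
  · have hfp : Module.FinitePresentation A ((A ⊗[k] B) ⧸ I) :=
      Module.finitePresentation_of_projective A _
    have hfa : Algebra.FinitePresentation A ((A ⊗[k] B) ⧸ I) :=
      Algebra.FinitePresentation.of_finitePresentation A _
    have h := Algebra.FinitePresentation.ker_fG_of_surjective (Ideal.Quotient.mkₐ A I)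
      (Ideal.Quotient.mkₐ_surjective A I)
    have h' : RingHom.ker (Ideal.Quotient.mkₐ A I).toRingHom = I := Ideal.mk_ker
    rwa [h'] at h
  · exact Points.ne_bot_of_finite_quotient hx _
      (finite_quotient_map (IsScalarTower.toAlgHom k A p.asIdeal.ResidueField) I h1)

/-- the quotient by the ideal of a section is `A` -/
theorem finite_proj_rank_ker_ofPoint (τ : B →ₐ[k] A) :
    Module.Finite A ((A ⊗[k] B) ⧸ RingHom.ker (Points.ofPoint τ).toRingHom) ∧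
    Module.Projective A ((A ⊗[k] B) ⧸ RingHom.ker (Points.ofPoint τ).toRingHom) ∧
    ∀ p : PrimeSpectrum A, Module.rankAtStalk (R := A)
      ((A ⊗[k] B) ⧸ RingHom.ker (Points.ofPoint τ).toRingHom) p = 1 := by
  let e : ((A ⊗[k] B) ⧸ RingHom.ker (Points.ofPoint τ).toRingHom) ≃ₗ[A] A :=
    (Ideal.quotientKerAlgEquivOfSurjective (Points.ofPoint_surjective τ)).toLinearEquiv
  refine ⟨Module.Finite.equiv e.symm, Module.Projective.of_equiv e.symm, fun p => ?_⟩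
  have : Nontrivial A := p.nontrivial
  rw [Module.rankAtStalk_eq_of_equiv e, Module.rankAtStalk_self]
  rfl

theorem fib_ne_zero_of_not_mem (q : Ideal (A ⊗[k] B)) [q.IsPrime] (f : A ⊗[k] B) (hf : f ∉ q) :
    fib B (below q) f ≠ 0 := by
  intro h
  apply hf
  have h1 := mem_map_of_fib_eq_zero (below q) f h
  exact Ideal.map_comap_le h1

end Generic

/-! ### the charts -/

section Charts

variable {k : Type u} [Field k] {𝔠 : CurveCharts k} {A : Type u} [CommRing A] [Algebra k A]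

/-- contraction-extension along the localisation `res₁` -/
theorem map_comap_res₁ (J : Ideal (𝔠.R₁₂ A)) :
    (J.comap (𝔠.res₁ A).toRingHom).map (𝔠.res₁ A).toRingHom = J := by
  let _ : Algebra (𝔠.R₁ A) (𝔠.R₁₂ A) := (𝔠.res₁ A).toRingHom.toAlgebra
  have := 𝔠.isLocalization_res₁ A
  exact IsLocalization.map_under (Submonoid.powers (𝔠.xA A)) (𝔠.R₁₂ A) J

theorem exists_pow_mul_mem_of_res₁_mem (J : Ideal (𝔠.R₁ A)) (z : 𝔠.R₁ A)
    (h : (𝔠.res₁ A).toRingHom z ∈ J.map (𝔠.res₁ A).toRingHom) : ∃ l : ℕ, (𝔠.xA A) ^ l * z ∈ J := by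
  let _ : Algebra (𝔠.R₁ A) (𝔠.R₁₂ A) := (𝔠.res₁ A).toRingHom.toAlgebra
  have := 𝔠.isLocalization_res₁ A
  obtain ⟨⟨⟨j, hj⟩, ⟨_, l, rfl⟩⟩, h1⟩ :=
    (IsLocalization.mem_map_algebraMap_iff (Submonoid.powers (𝔠.xA A)) (𝔠.R₁₂ A)).mp h
  have h2 : (𝔠.res₁ A).toRingHom (z * (𝔠.xA A) ^ l - j) = 0 := by
    rw [map_sub, map_mul, sub_eq_zero]
    exact h1
  obtain ⟨m, hm⟩ := (QC.away_self _ _ (𝔠.isLocalization_res₁ A)).2 _ h2
  refine ⟨m + l, ?_⟩
  have h3 : (𝔠.xA A) ^ (m + l) * z = (𝔠.xA A) ^ m * j := by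
    have : (𝔠.xA A) ^ (m + l) * z = (𝔠.xA A) ^ m * (z * (𝔠.xA A) ^ l - j) + (𝔠.xA A) ^ m * j := by
      ring
    rw [this, hm, zero_add]
  rw [h3]
  exact J.mul_mem_left _ hj

/-- an ideal of `R₁` containing `1 + x g` is the contraction of its extension to `R₁₂` -/
theorem comap_map_res₁ (J : Ideal (𝔠.R₁ A)) (g : 𝔠.R₁ A) (hu : 1 + 𝔠.xA A * g ∈ J) :
    (J.map (𝔠.res₁ A).toRingHom).comap (𝔠.res₁ A).toRingHom = J := by
  apply le_antisymm
  · intro z hz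
    obtain ⟨l, hl⟩ := exists_pow_mul_mem_of_res₁_mem J z hz
    exact mem_of_pow_mul_mem J _ g z hu l hl
  · exact Ideal.le_comap_map

/-- if `R₂ / I` is finite over `A`, then `(I R₁₂) ∩ R₁` contains an element `1 + x g`. -/
theorem exists_one_add_mem (I : Ideal (𝔠.R₂ A)) (hfin : Module.Finite A (𝔠.R₂ A ⧸ I)) :
    ∃ g : 𝔠.R₁ A, 1 + 𝔠.xA A * g ∈
      (I.map (𝔠.res₂ A).toRingHom).comap (𝔠.res₁ A).toRingHom := by
  have hint : IsIntegral A (Ideal.Quotient.mk I (𝔠.yA A)) :=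
    Algebra.IsIntegral.isIntegral (R := A) _
  obtain ⟨P, hP, hP0⟩ := hint
  have h1 : Polynomial.aeval (𝔠.yA A) P ∈ I := by
    rw [← Ideal.Quotient.eq_zero_iff_mem]
    have : Ideal.Quotient.mk I (Polynomial.aeval (𝔠.yA A) P) =
        Polynomial.aeval (Ideal.Quotient.mkₐ A I (𝔠.yA A)) P :=
      (Polynomial.aeval_algHom_apply (Ideal.Quotient.mkₐ A I) (𝔠.yA A) P).symm
    rw [this]
    exact hP0
  set X := 𝔠.res₁ A (𝔠.xA A) with hX
  set Y := 𝔠.res₂ A (𝔠.yA A) with hY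
  have hXY : X * Y = 1 := Points.res₁_xA_mul_res₂_yA 𝔠 A
  let _ : Invertible Y := ⟨X, hXY, by rw [mul_comm]; exact hXY⟩
  have h2 := Polynomial.eval₂_reverse_mul_pow (algebraMap A (𝔠.R₁₂ A)) Y P
  have h3 : Polynomial.aeval X P.reverse = Polynomial.aeval Y P * X ^ P.natDegree := by
    have h2' : Polynomial.aeval X P.reverse * Y ^ P.natDegree = Polynomial.aeval Y P := h2
    rw [← h2', mul_assoc, ← mul_pow, mul_comm Y X, hXY, one_pow, mul_one]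
  refine ⟨Polynomial.aeval (𝔠.xA A) P.reverse.divX, ?_⟩
  have h4 : 1 + 𝔠.xA A * Polynomial.aeval (𝔠.xA A) P.reverse.divX =
      Polynomial.aeval (𝔠.xA A) P.reverse := by
    conv_rhs => rw [← Polynomial.divX_mul_X_add P.reverse]
    rw [map_add, map_mul, Polynomial.aeval_X, Polynomial.aeval_C, Polynomial.coeff_zero_reverse,
      hP.leadingCoeff, map_one]
    ring
  rw [h4, Ideal.mem_comap]
  have h5 : (𝔠.res₁ A).toRingHom (Polynomial.aeval (𝔠.xA A) P.reverse) =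
      Polynomial.aeval X P.reverse := (Polynomial.aeval_algHom_apply (𝔠.res₁ A) (𝔠.xA A) _).symm
  rw [h5, h3]
  apply Ideal.mul_mem_right
  have h6 : Polynomial.aeval Y P = (𝔠.res₂ A).toRingHom (Polynomial.aeval (𝔠.yA A) P) :=
    Polynomial.aeval_algHom_apply (𝔠.res₂ A) (𝔠.yA A) _
  rw [h6]
  exact Ideal.mem_map_of_mem _ h1

theorem isLocPrincipal_map_res₂ {I : Ideal (𝔠.R₂ A)} (hI : IsLocPrincipal I) :
    IsLocPrincipal (I.map (𝔠.res₂ A).toRingHom) :=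
  hI.mapRight (IsScalarTower.toAlgHom k 𝔠.B₂ 𝔠.B₁₂) (Points.algebraMap₂_injective 𝔠)

/-- the ideal `(J ∩ R₁)` of a locally principal ideal `J` of `R₁₂` is locally principal, if it
contains an element `1 + x g`. -/
theorem isLocPrincipal_comap_res₁ {J : Ideal (𝔠.R₁₂ A)} (hJ : IsLocPrincipal J) (g : 𝔠.R₁ A)
    (hu : 1 + 𝔠.xA A * g ∈ J.comap (𝔠.res₁ A).toRingHom) :
    IsLocPrincipal (J.comap (𝔠.res₁ A).toRingHom) := by
  intro q hq
  set u := 1 + 𝔠.xA A * g with hudef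
  by_cases hx : 𝔠.xA A ∈ q
  · have huq : u ∉ q := by
      intro h
      apply hq.ne_top
      rw [Ideal.eq_top_iff_one]
      have : (1 : 𝔠.R₁ A) = u - 𝔠.xA A * g := by rw [hudef]; ring
      rw [this]
      exact q.sub_mem h (q.mul_mem_right _ hx)
    obtain ⟨i, hi⟩ := exists_coeff_of_fib_ne_zero q u (fib_ne_zero_of_not_mem q u huq)
    exact ⟨u, u, i, huq, hu, hi, fun z _ => Ideal.mul_mem_right _ _ (Ideal.mem_span_singleton_self u)⟩
  · -- the prime of `R₁₂` above `q`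
    let _ : Algebra (𝔠.R₁ A) (𝔠.R₁₂ A) := (𝔠.res₁ A).toRingHom.toAlgebra
    have hloc := 𝔠.isLocalization_res₁ A
    have hdisj : Disjoint (Submonoid.powers (𝔠.xA A) : Set (𝔠.R₁ A)) (q : Set (𝔠.R₁ A)) := by
      rw [Set.disjoint_left]
      rintro _ ⟨n, rfl⟩ h
      exact hx (hq.mem_of_pow_mem n h)
    have hq' : (q.map (𝔠.res₁ A).toRingHom).IsPrime :=
      IsLocalization.isPrime_of_isPrime_disjoint (Submonoid.powers (𝔠.xA A)) (𝔠.R₁₂ A) q hq hdisj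
    have hcomap : (q.map (𝔠.res₁ A).toRingHom).comap (𝔠.res₁ A).toRingHom = q :=
      IsLocalization.under_map_of_isPrime_disjoint (Submonoid.powers (𝔠.xA A)) (𝔠.R₁₂ A) hq hdisj
    set q' := q.map (𝔠.res₁ A).toRingHom with hq'def
    have hmemq : ∀ w : 𝔠.R₁ A, 𝔠.res₁ A w ∈ q' → w ∈ q := by
      intro w hw
      rw [← hcomap]
      exact hw
    set X := 𝔠.res₁ A (𝔠.xA A) with hX
    set Y := 𝔠.res₂ A (𝔠.yA A) with hY
    have hXY : X * Y = 1 := Points.res₁_xA_mul_res₂_yA 𝔠 A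
    have hXq' : X ∉ q' := fun h => hx (hmemq _ h)
    obtain ⟨h', f', i', hh', hf', hi', hgen'⟩ := hJ q' hq'
    obtain ⟨m₁, h, hh⟩ := Points.exists_res₁_eq 𝔠 A h'
    obtain ⟨m₂, f, hf⟩ := Points.exists_res₁_eq 𝔠 A f'
    have hfJ : f ∈ J.comap (𝔠.res₁ A).toRingHom := by
      rw [Ideal.mem_comap]
      change 𝔠.res₁ A f ∈ J
      rw [hf]
      exact J.mul_mem_left _ hf'
    have hhq : h ∉ q := by
      intro hmem
      have h1 : 𝔠.res₁ A h ∈ q' := Ideal.mem_map_of_mem (𝔠.res₁ A).toRingHom hmem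
      rw [hh] at h1
      rcases hq'.mem_or_mem h1 with h2 | h2
      · exact hXq' (hq'.mem_of_pow_mem _ h2)
      · exact hh' h2
    -- the fibre of `f` is nonzero
    have hbelow : below q = below q' := by
      apply PrimeSpectrum.ext
      ext a
      rw [mem_below_iff, mem_below_iff]
      constructor
      · intro ha
        have := Ideal.mem_map_of_mem (𝔠.res₁ A).toRingHom ha
        change 𝔠.res₁ A _ ∈ q' at this
        rwa [(𝔠.res₁ A).commutes] at this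
      · intro ha
        apply hmemq
        rwa [(𝔠.res₁ A).commutes]
    have hfib : fib 𝔠.B₁ (below q) f ≠ 0 := by
      intro h0
      have h1 : fib 𝔠.B₁₂ (below q) (𝔠.res₁ A f) = 0 := by
        have := IsLocPrincipal.fib_mapRight (IsScalarTower.toAlgHom k 𝔠.B₁ 𝔠.B₁₂) (below q) f
        rw [h0, map_zero] at this
        exact this
      rw [hbelow, hf] at h1
      have h2 : fib 𝔠.B₁₂ (below q') f' = 0 := by
        have : f' = Y ^ m₂ * (X ^ m₂ * f') := by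
          rw [← mul_assoc, ← mul_pow, mul_comm Y X, hXY, one_pow, one_mul]
        rw [this, map_mul, h1, mul_zero]
      exact fib_ne_zero_of_coeff q' f' i' hi' h2
    obtain ⟨i, hi⟩ := exists_coeff_of_fib_ne_zero q f hfib
    -- weak generation
    have hweak : ∀ z ∈ J.comap (𝔠.res₁ A).toRingHom, ∃ l : ℕ,
        (𝔠.xA A) ^ l * (h * z) ∈ Ideal.span {f} := by
      intro z hz
      obtain ⟨c, hc⟩ := Ideal.mem_span_singleton'.mp (hgen' (𝔠.res₁ A z) hz)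
      obtain ⟨m₃, c₀, hc₀⟩ := Points.exists_res₁_eq 𝔠 A c
      have h1 : (𝔠.res₁ A).toRingHom
          ((𝔠.xA A) ^ (m₂ + m₃) * (h * z) - (𝔠.xA A) ^ m₁ * c₀ * f) = 0 := by
        change 𝔠.res₁ A _ = 0
        rw [map_sub, map_mul, map_mul, map_mul, map_mul, map_pow, map_pow, hh, hf, hc₀, ← hX]
        have : X ^ (m₂ + m₃) * (X ^ m₁ * h' * 𝔠.res₁ A z) =
            X ^ (m₂ + m₃) * X ^ m₁ * (h' * 𝔠.res₁ A z) := by ring
        rw [this, ← hc]
        ring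
      obtain ⟨m₄, hm₄⟩ := (QC.away_self _ _ (𝔠.isLocalization_res₁ A)).2 _ h1
      refine ⟨m₄ + (m₂ + m₃), ?_⟩
      have h2 : (𝔠.xA A) ^ (m₄ + (m₂ + m₃)) * (h * z) = (𝔠.xA A) ^ m₄ * ((𝔠.xA A) ^ m₁ * c₀) * f := by
        have : (𝔠.xA A) ^ (m₄ + (m₂ + m₃)) * (h * z) =
            (𝔠.xA A) ^ m₄ * ((𝔠.xA A) ^ (m₂ + m₃) * (h * z) - (𝔠.xA A) ^ m₁ * c₀ * f) +
              (𝔠.xA A) ^ m₄ * ((𝔠.xA A) ^ m₁ * c₀) * f := by ring
        rw [this, hm₄, zero_add]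
      rw [h2]
      exact Ideal.mul_mem_left _ _ (Ideal.mem_span_singleton_self f)
    obtain ⟨lu, hlu⟩ := hweak u hu
    refine ⟨(𝔠.xA A) ^ lu * h * h, f, i, ?_, hfJ, hi, ?_⟩
    · intro hmem
      rcases hq.mem_or_mem hmem with h1 | h1
      · rcases hq.mem_or_mem h1 with h2 | h2
        · exact hx (hq.mem_of_pow_mem _ h2)
        · exact hhq h2
      · exact hhq h1
    · intro z hz
      obtain ⟨l, hl⟩ := hweak z hz
      have h1 : h * z ∈ Ideal.span {u, f} := by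
        apply mem_of_pow_mul_mem _ (𝔠.xA A) g (h * z) _ l
        · exact Ideal.span_mono (by simp) hl
        · exact Ideal.subset_span (by simp [hudef])
      obtain ⟨a, b, hab⟩ := Ideal.mem_span_pair.mp h1
      have h2 : (𝔠.xA A) ^ lu * h * h * z = a * ((𝔠.xA A) ^ lu * (h * u)) +
          (b * (𝔠.xA A) ^ lu * h) * f := by
        have : (𝔠.xA A) ^ lu * h * h * z = (𝔠.xA A) ^ lu * h * (h * z) := by ring
        rw [this, ← hab]
        ring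
      rw [h2]
      exact Ideal.add_mem _ (Ideal.mul_mem_left _ _ hlu)
        (Ideal.mul_mem_left _ _ (Ideal.mem_span_singleton_self f))

/-- `Idiv I₁` and `Idiv₂ I₂` are isomorphic as soon as their components are equal ideals -/
noncomputable def isoOfEq (I₁ : Ideal (𝔠.R₁ A)) (I₂ : Ideal (𝔠.R₂ A))
    (h₁ : I₁ = (I₂.map (𝔠.res₂ A).toRingHom).comap (𝔠.res₁ A).toRingHom)
    (h₂ : (I₁.map (𝔠.res₁ A).toRingHom).comap (𝔠.res₂ A).toRingHom = I₂)
    (h₁₂ : I₁.map (𝔠.res₁ A).toRingHom = I₂.map (𝔠.res₂ A).toRingHom) :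
    Triple.Iso (Triple.Idiv I₁) (Triple.Idiv₂ I₂) where
  e₁ := LinearEquiv.ofEq _ _ h₁
  e₂ := LinearEquiv.ofEq _ _ h₂
  e₁₂ := LinearEquiv.ofEq _ _ h₁₂
  comm₁ := fun _ => rfl
  comm₂ := fun _ => rfl

theorem ev₀_eq_ofPoint (z : 𝔠.R₂ A) :
    𝔠.ev₀ A z = Points.ofPoint ((Algebra.ofId k A).comp 𝔠.e₀) z := by
  induction z using TensorProduct.induction_on with
  | zero => simp
  | tmul a b =>
    simp [CurveCharts.ev₀, Algebra.ofId_apply, Algebra.smul_def, mul_comm]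
  | add x y hx hy => rw [map_add, map_add, hx, hy]

theorem ker_ev₀_eq : RingHom.ker (𝔠.ev₀ A).toRingHom =
    Triple.graphIdeal₂ ((Algebra.ofId k A).comp 𝔠.e₀) := by
  ext z
  change 𝔠.ev₀ A z = 0 ↔ Points.ofPoint ((Algebra.ofId k A).comp 𝔠.e₀) z = 0
  rw [ev₀_eq_ofPoint]

/-- the ideal of the marked section is generated, modulo its square, by one element -/
theorem exists_generator_ker_ev₀ : ∃ t ∈ RingHom.ker (𝔠.ev₀ A).toRingHom,
    ∀ m ∈ RingHom.ker (𝔠.ev₀ A).toRingHom, ∃ r : 𝔠.R₂ A,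
      m - r * t ∈ RingHom.ker (𝔠.ev₀ A).toRingHom * RingHom.ker (𝔠.ev₀ A).toRingHom := by
  have hD : IsDedekindDomain 𝔠.B₂ :=
    Dedekind.isDedekindDomain_of_smooth_of_finite k 𝔠.B₂ 𝔠.y 𝔠.fin₂
  set p : Ideal 𝔠.B₂ := RingHom.ker 𝔠.e₀ with hp
  have hpmax : p.IsMaximal := Points.ker_isMaximal 𝔠.e₀
  have hpne : p ≠ ⊥ := Points.ker_point₂_ne_bot 𝔠 𝔠.e₀
  obtain ⟨t, htp, htpp⟩ := Points.exists_mem_not_mem_mul hpne hpmax
  have hsup := Points.span_sup_mul_eq hpne hpmax htp htpp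
  set P : Ideal (𝔠.R₂ A) := RingHom.ker (𝔠.ev₀ A).toRingHom with hP
  have hmemP : ∀ z : 𝔠.R₂ A, z ∈ P ↔ Points.ofPoint ((Algebra.ofId k A).comp 𝔠.e₀) z = 0 := by
    intro z
    rw [← ev₀_eq_ofPoint]
    exact Iff.rfl
  have hincl : ∀ b ∈ p, (1 : A) ⊗ₜ[k] b ∈ P := by
    intro b hb
    rw [hmemP, Points.ofPoint_tmul]
    have : 𝔠.e₀ b = 0 := hb
    simp [this]
  have hincl2 : ∀ s ∈ p * p, (1 : A) ⊗ₜ[k] s ∈ P * P := by
    intro s hs
    refine Submodule.mul_induction_on hs (fun a ha b hb => ?_) (fun a b ha hb => ?_)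
    · have : (1 : A) ⊗ₜ[k] (a * b) = ((1 : A) ⊗ₜ[k] a) * ((1 : A) ⊗ₜ[k] b) := by
        rw [Algebra.TensorProduct.tmul_mul_tmul, one_mul]
      rw [this]
      exact Ideal.mul_mem_mul (hincl a ha) (hincl b hb)
    · rw [TensorProduct.tmul_add]
      exact Ideal.add_mem _ ha hb
  refine ⟨(1 : A) ⊗ₜ[k] t, hincl t htp, ?_⟩
  have hPspan : P = Ideal.span (Set.range fun b : 𝔠.B₂ =>
      (1 : A) ⊗ₜ[k] b - ((Algebra.ofId k A).comp 𝔠.e₀) b ⊗ₜ[k] (1 : 𝔠.B₂)) := by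
    rw [← Points.ker_ofPoint_eq_span]
    ext z
    rw [hmemP]
    exact Iff.rfl
  intro m hm
  rw [hPspan] at hm
  refine Submodule.span_induction (p := fun m _ => ∃ r : 𝔠.R₂ A, m - r * (1 : A) ⊗ₜ[k] t ∈ P * P)
    ?_ ?_ ?_ ?_ hm
  · rintro _ ⟨b, rfl⟩
    have h1 : (1 : A) ⊗ₜ[k] b - ((Algebra.ofId k A).comp 𝔠.e₀) b ⊗ₜ[k] (1 : 𝔠.B₂) =
        (1 : A) ⊗ₜ[k] (b - algebraMap k 𝔠.B₂ (𝔠.e₀ b)) := by
      rw [TensorProduct.tmul_sub]
      congr 1
      rw [AlgHom.comp_apply, Algebra.ofId_apply, Algebra.algebraMap_eq_smul_one,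
        Algebra.algebraMap_eq_smul_one, TensorProduct.smul_tmul]
    have h2 : b - algebraMap k 𝔠.B₂ (𝔠.e₀ b) ∈ p := by
      rw [hp, RingHom.mem_ker, map_sub, AlgHom.commutes]
      simp
    rw [← hsup] at h2
    obtain ⟨c', hc', s, hs, hcs⟩ := Submodule.mem_sup.mp h2
    obtain ⟨c, rfl⟩ := Ideal.mem_span_singleton'.mp hc'
    refine ⟨(1 : A) ⊗ₜ[k] c, ?_⟩
    beta_reduce
    rw [h1, ← hcs, TensorProduct.tmul_add, Algebra.TensorProduct.tmul_mul_tmul, one_mul,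
      add_sub_cancel_left]
    exact hincl2 s hs
  · exact ⟨0, by simp⟩
  · rintro a b _ _ ⟨r, hr⟩ ⟨r', hr'⟩
    refine ⟨r + r', ?_⟩
    have : a + b - (r + r') * (1 : A) ⊗ₜ[k] t =
        (a - r * (1 : A) ⊗ₜ[k] t) + (b - r' * (1 : A) ⊗ₜ[k] t) := by ring
    rw [this]
    exact Ideal.add_mem _ hr hr'
  · rintro c a _ ⟨r, hr⟩
    refine ⟨c * r, ?_⟩
    have : c • a - c * r * (1 : A) ⊗ₜ[k] t = c * (a - r * (1 : A) ⊗ₜ[k] t) := by
      rw [smul_eq_mul]; ring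
    rw [this]
    exact Ideal.mul_mem_left _ _ hr

variable [IsAlgClosed k]

theorem IsDiv₂.isLocPrincipal {I : Ideal (𝔠.R₂ A)} {r : ℕ} (hI : IsDiv₂ A I r) :
    IsLocPrincipal I :=
  (isRelCartier_of_finite_projective (Points.trans₂ 𝔠) I hI.finite hI.proj).isLocPrincipal
    (fun K _ _ => 𝔠.isDedekindDomain_R₂ K)

/-- the three ideals of `Idiv₂ I` are invertible, under the two properties of `I` that matter -/
theorem invertible_aux {I : Ideal (𝔠.R₂ A)} (hI : IsLocPrincipal I) (g : 𝔠.R₁ A)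
    (hu : 1 + 𝔠.xA A * g ∈ (I.map (𝔠.res₂ A).toRingHom).comap (𝔠.res₁ A).toRingHom) :
    Module.Invertible (𝔠.R₁ A)
      ((I.map (𝔠.res₂ A).toRingHom).comap (𝔠.res₁ A).toRingHom : Ideal (𝔠.R₁ A)) ∧
    Module.Invertible (𝔠.R₂ A) I ∧
    Module.Invertible (𝔠.R₁₂ A) (I.map (𝔠.res₂ A).toRingHom : Ideal (𝔠.R₁₂ A)) :=
  ⟨(isLocPrincipal_comap_res₁ (isLocPrincipal_map_res₂ hI) g hu).invertible
      (fun K _ _ => 𝔠.isDomain_R₁ K),
    hI.invertible (fun K _ _ => 𝔠.isDomain_R₂ K),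
    (isLocPrincipal_map_res₂ hI).invertible (fun K _ _ => 𝔠.isDomain_R₁₂ K)⟩

theorem isInvertible_aux {I : Ideal (𝔠.R₂ A)} (hI : IsLocPrincipal I) (g : 𝔠.R₁ A)
    (hu : 1 + 𝔠.xA A * g ∈ (I.map (𝔠.res₂ A).toRingHom).comap (𝔠.res₁ A).toRingHom) :
    (Triple.Idiv₂ I).IsInvertible := by
  obtain ⟨h1, h2, h12⟩ := invertible_aux hI g hu
  have hqc : (Triple.Idiv₂ I).IsQC := by
    rw [Triple.isQC_iff]
    constructor
    · exact isBCMap_of_map_eq _ _ _ (map_comap_res₁ _) h1 h12 _ (fun _ => rfl)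
    · exact isBCMap_of_map_eq _ _ _ rfl h2 h12 _ (fun _ => rfl)
  exact { hqc with inv₁ := h1, inv₂ := h2 }

variable {A' : Type u} [CommRing A'] [Algebra k A']

omit [IsAlgClosed k] in
theorem map_map_res₂_bc (φ : A →ₐ[k] A') (I : Ideal (𝔠.R₂ A)) :
    (I.map (𝔠.res₂ A).toRingHom).map (𝔠.bc₁₂ φ).toRingHom =
      (I.map (𝔠.bc₂ φ).toRingHom).map (𝔠.res₂ A').toRingHom := by
  rw [Ideal.map_map, Ideal.map_map]
  congr 1
  exact RingHom.ext fun z => (𝔠.res₂_bc₂ φ z).symm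

omit [IsAlgClosed k] in
theorem map_map_res₁_bc (φ : A →ₐ[k] A') (I : Ideal (𝔠.R₁ A)) :
    (I.map (𝔠.res₁ A).toRingHom).map (𝔠.bc₁₂ φ).toRingHom =
      (I.map (𝔠.bc₁ φ).toRingHom).map (𝔠.res₁ A').toRingHom := by
  rw [Ideal.map_map, Ideal.map_map]
  congr 1
  exact RingHom.ext fun z => (𝔠.res₁_bc₁ φ z).symm

omit [IsAlgClosed k] in
theorem bc₁_xA (φ : A →ₐ[k] A') : 𝔠.bc₁ φ (𝔠.xA A) = 𝔠.xA A' := by
  simp [CurveCharts.bc₁, CurveCharts.xA]

omit [IsAlgClosed k] in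
/-- the first component of `Idiv₂` commutes with base change -/
theorem map_comap_bc₁ (φ : A →ₐ[k] A') (I : Ideal (𝔠.R₂ A)) (g : 𝔠.R₁ A)
    (hu : 1 + 𝔠.xA A * g ∈ (I.map (𝔠.res₂ A).toRingHom).comap (𝔠.res₁ A).toRingHom) :
    ((I.map (𝔠.res₂ A).toRingHom).comap (𝔠.res₁ A).toRingHom).map (𝔠.bc₁ φ).toRingHom =
      ((I.map (𝔠.bc₂ φ).toRingHom).map (𝔠.res₂ A').toRingHom).comap (𝔠.res₁ A').toRingHom := by
  set N₁ := (I.map (𝔠.res₂ A).toRingHom).comap (𝔠.res₁ A).toRingHom with hN₁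
  have h1 : 1 + 𝔠.xA A' * 𝔠.bc₁ φ g ∈ N₁.map (𝔠.bc₁ φ).toRingHom := by
    have := Ideal.mem_map_of_mem (𝔠.bc₁ φ).toRingHom hu
    change 𝔠.bc₁ φ _ ∈ _ at this
    rwa [map_add, map_mul, map_one, bc₁_xA] at this
  rw [← comap_map_res₁ (N₁.map (𝔠.bc₁ φ).toRingHom) _ h1, ← map_map_res₁_bc, hN₁, map_comap_res₁,
    map_map_res₂_bc]

theorem exists_bc_aux (φ : A →ₐ[k] A') {I : Ideal (𝔠.R₂ A)} (hI : IsLocPrincipal I) (g : 𝔠.R₁ A)
    (hu : 1 + 𝔠.xA A * g ∈ (I.map (𝔠.res₂ A).toRingHom).comap (𝔠.res₁ A).toRingHom) :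
    Triple.IsBC φ (Triple.Idiv₂ I) (Triple.Idiv₂ (I.map (𝔠.bc₂ φ).toRingHom)) := by
  obtain ⟨h1, h2, h12⟩ := invertible_aux hI g hu
  have hI' : IsLocPrincipal (I.map (𝔠.bc₂ φ).toRingHom) := hI.map φ
  have heq₁ := map_comap_bc₁ φ I g hu
  have hu' : 1 + 𝔠.xA A' * 𝔠.bc₁ φ g ∈
      ((I.map (𝔠.bc₂ φ).toRingHom).map (𝔠.res₂ A').toRingHom).comap (𝔠.res₁ A').toRingHom := by
    rw [← heq₁]
    have := Ideal.mem_map_of_mem (𝔠.bc₁ φ).toRingHom hu
    change 𝔠.bc₁ φ _ ∈ _ at this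
    rwa [map_add, map_mul, map_one, bc₁_xA] at this
  obtain ⟨h1', h2', h12'⟩ := invertible_aux hI' _ hu'
  let β₁ : (Triple.Idiv₂ I).N₁ →ₛₗ[(𝔠.bc₁ φ).toRingHom]
      (Triple.Idiv₂ (I.map (𝔠.bc₂ φ).toRingHom)).N₁ :=
    { toFun := fun n => ⟨(𝔠.bc₁ φ).toRingHom n.1, heq₁ ▸ Ideal.mem_map_of_mem _ n.2⟩
      map_add' := fun a b => Subtype.ext (map_add (𝔠.bc₁ φ).toRingHom a.1 b.1)
      map_smul' := fun r n => Subtype.ext (map_mul (𝔠.bc₁ φ).toRingHom r n.1) }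
  let β₂ : (Triple.Idiv₂ I).N₂ →ₛₗ[(𝔠.bc₂ φ).toRingHom]
      (Triple.Idiv₂ (I.map (𝔠.bc₂ φ).toRingHom)).N₂ :=
    { toFun := fun n => ⟨(𝔠.bc₂ φ).toRingHom n.1, Ideal.mem_map_of_mem _ n.2⟩
      map_add' := fun a b => Subtype.ext (map_add (𝔠.bc₂ φ).toRingHom a.1 b.1)
      map_smul' := fun r n => Subtype.ext (map_mul (𝔠.bc₂ φ).toRingHom r n.1) }
  let β₁₂ : (Triple.Idiv₂ I).N₁₂ →ₛₗ[(𝔠.bc₁₂ φ).toRingHom]
      (Triple.Idiv₂ (I.map (𝔠.bc₂ φ).toRingHom)).N₁₂ :=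
    { toFun := fun n => ⟨(𝔠.bc₁₂ φ).toRingHom n.1,
        map_map_res₂_bc φ I ▸ Ideal.mem_map_of_mem _ n.2⟩
      map_add' := fun a b => Subtype.ext (map_add (𝔠.bc₁₂ φ).toRingHom a.1 b.1)
      map_smul' := fun r n => Subtype.ext (map_mul (𝔠.bc₁₂ φ).toRingHom r n.1) }
  exact ⟨{
    β₁ := β₁
    β₂ := β₂
    β₁₂ := β₁₂
    comm₁ := fun n => Subtype.ext (𝔠.res₁_bc₁ φ n.1).symm
    comm₂ := fun n => Subtype.ext (𝔠.res₂_bc₂ φ n.1).symm
    isBC₁ := isBCMap_of_map_eq _ _ _ heq₁ h1 h1' β₁ (fun _ => rfl)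
    isBC₂ := isBCMap_of_map_eq _ _ _ rfl h2 h2' β₂ (fun _ => rfl)
    isBC₁₂ := isBCMap_of_map_eq _ _ _ (map_map_res₂_bc φ I) h12 h12' β₁₂ (fun _ => rfl) }⟩

end Charts

end Fermat.Agent.S25.Idiv2

namespace Fermat.Agent.S25

open Triple Idiv2

variable {k : Type u} [Field k] [IsAlgClosed k] {𝔠 : CurveCharts k}
variable {A : Type u} [CommRing A] [Algebra k A] {A' : Type u} [CommRing A'] [Algebra k A']

theorem Idiv₂_isInvertible {I : Ideal (𝔠.R₂ A)} {r : ℕ} (hI : IsDiv₂ A I r) :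
    (Idiv₂ I).IsInvertible := by
  obtain ⟨g, hg⟩ := exists_one_add_mem I hI.finite
  exact isInvertible_aux (IsDiv₂.isLocPrincipal hI) g hg

theorem IsDiv₂.map {I : Ideal (𝔠.R₂ A)} {r : ℕ} (hI : IsDiv₂ A I r) (φ : A →ₐ[k] A') :
    IsDiv₂ A' (I.map (𝔠.bc₂ φ).toRingHom) r := by
  obtain ⟨h1, h2, h3⟩ := finite_proj_rank_map φ I r hI.finite hI.proj hI.rank
  exact ⟨h1, h2, h3⟩

theorem Idiv₂_bc {I : Ideal (𝔠.R₂ A)} {r : ℕ} (hI : IsDiv₂ A I r) (φ : A →ₐ[k] A') :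
    IsBC φ (Idiv₂ I) (Idiv₂ (I.map (𝔠.bc₂ φ).toRingHom)) := by
  obtain ⟨g, hg⟩ := exists_one_add_mem I hI.finite
  exact exists_bc_aux φ (IsDiv₂.isLocPrincipal hI) g hg

theorem isDiv₂_graphIdeal₂ (τ : 𝔠.B₂ →ₐ[k] A) : IsDiv₂ A (graphIdeal₂ τ) 1 := by
  obtain ⟨h1, h2, h3⟩ := finite_proj_rank_ker_ofPoint τ
  exact ⟨h1, h2, h3⟩

theorem graphIdeal₂_map (τ : 𝔠.B₂ →ₐ[k] A) (φ : A →ₐ[k] A') :
    (graphIdeal₂ τ).map (𝔠.bc₂ φ).toRingHom = graphIdeal₂ (φ.comp τ) :=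
  Points.map_ker_ofPoint φ τ

/-- a point of `W₁ ∩ W₂` gives the same bundle in both descriptions -/
theorem Ipt_iso_Ipt₂ (σ : 𝔠.B₁₂ →ₐ[k] A) :
    Nonempty (Iso (Ipt (σ.comp (IsScalarTower.toAlgHom k 𝔠.B₁ 𝔠.B₁₂)))
      (Ipt₂ (σ.comp (IsScalarTower.toAlgHom k 𝔠.B₂ 𝔠.B₁₂)))) := by
  have hm₁ : (graphIdeal₁ (σ.comp (IsScalarTower.toAlgHom k 𝔠.B₁ 𝔠.B₁₂))).map (𝔠.res₁ A).toRingHom =
      RingHom.ker (Points.ofPoint σ) := Points.map_ker_ofPoint_restr₁ 𝔠 σ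
  have hm₂ : (graphIdeal₂ (σ.comp (IsScalarTower.toAlgHom k 𝔠.B₂ 𝔠.B₁₂))).map (𝔠.res₂ A).toRingHom =
      RingHom.ker (Points.ofPoint σ) := Points.map_ker_ofPoint_restr₂ 𝔠 σ
  have hc₁ : graphIdeal₁ (σ.comp (IsScalarTower.toAlgHom k 𝔠.B₁ 𝔠.B₁₂)) =
      (RingHom.ker (Points.ofPoint σ)).comap (𝔠.res₁ A).toRingHom := by
    ext w
    rw [Ideal.mem_comap, RingHom.mem_ker]
    change Points.ofPoint (Points.restr₁ 𝔠 σ) w = 0 ↔ Points.ofPoint σ (𝔠.res₁ A w) = 0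
    rw [Points.ofPoint_res₁]
  have hc₂ : graphIdeal₂ (σ.comp (IsScalarTower.toAlgHom k 𝔠.B₂ 𝔠.B₁₂)) =
      (RingHom.ker (Points.ofPoint σ)).comap (𝔠.res₂ A).toRingHom := by
    ext w
    rw [Ideal.mem_comap, RingHom.mem_ker]
    change Points.ofPoint (Points.restr₂ 𝔠 σ) w = 0 ↔ Points.ofPoint σ (𝔠.res₂ A w) = 0
    rw [Points.ofPoint_res₂]
  exact ⟨isoOfEq _ _ (by rw [hm₂, ← hc₁]) (by rw [hm₁, ← hc₂]) (by rw [hm₁, hm₂])⟩

theorem isDiv₂_ker_ev₀ : IsDiv₂ A (RingHom.ker (𝔠.ev₀ A).toRingHom) 1 := by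
  rw [ker_ev₀_eq]
  exact isDiv₂_graphIdeal₂ _

theorem IP0_isInvertible : (IP0 𝔠 A).IsInvertible := Idiv₂_isInvertible isDiv₂_ker_ev₀

theorem IP0_isRigid : (IP0 𝔠 A).IsRigid := by
  obtain ⟨t, ht, hgen⟩ := exists_generator_ker_ev₀ (𝔠 := 𝔠) (A := A)
  refine ⟨(⟨t, ht⟩ : RingHom.ker (𝔠.ev₀ A).toRingHom), fun m => ?_⟩
  obtain ⟨r, hr⟩ := hgen (m : RingHom.ker (𝔠.ev₀ A).toRingHom).1
    (m : RingHom.ker (𝔠.ev₀ A).toRingHom).2
  exact ⟨r, mem_smul_top_of_mem_mul (RingHom.ker (𝔠.ev₀ A).toRingHom) _ hr⟩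

theorem IP0_bc (φ : A →ₐ[k] A') : IsBC φ (IP0 𝔠 A) (IP0 𝔠 A') := by
  have h := Idiv₂_bc (isDiv₂_ker_ev₀ (𝔠 := 𝔠) (A := A)) φ
  have h1 : (RingHom.ker (𝔠.ev₀ A).toRingHom).map (𝔠.bc₂ φ).toRingHom =
      RingHom.ker (𝔠.ev₀ A').toRingHom := by
    rw [ker_ev₀_eq, ker_ev₀_eq, graphIdeal₂_map]
    congr 1
    ext b
    simp [Algebra.ofId_apply]
  rw [h1] at h
  exact h

end Fermat.Agent.S25
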