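/-
S25 / block Q2 (part): graph ideals of `A`-valued points of `W₁`.   Owner: helper11.
-/
import Fermat.Agent.S25.Charts.Defs
import Fermat.Agent.S25.Alg.Points

set_option autoImplicit false

universe u

open scoped TensorProduct

namespace Fermat.Agent.S25

open Triple

variable {k : Type u} [Field k] {𝔠 : CurveCharts k}
variable {A : Type u} [CommRing A] [Algebra k A] {A' : Type u} [CommRing A'] [Algebra k A']

namespace GraphIdeal

/-- An `A`-algebra quotient of `R` which is isomorphic to `A` is finite, projective of rank one. -/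
theorem quotient_ker_aux {R : Type u} [CommRing R] [Algebra A R] (f : R →ₐ[A] A) :
    Module.Finite A (R ⧸ RingHom.ker f.toRingHom) ∧
    Module.Projective A (R ⧸ RingHom.ker f.toRingHom) ∧
    ∀ p : PrimeSpectrum A, Module.rankAtStalk (R := A) (R ⧸ RingHom.ker f.toRingHom) p = 1 := by
  have hsurj : Function.Surjective f := fun a => ⟨algebraMap A R a, f.commutes a⟩
  let e : (R ⧸ RingHom.ker f.toRingHom) ≃ₗ[A] A :=
    (Ideal.quotientKerAlgEquivOfSurjective hsurj).toLinearEquiv
  refine ⟨Module.Finite.equiv e.symm, Module.Projective.of_equiv e.symm, fun p => ?_⟩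
  have : Nontrivial A := p.nontrivial
  rw [Module.rankAtStalk_eq_of_equiv e, Module.rankAtStalk_self]
  rfl

theorem isDiv₁ (σ : 𝔠.B₁ →ₐ[k] A) : IsDiv A (graphIdeal₁ σ) 1 := by
  obtain ⟨h1, h2, h3⟩ := quotient_ker_aux
    (Algebra.TensorProduct.lift (AlgHom.id A A) σ (fun _ _ => Commute.all _ _))
  exact ⟨h1, h2, h3⟩

theorem map₁ (σ : 𝔠.B₁ →ₐ[k] A) (φ : A →ₐ[k] A') :
    (graphIdeal₁ σ).map (𝔠.bc₁ φ).toRingHom = graphIdeal₁ (φ.comp σ) :=
  Points.map_ker_ofPoint φ σ

end GraphIdeal

end Fermat.Agent.S25
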