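/-
S25 / block Q2: pure algebra behind products of relative divisors.   Owner: helper11.
(Mathlib only.)
-/
import Mathlib

set_option autoImplicit false

open scoped TensorProduct

namespace Fermat.Agent.S25.IdivMulAlg

/-! ### invertible modules over a finite projective algebra -/

section RK

variable {A S N : Type*} [CommRing A] [CommRing S] [Algebra A S] [AddCommGroup N] [Module S N]
  [Module A N] [IsScalarTower A S N]

theorem projective_trans [Module.Projective A S] [Module.Finite S N] [Module.Projective S N] :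
    Module.Projective A N := by
  obtain ⟨n, f, g, -, -, hfg⟩ := Module.Finite.exists_comp_eq_id_of_projective S N
  have : Module.Projective A (Fin n → S) :=
    Module.Projective.of_equiv (DFinsupp.linearEquivFunOnFintype (R := A) (M := fun _ : Fin n => S))
  refine Module.Projective.of_split (R := A) (M := Fin n → S) (g.restrictScalars A)
    (f.restrictScalars A) ?_
  ext x
  exact congrArg (fun h : N →ₗ[S] N => h x) hfg

attribute [local instance] Algebra.TensorProduct.rightAlgebra in
theorem finrank_fibre_eq (κ : Type*) [Field κ] [Algebra A κ] [Module.Finite A S]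
    [Module.Invertible S N] :
    Module.finrank κ (κ ⊗[A] N) = Module.finrank κ (κ ⊗[A] S) := by
  have : IsArtinianRing (κ ⊗[A] S) := IsArtinianRing.of_finite κ _
  have hfree : Module.Free (κ ⊗[A] S) ((κ ⊗[A] S) ⊗[S] N) := inferInstance
  obtain ⟨e⟩ := Module.Invertible.free_iff_linearEquiv.mp hfree
  have e1 : (κ ⊗[A] S) ⊗[S] N ≃ₗ[κ] κ ⊗[A] N :=
    Algebra.IsPushout.cancelBaseChange A κ S (κ ⊗[A] S) N
  rw [← e1.finrank_eq]
  exact (e.restrictScalars κ).finrank_eq

theorem rankAtStalk_eq_of_invertible [Module.Finite A S] [Module.Projective A S]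
    [Module.Invertible S N] (p : PrimeSpectrum A) :
    Module.rankAtStalk (R := A) N p = Module.rankAtStalk (R := A) S p := by
  have : Module.Finite A N := Module.Finite.trans S N
  have : Module.Projective A N := projective_trans (S := S)
  rw [Module.rankAtStalk_eq, Module.rankAtStalk_eq]
  exact finrank_fibre_eq p.asIdeal.ResidueField

end RK

/-! ### the quotient by a product of ideals -/

section Quot

variable {A R : Type*} [CommRing A] [CommRing R] [Algebra A R] (I I' : Ideal R)

/-- the `R`-linear map `I ⧸ I' I → R ⧸ I I'` -/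
noncomputable def inclQ : (I ⧸ (I' • (⊤ : Submodule R I))) →ₗ[R] R ⧸ (I * I') :=
  Submodule.mapQ _ _ I.subtype (by
    intro x hx
    rw [Submodule.mem_comap]
    have := (Submodule.mem_smul_top_iff I' I x).mp hx
    rw [smul_eq_mul, mul_comm] at this
    exact this)

theorem inclQ_injective : Function.Injective (inclQ I I') := by
  rw [injective_iff_map_eq_zero]
  intro x hx
  obtain ⟨x, rfl⟩ := Submodule.Quotient.mk_surjective _ x
  rw [inclQ, Submodule.mapQ_apply, Submodule.Quotient.mk_eq_zero] at hx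
  rw [Submodule.Quotient.mk_eq_zero, Submodule.mem_smul_top_iff, smul_eq_mul, mul_comm]
  exact hx

/-- the projection `R ⧸ I I' → R ⧸ I` -/
noncomputable def projQ : (R ⧸ (I * I')) →ₗ[R] R ⧸ I :=
  Submodule.mapQ _ _ LinearMap.id (by
    rw [Submodule.comap_id]
    exact Ideal.mul_le_left)

theorem projQ_surjective : Function.Surjective (projQ I I') := by
  intro y
  obtain ⟨y, rfl⟩ := Submodule.Quotient.mk_surjective _ y
  exact ⟨Submodule.Quotient.mk y, by rw [projQ, Submodule.mapQ_apply]; rfl⟩

theorem exact_inclQ_projQ : Function.Exact (inclQ I I') (projQ I I') := by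
  intro y
  obtain ⟨y, rfl⟩ := Submodule.Quotient.mk_surjective _ y
  constructor
  · intro h
    rw [projQ, Submodule.mapQ_apply, Submodule.Quotient.mk_eq_zero] at h
    exact ⟨Submodule.Quotient.mk ⟨y, h⟩, by rw [inclQ, Submodule.mapQ_apply]; rfl⟩
  · rintro ⟨x, hx⟩
    obtain ⟨x, rfl⟩ := Submodule.Quotient.mk_surjective _ x
    rw [← hx, inclQ, Submodule.mapQ_apply, projQ, Submodule.mapQ_apply,
      Submodule.Quotient.mk_eq_zero]
    exact x.2

theorem quotient_mul [Module.Finite A (R ⧸ I)] [Module.Projective A (R ⧸ I)]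
    [Module.Finite A (R ⧸ I')] [Module.Projective A (R ⧸ I')] [Module.Invertible R I] :
    Module.Finite A (R ⧸ (I * I')) ∧ Module.Projective A (R ⧸ (I * I')) ∧
    ∀ p : PrimeSpectrum A, Module.rankAtStalk (R := A) (R ⧸ (I * I')) p =
      Module.rankAtStalk (R := A) (R ⧸ I) p + Module.rankAtStalk (R := A) (R ⧸ I') p := by
  let N := (R ⧸ I') ⊗[R] I
  have hN1 : Module.Finite A N := Module.Finite.trans (R ⧸ I') N
  have hN2 : Module.Projective A N := projective_trans (S := R ⧸ I')
  let f : N →ₗ[A] R ⧸ (I * I') :=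
    ((inclQ I I').comp (TensorProduct.quotTensorEquivQuotSMul I I').toLinearMap).restrictScalars A
  let g : (R ⧸ (I * I')) →ₗ[A] R ⧸ I := (projQ I I').restrictScalars A
  have hf : Function.Injective f :=
    (inclQ_injective I I').comp (TensorProduct.quotTensorEquivQuotSMul I I').injective
  have hg : Function.Surjective g := projQ_surjective I I'
  have hex : Function.Exact f g := by
    intro y
    rw [show g y = projQ I I' y from rfl, exact_inclQ_projQ I I' y]
    constructor
    · rintro ⟨x, rfl⟩
      exact ⟨(TensorProduct.quotTensorEquivQuotSMul I I').symm x, by simp [f]⟩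
    · rintro ⟨x, rfl⟩
      exact ⟨_, rfl⟩
  obtain ⟨l, hl⟩ := g.exists_rightInverse_of_surjective (LinearMap.range_eq_top.mpr hg)
  let e : (R ⧸ (I * I')) ≃ₗ[A] N × (R ⧸ I) := (hex.splitSurjectiveEquiv hf ⟨l, hl⟩).1
  refine ⟨Module.Finite.equiv e.symm, Module.Projective.of_equiv e.symm, fun p => ?_⟩
  rw [Module.rankAtStalk_eq_of_equiv e, Module.rankAtStalk_prod, Pi.add_apply,
    rankAtStalk_eq_of_invertible (S := R ⧸ I'), add_comm]

end Quot

/-! ### `J ⊗ J' ≃ J J'` for a flat ideal -/

section Mul

variable {S : Type*} [CommRing S] (J J' : Ideal S)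

/-- the multiplication map `J ⊗ J' → S` -/
noncomputable def mulMap₀ : J ⊗[S] J' →ₗ[S] S :=
  J'.subtype ∘ₗ (TensorProduct.lid S J').toLinearMap ∘ₗ (J.subtype.rTensor J')

@[simp] lemma mulMap₀_tmul (a : J) (b : J') : mulMap₀ J J' (a ⊗ₜ[S] b) = (a : S) * (b : S) := by
  simp [mulMap₀]

lemma mulMap₀_injective [Module.Flat S J'] : Function.Injective (mulMap₀ J J') :=
  Subtype.val_injective.comp ((TensorProduct.lid S J').injective.comp
    (Module.Flat.rTensor_preserves_injective_linearMap J.subtype Subtype.val_injective))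

lemma range_mulMap₀ : LinearMap.range (mulMap₀ J J') = J * J' := by
  apply le_antisymm
  · rintro _ ⟨t, rfl⟩
    induction t with
    | zero => simp
    | tmul a b =>
      rw [mulMap₀_tmul]
      exact Ideal.mul_mem_mul a.2 b.2
    | add x y hx hy =>
      rw [map_add]
      exact add_mem hx hy
  · rw [Ideal.mul_le]
    intro a ha b hb
    exact ⟨(⟨a, ha⟩ : J) ⊗ₜ[S] (⟨b, hb⟩ : J'), by simp⟩

/-- `J ⊗ J' ≃ K` whenever `K = J J'` and `J'` is flat. -/
noncomputable def mulEquiv [Module.Flat S J'] (K : Ideal S) (hK : K = J * J') :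
    J ⊗[S] J' ≃ₗ[S] K :=
  (LinearEquiv.ofInjective _ (mulMap₀_injective J J')).trans
    (LinearEquiv.ofEq _ _ ((range_mulMap₀ J J').trans hK.symm))

@[simp] lemma coe_mulEquiv [Module.Flat S J'] (K : Ideal S) (hK : K = J * J') (t : J ⊗[S] J') :
    ((mulEquiv J J' K hK t : K) : S) = mulMap₀ J J' t := rfl

/-- compatibility of `mulMap₀` with ring homomorphisms -/
lemma mulMap₀_map {R : Type*} [CommRing R] {φ : R →+* S} (I I' : Ideal R)
    (ι : I →ₛₗ[φ] J) (hι : ∀ a, (ι a : S) = φ a) (ι' : I' →ₛₗ[φ] J') (hι' : ∀ a, (ι' a : S) = φ a)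
    (t : I ⊗[R] I') : mulMap₀ J J' (TensorProduct.map ι ι' t) = φ (mulMap₀ I I' t) := by
  induction t with
  | zero => simp
  | tmul a b => simp [hι, hι']
  | add x y hx hy => simp [hx, hy]

end Mul

/-! ### contraction of a product of ideals from a localisation -/

section Comap

variable {S : Type*} [CommRing S]

/-- If `y` is a nonzerodivisor modulo `J` and `J'` is flat, `y` is a nonzerodivisor on `J' / J J'`. -/
theorem mem_mul_of_mul_mem (J J' : Ideal S) [Module.Flat S J'] (y : S)
    (hy : ∀ w, y * w ∈ J → w ∈ J) (w : S) (hw : w ∈ J') (h : y * w ∈ J * J') : w ∈ J * J' := by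
  let m : (S ⧸ J) →ₗ[S] (S ⧸ J) := LinearMap.lsmul S (S ⧸ J) y
  have hm : Function.Injective m := by
    rw [injective_iff_map_eq_zero]
    intro x hx
    obtain ⟨x, rfl⟩ := Submodule.Quotient.mk_surjective _ x
    have h1 : (Submodule.Quotient.mk (y • x) : S ⧸ J) = 0 := hx
    rw [Submodule.Quotient.mk_eq_zero] at h1 ⊢
    exact hy x h1
  have hm' : Function.Injective (m.rTensor J') :=
    Module.Flat.rTensor_preserves_injective_linearMap m hm
  have hsm : ∀ t : (S ⧸ J) ⊗[S] J', m.rTensor J' t = y • t := by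
    intro t
    induction t with
    | zero => simp
    | tmul a b => simp [m, TensorProduct.smul_tmul']
    | add a b ha hb => rw [map_add, ha, hb, smul_add]
  let e := TensorProduct.quotTensorEquivQuotSMul J' J
  have key : ∀ z : J' ⧸ (J • (⊤ : Submodule S J')), y • z = 0 → z = 0 := by
    intro z hz
    have h2 : m.rTensor J' (e.symm z) = 0 := by
      rw [hsm, ← map_smul, hz, map_zero]
    have h3 : e.symm z = 0 := hm' (h2.trans (map_zero _).symm)
    exact e.symm.injective (h3.trans (map_zero _).symm)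
  have h4 : (Submodule.Quotient.mk (⟨w, hw⟩ : J') : J' ⧸ (J • (⊤ : Submodule S J'))) = 0 := by
    apply key
    rw [← Submodule.Quotient.mk_smul, Submodule.Quotient.mk_eq_zero, Submodule.mem_smul_top_iff]
    exact h
  rw [Submodule.Quotient.mk_eq_zero, Submodule.mem_smul_top_iff] at h4
  exact h4

theorem mem_mul_of_pow_mul_mem (J J' : Ideal S) [Module.Flat S J'] (y : S)
    (hy : ∀ w, y * w ∈ J → w ∈ J) (n : ℕ) (w : S) (hw : w ∈ J') (h : y ^ n * w ∈ J * J') :
    w ∈ J * J' := by
  induction n with
  | zero => simpa using h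
  | succ n ih =>
    apply ih
    apply mem_mul_of_mul_mem J J' y hy _ (Ideal.mul_mem_left _ _ hw)
    rw [← mul_assoc, ← pow_succ']
    exact h

variable {T : Type*} [CommRing T]

/-- contraction along a localisation-like map commutes with products of ideals, if the second
contracted ideal is flat. -/
theorem comap_mul (σ : S →+* T) (hσ : Function.Injective σ) (y : S) (hy : IsUnit (σ y))
    (hsurj : ∀ s : T, ∃ (m : ℕ) (r : S), σ r = (σ y) ^ m * s) (J J' : Ideal T)
    [Module.Flat S (J'.comap σ : Ideal S)] :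
    (J * J').comap σ = J.comap σ * J'.comap σ := by
  apply le_antisymm
  · intro w hw
    rw [Ideal.mem_comap] at hw
    have hP : ∀ z ∈ J * J', ∃ (m : ℕ) (v : S), v ∈ J.comap σ * J'.comap σ ∧ σ v = (σ y) ^ m * z := by
      intro z hz
      refine Submodule.mul_induction_on hz ?_ ?_
      · intro a ha b hb
        obtain ⟨m, a₂, ha₂⟩ := hsurj a
        obtain ⟨m', b₂, hb₂⟩ := hsurj b
        refine ⟨m + m', a₂ * b₂, Ideal.mul_mem_mul ?_ ?_, ?_⟩
        · rw [Ideal.mem_comap, ha₂]; exact Ideal.mul_mem_left _ _ ha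
        · rw [Ideal.mem_comap, hb₂]; exact Ideal.mul_mem_left _ _ hb
        · rw [map_mul, ha₂, hb₂, pow_add]; ring
      · rintro a b ⟨m, v, hv, hva⟩ ⟨m', v', hv', hvb⟩
        refine ⟨m + m', y ^ m' * v + y ^ m * v', add_mem (Ideal.mul_mem_left _ _ hv)
          (Ideal.mul_mem_left _ _ hv'), ?_⟩
        rw [map_add, map_mul, map_mul, map_pow, map_pow, hva, hvb, pow_add]; ring
    obtain ⟨m, v, hv, hvw⟩ := hP _ hw
    have h1 : v = y ^ m * w := hσ (by rw [hvw, map_mul, map_pow])
    refine mem_mul_of_pow_mul_mem _ _ y ?_ m w ?_ (h1 ▸ hv)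
    · intro u hu
      rw [Ideal.mem_comap, map_mul] at hu
      rw [Ideal.mem_comap]
      obtain ⟨c, hc⟩ := hy
      have : σ u = (↑c⁻¹ : T) * (σ y * σ u) := by
        rw [← hc, ← mul_assoc, Units.inv_mul, one_mul]
      rw [this]
      exact Ideal.mul_mem_left _ _ hu
    · exact Ideal.mem_comap.mpr (Ideal.mul_le_right hw)
  · rw [← Ideal.map_le_iff_le_comap, Ideal.map_mul]
    exact Ideal.mul_mono Ideal.map_comap_le Ideal.map_comap_le

end Comap

end Fermat.Agent.S25.IdivMulAlg
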