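/-
S25 / block Q2: products of relative divisors, with the input of block Q1 (invertibility of the
divisor bundles) as explicit hypotheses.   Owner: helper11.
-/
import Fermat.Agent.S25.Charts.Defs
import Fermat.Agent.S25.Charts.IdivMulAlg
import Fermat.Agent.S25.Triple.IsoLemmas

set_option autoImplicit false

universe u

open scoped TensorProduct

namespace Fermat.Agent.S25

open Triple

variable {k : Type u} [Field k] {𝔠 : CurveCharts k}
variable {A : Type u} [CommRing A] [Algebra k A]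

namespace IdivMulCore

/-- product of divisors, given that the first ideal is invertible -/
theorem isDiv_mul {I I' : Ideal (𝔠.R₁ A)} {r r' : ℕ} (hI : IsDiv A I r) (hI' : IsDiv A I' r')
    (hinv : Module.Invertible (𝔠.R₁ A) I) : IsDiv A (I * I') (r + r') := by
  have := hI.finite
  have := hI.proj
  have := hI'.finite
  have := hI'.proj
  obtain ⟨h1, h2, h3⟩ := IdivMulAlg.quotient_mul (A := A) I I'
  exact ⟨h1, h2, fun p => by rw [h3, hI.rank, hI'.rank]⟩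

/-- the second component of `Idiv (I I')` -/
theorem comap_map_mul (I I' : Ideal (𝔠.R₁ A)) (h' : (Idiv I').IsInvertible) :
    (((I * I').map (𝔠.res₁ A).toRingHom).comap (𝔠.res₂ A).toRingHom : Ideal (𝔠.R₂ A)) =
      (I.map (𝔠.res₁ A).toRingHom).comap (𝔠.res₂ A).toRingHom *
        (I'.map (𝔠.res₁ A).toRingHom).comap (𝔠.res₂ A).toRingHom := by
  have hinv : Module.Invertible (𝔠.R₂ A)
      ((I'.map (𝔠.res₁ A).toRingHom).comap (𝔠.res₂ A).toRingHom : Ideal (𝔠.R₂ A)) := h'.inv₂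
  rw [Ideal.map_mul]
  exact IdivMulAlg.comap_mul (𝔠.res₂ A).toRingHom (TensorAux.res₂_injective 𝔠 A) (𝔠.yA A)
    (TensorAux.isUnit_res₂_yA 𝔠 A) (TensorAux.exists_res₂_eq 𝔠 A) _ _

/-- `𝒪(-D) ⊗ 𝒪(-D') ≅ 𝒪(-D-D')` -/
noncomputable def tensorIso (I I' : Ideal (𝔠.R₁ A)) (h' : (Idiv I').IsInvertible) :
    Iso ((Idiv I).tensor (Idiv I')) (Idiv (I * I')) :=
  have _i₁ : Module.Invertible (𝔠.R₁ A) I' := h'.inv₁
  have _i₂ : Module.Invertible (𝔠.R₂ A)
      ((I'.map (𝔠.res₁ A).toRingHom).comap (𝔠.res₂ A).toRingHom : Ideal (𝔠.R₂ A)) := h'.inv₂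
  have _i₁₂ : Module.Invertible (𝔠.R₁₂ A) (I'.map (𝔠.res₁ A).toRingHom : Ideal (𝔠.R₁₂ A)) :=
    h'.inv₁₂
  { e₁ := IdivMulAlg.mulEquiv I I' (I * I') rfl
    e₂ := IdivMulAlg.mulEquiv _ _ _ (comap_map_mul I I' h')
    e₁₂ := IdivMulAlg.mulEquiv _ _ _ (Ideal.map_mul _ I I')
    comm₁ := fun n => Subtype.ext
      (IdivMulAlg.mulMap₀_map _ _ I I' (Idiv I).ρ₁ (fun _ => rfl) (Idiv I').ρ₁ (fun _ => rfl) n)
    comm₂ := fun n => Subtype.ext
      (IdivMulAlg.mulMap₀_map _ _ _ _ (Idiv I).ρ₂ (fun _ => rfl) (Idiv I').ρ₂ (fun _ => rfl) n) }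

theorem idiv_mul (I I' : Ideal (𝔠.R₁ A)) (h' : (Idiv I').IsInvertible) :
    Nonempty (Iso (Idiv (I * I')) ((Idiv I).tensor (Idiv I'))) :=
  ⟨(tensorIso I I' h').symm⟩

end IdivMulCore

end Fermat.Agent.S25
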