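/-
S25 / block Q2: products of divisors, graph ideals (final statements).   Owner: helper11.
-/
import Fermat.Agent.S25.Charts.Idiv
import Fermat.Agent.S25.Charts.IdivMulCore
import Fermat.Agent.S25.Charts.GraphIdeal

set_option autoImplicit false

universe u

open scoped TensorProduct

namespace Fermat.Agent.S25

open Triple

variable {k : Type u} [Field k] [IsAlgClosed k] {𝔠 : CurveCharts k}

variable {A : Type u} [CommRing A] [Algebra k A] {A' : Type u} [CommRing A'] [Algebra k A']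

theorem IsDiv.mul {I I' : Ideal (𝔠.R₁ A)} {r r' : ℕ} (hI : IsDiv A I r) (hI' : IsDiv A I' r') :
    IsDiv A (I * I') (r + r') :=
  IdivMulCore.isDiv_mul hI hI' (Idiv_isInvertible hI).inv₁

theorem Idiv_mul {I I' : Ideal (𝔠.R₁ A)} {r r' : ℕ} (hI : IsDiv A I r) (hI' : IsDiv A I' r') :
    Nonempty (Iso (Idiv (I * I')) ((Idiv I).tensor (Idiv I'))) :=
  IdivMulCore.idiv_mul I I' (Idiv_isInvertible hI')

theorem isDiv_graphIdeal₁ (σ : 𝔠.B₁ →ₐ[k] A) : IsDiv A (graphIdeal₁ σ) 1 :=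
  GraphIdeal.isDiv₁ σ

theorem graphIdeal₁_map (σ : 𝔠.B₁ →ₐ[k] A) (φ : A →ₐ[k] A') :
    (graphIdeal₁ σ).map (𝔠.bc₁ φ).toRingHom = graphIdeal₁ (φ.comp σ) :=
  GraphIdeal.map₁ σ φ

end Fermat.Agent.S25
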