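/-
S25 / block H, task H3b: `𝒪(-D) ⊗ E` is an object of `Pic⁰` when `deg E = deg D`.
Owner: helper292.

`isPic0_Idiv_tensor_const_of` takes the three nodes of block Q1 it needs as hypotheses.
-/
import Fermat.Agent.S25.Charts.ChartUnique
import Fermat.Agent.S25.Charts.FieldBasic
import Fermat.Agent.S25.Charts.ChiTwistDiv
import Fermat.Agent.S25.Triple.TensorBC

set_option autoImplicit false

universe u

open scoped TensorProduct

namespace Fermat.Agent.S25

open Triple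

variable {k : Type u} [Field k] {𝔠 : CurveCharts k} {A : Type u} [CommRing A] [Algebra k A]

namespace ChartUnique

/-- `Idiv I` is rigid as soon as `V(I)` is finite over `A` -/
theorem idiv_isRigid (I : Ideal (𝔠.R₁ A)) (hI : Module.Finite A (𝔠.R₁ A ⧸ I)) :
    (Idiv I).IsRigid := by
  obtain ⟨u, hu, hu1⟩ := 𝔠.exists_ev₀_eq_one I hI
  let J : Ideal (𝔠.R₂ A) := (I.map (𝔠.res₁ A).toRingHom).comap (𝔠.res₂ A).toRingHom
  have key : ∀ m : J, m - (m : 𝔠.R₂ A) • (⟨u, hu⟩ : J) ∈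
      (RingHom.ker (𝔠.ev₀ A).toRingHom) • (⊤ : Submodule (𝔠.R₂ A) J) := by
    intro m
    have e : m - (m : 𝔠.R₂ A) • (⟨u, hu⟩ : J) = (1 - u) • m := by
      apply Subtype.ext
      simp only [Submodule.coe_sub, Submodule.coe_smul, smul_eq_mul]
      ring
    rw [e]
    refine Submodule.smul_mem_smul ?_ trivial
    change 𝔠.ev₀ A _ = 0
    rw [map_sub, map_one, hu1, sub_self]
  exact ⟨(⟨u, hu⟩ : J), fun m => ⟨(m : J).1, key m⟩⟩

theorem const_bc (E : Triple 𝔠 k) {A' : Type u} [CommRing A'] [Algebra k A'] (φ : A →ₐ[k] A') :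
    IsBC φ (E.const A) (E.const A') := by
  have D1 : BaseChange (φ.comp (Algebra.ofId k A)) E ((E.const A).bc φ) :=
    (E.bcData (Algebra.ofId k A)).comp ((E.const A).bcData φ)
  have h : φ.comp (Algebra.ofId k A) = Algebra.ofId k A' := Subsingleton.elim _ _
  rw [h] at D1
  exact ⟨((E.const A).bcData φ).ofIso (D1.unique (E.bcData (Algebra.ofId k A')))⟩

/-- `𝒪(-D) ⊗ E` is fibrewise of degree zero -/
theorem deg0_Idiv_tensor_const (E : Triple 𝔠 k) (hE : E.IsInvertible) {r : ℕ} (hEd : E.deg = r)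
    {I : Ideal (𝔠.R₁ A)}
    (hmap : ∀ (K : Type u) [Field K] [Algebra k K] (φ : A →ₐ[k] K),
      IsDiv K (I.map (𝔠.bc₁ φ).toRingHom) r)
    (hbc : ∀ (K : Type u) [Field K] [Algebra k K] (φ : A →ₐ[k] K),
      IsBC φ (Idiv I) (Idiv (I.map (𝔠.bc₁ φ).toRingHom))) :
    ((Idiv I).tensor (E.const A)).Deg0 := by
  intro K _ _ φ TK ⟨b⟩
  obtain ⟨b₁⟩ := hbc K φ
  obtain ⟨b₂⟩ := const_bc (A := A) E φ
  have e : Iso TK ((Idiv (I.map (𝔠.bc₁ φ).toRingHom)).tensor (E.const K)) :=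
    b.unique (b₁.tensor b₂)
  rw [e.chi_eq, (tensorComm _ _).chi_eq,
    chi_tensor_Idiv (E.const K) (const_isInvertible E hE) (hmap K φ)]
  have h1 : (E.const K).deg = r := (deg_const E hE).trans hEd
  rw [Triple.deg] at h1
  linarith

end ChartUnique

/-- `𝒪(-D) ⊗ E` is an object of `Pic⁰` (modulo the nodes of block Q1). -/
theorem isPic0_Idiv_tensor_const_of (E : Triple 𝔠 k) (hE : E.IsInvertible) (hEr : E.IsRigid)
    {r : ℕ} (hEd : E.deg = r) {I : Ideal (𝔠.R₁ A)} (hI : IsDiv A I r)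
    (hinv : (Idiv I).IsInvertible)
    (hmap : ∀ (K : Type u) [Field K] [Algebra k K] (φ : A →ₐ[k] K),
      IsDiv K (I.map (𝔠.bc₁ φ).toRingHom) r)
    (hbc : ∀ (K : Type u) [Field K] [Algebra k K] (φ : A →ₐ[k] K),
      IsBC φ (Idiv I) (Idiv (I.map (𝔠.bc₁ φ).toRingHom))) :
    ((Idiv I).tensor (E.const A)).IsPic0 where
  inv := hinv.tensor (ChartUnique.const_isInvertible E hE)
  rigid := (ChartUnique.idiv_isRigid I hI.finite).tensor (ChartUnique.const_isRigid E hEr)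
  deg0 := ChartUnique.deg0_Idiv_tensor_const E hE hEd hmap hbc

end Fermat.Agent.S25
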