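/-
S25 / block H, task H3b: `𝒪(-D) ⊗ E` is an object of `Pic⁰` when `deg E = deg D` (final form).
Owner: helper292.
-/
import Fermat.Agent.S25.Charts.IdivPic0
import Fermat.Agent.S25.Charts.Idiv

set_option autoImplicit false

universe u

open scoped TensorProduct

namespace Fermat.Agent.S25

open Triple

variable {k : Type u} [Field k] [IsAlgClosed k] {𝔠 : CurveCharts k}
  {A : Type u} [CommRing A] [Algebra k A]

/-- `𝒪(-D) ⊗ E` is an object of `Pic⁰` -/
theorem isPic0_Idiv_tensor_const (E : Triple 𝔠 k) (hE : E.IsInvertible) (hEr : E.IsRigid)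
    {r : ℕ} (hEd : E.deg = r) {I : Ideal (𝔠.R₁ A)} (hI : IsDiv A I r) :
    ((Idiv I).tensor (E.const A)).IsPic0 :=
  isPic0_Idiv_tensor_const_of E hE hEr hEd hI (Idiv_isInvertible hI)
    (fun _ _ _ φ => hI.map φ) (fun _ _ _ φ => Idiv_bc hI φ)

end Fermat.Agent.S25
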