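/-
S25 / block H, task S25-H2 (helper289): the NS-locus is open and compatible with base change.
-/
import Fermat.Agent.S25.Charts.Defs
import Fermat.Agent.S25.Triple.IHomLemmas
import Fermat.Agent.S25.Triple.TensorBC
import Fermat.Agent.S25.Triple.Delta
import Fermat.Agent.S25.Alg.ChiLocConst

set_option autoImplicit false

universe u

open scoped TensorProduct

namespace Fermat.Agent.S25

open Triple

variable {k : Type u} [Field k] {𝔠 : CurveCharts k}

section

variable {A : Type u} [CommRing A] [Algebra k A] {A' : Type u} [CommRing A'] [Algebra k A']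

/-- the constant family is invertible -/
theorem Triple.const_isInvertible {E : Triple 𝔠 k} (hE : E.IsInvertible) (A : Type u) [CommRing A]
    [Algebra k A] : (E.const A).IsInvertible :=
  (E.bcData (Algebra.ofId k A)).isInvertible hE

/-- constant families are compatible with base change -/
theorem Triple.const_isBC (E : Triple 𝔠 k) (ψ : A →ₐ[k] A') :
    IsBC ψ (E.const A) (E.const A') := by
  have D₁ : BaseChange (Algebra.ofId k A) E (E.const A) := E.bcData _
  have D₂ : BaseChange ψ (E.const A) ((E.const A).bc ψ) := (E.const A).bcData ψ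
  have D₃ : BaseChange (Algebra.ofId k A') E (E.const A') := E.bcData _
  have D₄ : BaseChange (ψ.comp (Algebra.ofId k A)) E ((E.const A).bc ψ) := D₁.comp D₂
  have h : ψ.comp (Algebra.ofId k A) = Algebra.ofId k A' := Subsingleton.elim _ _
  rw [h] at D₄
  exact ⟨D₂.ofIso (D₄.unique D₃)⟩

/-- The NS-locus is open and compatible with base change; version relative to the two facts on
`𝒪(-P₀)` (block Q3). -/
theorem exists_NS_locus_of (hinv : (IP0 𝔠 A).IsInvertible)
    (hbc : ∀ (A' : Type u) [CommRing A'] [Algebra k A'] (φ : A →ₐ[k] A'),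
      IsBC φ (IP0 𝔠 A) (IP0 𝔠 A'))
    (E : Triple 𝔠 k) (hE : E.IsInvertible) (T : Triple 𝔠 A)
    (hT : T.IsInvertible) : ∃ V : Set (PrimeSpectrum A), IsOpen V ∧
      ∀ (A' : Type u) [CommRing A'] [Algebra k A'] (ψ : A →ₐ[k] A') (T' : Triple 𝔠 A'),
        IsBC ψ T T' →
          ((∀ p : PrimeSpectrum A', PrimeSpectrum.comap ψ.toRingHom p ∈ V) ↔ NS E T') := by
  have hM : ((ihom T (E.const A)).tensor (IP0 𝔠 A)).IsInvertible :=
    (ihom_isInvertible hT (const_isInvertible hE A)).tensor hinv
  obtain ⟨m⟩ := exists_finiteModel _ hM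
  refine ⟨FiniteModel.bijLocus ((ihom T (E.const A)).tensor (IP0 𝔠 A)).δ, m.isOpen_bijLocus, ?_⟩
  intro A' _ _ ψ T' ⟨D⟩
  obtain ⟨Dc⟩ := const_isBC E ψ
  obtain ⟨Dp⟩ := hbc A' ψ
  have DM : BaseChange ψ ((ihom T (E.const A)).tensor (IP0 𝔠 A))
      ((ihom T' (E.const A')).tensor (IP0 𝔠 A')) := (BaseChange.ihom hT D Dc).tensor Dp
  let _ : Algebra A A' := ψ.toRingHom.toAlgebra
  rw [NS, DM.bijective_δ_iff (fun _ => rfl), m.bijective_baseChange_iff A']
  rfl

end

end Fermat.Agent.S25
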