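/-
S25 / node P6: the `AlgSpec` field `val_exists` (valuative criterion, existence).
Owner: helper57.

`val_exists_of` : the statement of the skeleton, with the nodes of blocks Q and X it uses as explicit
hypotheses (each hypothesis is, verbatim, the statement of the corresponding skeleton theorem).
-/
import Fermat.Agent.S25.Charts.ValExists.Descent
import Fermat.Agent.S25.Charts.ValExists.Ext
import Fermat.Agent.S25.Charts.ValExists.Deg
import Fermat.Agent.S25.Charts.ValExists.Rigid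
import Fermat.Agent.S25.Charts.ValExists.Points

set_option autoImplicit false

universe u

open scoped TensorProduct

namespace Fermat.Agent.S25

open Triple

variable {k : Type u} [Field k]

theorem val_exists_of (𝔠 : CurveCharts k) (ch : AlgCharts 𝔠)
    -- block X
    (exists_points : ∃ (m : ℕ) (E : Triple 𝔠 k),
      E.IsInvertible ∧ E.IsRigid ∧ E.deg = m ∧
      ∀ (K : Type u) [Field K] [IsAlgClosed K] [Algebra k K] (T : Triple 𝔠 K), T.IsPic0 →
        ∃ σ : Fin m → (𝔠.B₁ →ₐ[k] K),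
          Nonempty (Iso T ((tensorList (List.ofFn fun i => Ipt (σ i))).tensor (E.const K))))
    -- block Q
    (Idiv_isInvertible : ∀ {A : Type u} [CommRing A] [Algebra k A] {I : Ideal (𝔠.R₁ A)} {r : ℕ},
      IsDiv A I r → (Idiv I).IsInvertible)
    (Idiv_bc : ∀ {A : Type u} [CommRing A] [Algebra k A] {A' : Type u} [CommRing A'] [Algebra k A']
      {I : Ideal (𝔠.R₁ A)} {r : ℕ}, IsDiv A I r → ∀ φ : A →ₐ[k] A',
      IsBC φ (Idiv I) (Idiv (I.map (𝔠.bc₁ φ).toRingHom)))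
    (isDiv_graphIdeal₁ : ∀ {A : Type u} [CommRing A] [Algebra k A] (σ : 𝔠.B₁ →ₐ[k] A),
      IsDiv A (graphIdeal₁ σ) 1)
    (graphIdeal₁_map : ∀ {A : Type u} [CommRing A] [Algebra k A] {A' : Type u} [CommRing A']
      [Algebra k A'] (σ : 𝔠.B₁ →ₐ[k] A) (φ : A →ₐ[k] A'),
      (graphIdeal₁ σ).map (𝔠.bc₁ φ).toRingHom = graphIdeal₁ (φ.comp σ))
    (Idiv₂_isInvertible : ∀ {A : Type u} [CommRing A] [Algebra k A] {I : Ideal (𝔠.R₂ A)} {r : ℕ},
      IsDiv₂ A I r → (Idiv₂ I).IsInvertible)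
    (Idiv₂_bc : ∀ {A : Type u} [CommRing A] [Algebra k A] {A' : Type u} [CommRing A'] [Algebra k A']
      {I : Ideal (𝔠.R₂ A)} {r : ℕ}, IsDiv₂ A I r → ∀ φ : A →ₐ[k] A',
      IsBC φ (Idiv₂ I) (Idiv₂ (I.map (𝔠.bc₂ φ).toRingHom)))
    (isDiv₂_graphIdeal₂ : ∀ {A : Type u} [CommRing A] [Algebra k A] (τ : 𝔠.B₂ →ₐ[k] A),
      IsDiv₂ A (graphIdeal₂ τ) 1)
    (graphIdeal₂_map : ∀ {A : Type u} [CommRing A] [Algebra k A] {A' : Type u} [CommRing A']
      [Algebra k A'] (τ : 𝔠.B₂ →ₐ[k] A) (φ : A →ₐ[k] A'),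
      (graphIdeal₂ τ).map (𝔠.bc₂ φ).toRingHom = graphIdeal₂ (φ.comp τ))
    (Ipt_iso_Ipt₂ : ∀ {A : Type u} [CommRing A] [Algebra k A] (σ : 𝔠.B₁₂ →ₐ[k] A),
      Nonempty (Iso (Ipt (σ.comp (IsScalarTower.toAlgHom k 𝔠.B₁ 𝔠.B₁₂)))
        (Ipt₂ (σ.comp (IsScalarTower.toAlgHom k 𝔠.B₂ 𝔠.B₁₂)))))
    (V K : Type u) [CommRing V] [IsDomain V]
    [ValuationRing V] [Field K] [Algebra k V] [Algebra k K] [Algebra V K] [IsScalarTower k V K]
    [IsFractionRing V K] (TK : Triple 𝔠 K) (hTK : TK.IsPic0) :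
    ∃ T : Triple 𝔠 V, T.IsPic0 ∧ IsBC (IsScalarTower.toAlgHom k V K) T TK := by
  obtain ⟨m, E, hE, -, -, hpts⟩ := exists_points
  refine ValExists.extProp_of_algClosed ch ?_ V K TK hTK
  intro V K _ _ _ _ _ _ _ _ _ _
  refine ValExists.extProp_of_points V K m E hE (fun T hT => hpts K T hT)
    (fun σ => Idiv_isInvertible (isDiv_graphIdeal₁ σ))
    (fun σ => ?_)
    (fun τ => Idiv₂_isInvertible (isDiv₂_graphIdeal₂ τ))
    (fun τ => ?_)
    (fun σ => Ipt_iso_Ipt₂ σ)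
    (fun T hT => ValExists.isRigid_of_isLocalRing T hT)
    (fun σ => ValExists.exists_point_extension V K σ)
    (fun T hT TK hTK h => ValExists.deg0_of_generic V K T hT TK hTK h)
  · have := Idiv_bc (isDiv_graphIdeal₁ σ) (IsScalarTower.toAlgHom k V K)
    rw [graphIdeal₁_map] at this
    exact this
  · have := Idiv₂_bc (isDiv₂_graphIdeal₂ τ) (IsScalarTower.toAlgHom k V K)
    rw [graphIdeal₂_map] at this
    exact this

end Fermat.Agent.S25
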