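/-
S25 / H3a: chart theorem, existence part (final assembly).  Owner: helper285.
-/
import Fermat.Agent.S25.Charts.ChartExists.H1Unit
import Fermat.Agent.S25.Charts.ChartExists.Section
import Fermat.Agent.S25.Charts.ChartExists.Conn
import Fermat.Agent.S25.Charts.ChartExists.IsDiv
import Fermat.Agent.S25.Charts.ChartExists.IsoUnit
import Fermat.Agent.S25.Charts.ChartExists.Rigid

set_option autoImplicit false

universe u

open scoped TensorProduct

namespace Fermat.Agent.S25

open Triple H3a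

variable {k : Type u} [Field k] [IsAlgClosed k] {𝔠 : CurveCharts k}
  {A : Type u} [CommRing A] [Algebra k A]

/-- CHART THEOREM, existence -/
theorem exists_div_of_NS (E : Triple 𝔠 k) (hE : E.IsInvertible) (hEr : E.IsRigid)
    (hEd : E.deg = 𝔠.genus) (T : Triple 𝔠 A) (hT : T.IsPic0) (h : NS E T) :
    ∃ I : Ideal (𝔠.R₁ A), IsDiv A I 𝔠.genus ∧
      Nonempty (Iso T ((Idiv I).tensor (E.const A))) := by
  have hEA : (E.const A).IsInvertible := (bcData (Algebra.ofId k A) E).isInvertible hE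
  have hEAr : (E.const A).IsRigid := (bcData (Algebra.ofId k A) E).isRigid hEr
  have hH : (ihom T (E.const A)).IsInvertible := ihom_isInvertible hT.inv hEA
  have hHr : (ihom T (E.const A)).IsRigid := ihom_isRigid hT.inv hT.rigid hEA hEAr
  obtain ⟨s, g⟩ := exists_goodSection _ hHr (noCoh_of_bijective _ hH h)
  obtain ⟨e₁⟩ := g.nonempty_quot_equiv_H1 hH
  obtain ⟨e₂⟩ := nonempty_H1_unit_equiv 𝔠 A
  obtain ⟨i⟩ := g.nonempty_iso_unit hH
  have := hH.inv₁
  refine ⟨secIdeal (𝔠.R₁ A) s.1, isDiv_secIdeal s.1 _ (e₁.trans e₂), ⟨?_⟩⟩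
  exact (unitTensor T).symm.trans <| (Iso.tensor i.symm (Iso.refl T)).trans <|
    (tensorAssoc _ _ _).trans <| Iso.tensor (Iso.refl _) <|
      (tensorComm _ _).trans (evIso hT.inv (E.const A))

end Fermat.Agent.S25
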