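/-
S25 / blocks Q, H: elementary facts on the marked point `P₀` (`y` vanishes at `P₀`), and the element
`u = y^d P(x) ≡ 1 mod y` of `(I R₁₂) ∩ R₂` attached to a divisor `V(I) ⊆ W₁ × Spec A` finite over `A`.
Owner: helper292.
-/
import Fermat.Agent.S25.Triple.Tensor

set_option autoImplicit false

universe u

open scoped TensorProduct Polynomial

namespace Fermat.Agent.S25

namespace CurveCharts

variable {k : Type u} [Field k] (𝔠 : CurveCharts k)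

theorem not_isUnit_y : ¬ IsUnit 𝔠.y := by
  rintro ⟨v, hv⟩
  have h1 : algebraMap 𝔠.B₁ 𝔠.B₁₂ 𝔠.x = algebraMap 𝔠.B₂ 𝔠.B₁₂ (↑v⁻¹ : 𝔠.B₂) := by
    have h2 : algebraMap 𝔠.B₂ 𝔠.B₁₂ 𝔠.y * algebraMap 𝔠.B₂ 𝔠.B₁₂ (↑v⁻¹ : 𝔠.B₂) = 1 := by
      rw [← map_mul, ← hv, Units.mul_inv, map_one]
    calc algebraMap 𝔠.B₁ 𝔠.B₁₂ 𝔠.x
        = algebraMap 𝔠.B₁ 𝔠.B₁₂ 𝔠.x *
            (algebraMap 𝔠.B₂ 𝔠.B₁₂ 𝔠.y * algebraMap 𝔠.B₂ 𝔠.B₁₂ (↑v⁻¹ : 𝔠.B₂)) := by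
          rw [h2, mul_one]
      _ = algebraMap 𝔠.B₂ 𝔠.B₁₂ (↑v⁻¹ : 𝔠.B₂) := by rw [← mul_assoc, 𝔠.xy, one_mul]
  obtain ⟨c, hc⟩ := 𝔠.const _ _ h1
  exact 𝔠.trans₁ (hc ▸ isAlgebraic_algebraMap c)

/-- `y` vanishes at the marked point -/
theorem e₀_y : 𝔠.e₀ 𝔠.y = 0 := by
  obtain ⟨𝔮, hq, hy⟩ := exists_max_ideal_of_mem_nonunits (mem_nonunits_iff.mpr 𝔠.not_isUnit_y)
  have := 𝔠.pole 𝔮 hq.isPrime hy
  rw [this] at hy
  exact hy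

variable (A : Type u) [CommRing A] [Algebra k A]

theorem ev₀_tmul (a : A) (b : 𝔠.B₂) : 𝔠.ev₀ A (a ⊗ₜ b) = a * algebraMap k A (𝔠.e₀ b) := by
  simp [ev₀, Algebra.smul_def, mul_comm]

@[simp] theorem ev₀_yA : 𝔠.ev₀ A (𝔠.yA A) = 0 := by
  rw [yA, ev₀_tmul, e₀_y, map_zero, mul_zero]

theorem yA_mem_ker_ev₀ : 𝔠.yA A ∈ RingHom.ker (𝔠.ev₀ A).toRingHom := 𝔠.ev₀_yA A

/-- every element of `R₂` is congruent to a constant modulo the ideal of the marked section -/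
theorem sub_algebraMap_ev₀_mem (r : 𝔠.R₂ A) :
    r - algebraMap A (𝔠.R₂ A) (𝔠.ev₀ A r) ∈ RingHom.ker (𝔠.ev₀ A).toRingHom := by
  change 𝔠.ev₀ A _ = 0
  rw [map_sub, AlgHom.commutes, Algebra.algebraMap_self_apply, sub_self]

/-- the marked section does not meet `W₁ ∩ W₂` -/
theorem map_ker_ev₀ : (RingHom.ker (𝔠.ev₀ A).toRingHom).map (𝔠.res₂ A).toRingHom = ⊤ :=
  Ideal.eq_top_of_isUnit_mem _ (Ideal.mem_map_of_mem _ (𝔠.yA_mem_ker_ev₀ A)) (TensorAux.isUnit_res₂_yA 𝔠 A)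

variable {A}

/-- If `V(I) ⊆ W₁ × Spec A` is finite over `A`, it does not meet a neighbourhood of `y = 0`: there is
`u ≡ 1 mod y` in `(I R₁₂) ∩ R₂`. -/
theorem exists_one_add_yA_mul_mem (I : Ideal (𝔠.R₁ A)) (hfin : Module.Finite A (𝔠.R₁ A ⧸ I)) :
    ∃ v : 𝔠.R₂ A, 𝔠.res₂ A (1 + 𝔠.yA A * v) ∈ I.map (𝔠.res₁ A).toRingHom := by
  have hint : IsIntegral A (Ideal.Quotient.mk I (𝔠.xA A)) :=
    Algebra.IsIntegral.isIntegral (R := A) _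
  obtain ⟨P, hP, hP0⟩ := hint
  have hPI : Polynomial.aeval (𝔠.xA A) P ∈ I := by
    rw [← Ideal.Quotient.eq_zero_iff_mem, ← hP0]
    change Ideal.Quotient.mkₐ A I _ = _
    rw [← Polynomial.aeval_algHom_apply, Polynomial.aeval_def]
    rfl
  let X : 𝔠.R₁₂ A := 𝔠.res₁ A (𝔠.xA A)
  let Y : 𝔠.R₁₂ A := 𝔠.res₂ A (𝔠.yA A)
  have hXY : X * Y = 1 := TensorAux.res₁_xA_mul_res₂_yA 𝔠 A
  let _ : Invertible X := ⟨Y, by rw [mul_comm]; exact hXY, hXY⟩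
  have h1 := Polynomial.eval₂_reverse_mul_pow (algebraMap A (𝔠.R₁₂ A)) X P
  have h2 : Polynomial.eval₂ (algebraMap A (𝔠.R₁₂ A)) Y P.reverse =
      Polynomial.eval₂ (algebraMap A (𝔠.R₁₂ A)) X P * Y ^ P.natDegree := by
    rw [← h1, mul_assoc, ← mul_pow, hXY, one_pow, mul_one]
    rfl
  have h3 : 𝔠.res₂ A (Polynomial.aeval (𝔠.yA A) P.reverse) =
      𝔠.res₁ A (Polynomial.aeval (𝔠.xA A) P) * Y ^ P.natDegree := by
    rw [← Polynomial.aeval_algHom_apply, ← Polynomial.aeval_algHom_apply, Polynomial.aeval_def,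
      Polynomial.aeval_def]
    exact h2
  refine ⟨Polynomial.aeval (𝔠.yA A) P.reverse.divX, ?_⟩
  have h4 : 1 + 𝔠.yA A * Polynomial.aeval (𝔠.yA A) P.reverse.divX =
      Polynomial.aeval (𝔠.yA A) P.reverse := by
    conv_rhs => rw [← Polynomial.divX_mul_X_add P.reverse]
    rw [map_add, map_mul, Polynomial.aeval_X, Polynomial.aeval_C, Polynomial.coeff_zero_reverse,
      hP.leadingCoeff, map_one]
    ring
  rw [h4, h3]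
  exact Ideal.mul_mem_right _ _ (Ideal.mem_map_of_mem (𝔠.res₁ A).toRingHom hPI)

theorem exists_ev₀_eq_one (I : Ideal (𝔠.R₁ A)) (hfin : Module.Finite A (𝔠.R₁ A ⧸ I)) :
    ∃ u : 𝔠.R₂ A, 𝔠.res₂ A u ∈ I.map (𝔠.res₁ A).toRingHom ∧ 𝔠.ev₀ A u = 1 := by
  obtain ⟨v, hv⟩ := 𝔠.exists_one_add_yA_mul_mem I hfin
  exact ⟨_, hv, by simp⟩

end CurveCharts

end Fermat.Agent.S25
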