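/-
S25 / block X, node X6: every degree-zero bundle over an algebraically closed field is
`𝒪(-ΣPᵢ) ⊗ E`, `Pᵢ ∈ W₁(K)`, with `E = 𝒪(M D_∞)` uniform.
Statement by helper25 (WIP/ChartsSkeleton.lean), proof by helper145 (from `RR.exists_iso_ptw`).
-/
import Fermat.Agent.S25.RR.Effective
import Fermat.Agent.S25.Charts.Otw

set_option autoImplicit false

universe u

open scoped TensorProduct

namespace Fermat.Agent.S25

open Triple

variable {k : Type u} [Field k] {𝔠 : CurveCharts k}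

namespace PointsOfPic

/-- `E(-Σ σ) ≅ (⨂ 𝒪(-σ)) ⊗ E` -/
theorem nonempty_iso_ptw_tensorList {A : Type u} [CommRing A] [Algebra k A] (E : Triple 𝔠 A)
    (l : List (𝔠.B₁ →ₐ[k] A)) :
    Nonempty (Iso (E.ptw l) ((tensorList (l.map Ipt)).tensor E)) := by
  induction l with
  | nil => exact ⟨(unitTensor E).symm⟩
  | cons σ l ih =>
    obtain ⟨e⟩ := ih
    exact ⟨((e.tensor (Iso.refl (Ipt σ))).trans (tensorComm _ _)).trans
      (tensorAssoc (Ipt σ) (tensorList (l.map Ipt)) E).symm⟩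

/-- a list of length `m` is `List.ofFn` of a function on `Fin m` -/
theorem exists_ofFn_eq {α : Type*} {m : ℕ} (l : List α) (hl : l.length = m) :
    ∃ σ : Fin m → α, List.ofFn σ = l := by
  subst hl
  exact ⟨l.get, List.ofFn_get l⟩

end PointsOfPic

variable [IsAlgClosed k]

/-- every degree-zero bundle over an algebraically closed field is `𝒪(-ΣPᵢ) ⊗ E`, `Pᵢ ∈ W₁(K)` -/
theorem exists_points (𝔠 : CurveCharts k) : ∃ (m : ℕ) (E : Triple 𝔠 k),
    E.IsInvertible ∧ E.IsRigid ∧ E.deg = m ∧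
    ∀ (K : Type u) [Field K] [IsAlgClosed K] [Algebra k K] (T : Triple 𝔠 K), T.IsPic0 →
      ∃ σ : Fin m → (𝔠.B₁ →ₐ[k] K),
        Nonempty (Iso T ((tensorList (List.ofFn fun i => Ipt (σ i))).tensor (E.const K))) := by
  obtain ⟨M, hM⟩ := RR.exists_iso_ptw 𝔠
  refine ⟨M * 𝔠.degInf, Otw 𝔠 k M, Otw_isInvertible M, Otw_isRigid M, ?_, ?_⟩
  · rw [RR.deg_Otw M]
    push_cast
    rfl
  · intro K _ _ _ T hT
    obtain ⟨l, hl, ⟨e⟩⟩ := hM K T hT.inv (hT.deg0 K (AlgHom.id k K) T ⟨BaseChange.id T⟩)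
    obtain ⟨σ, rfl⟩ := PointsOfPic.exists_ofFn_eq l hl
    obtain ⟨e'⟩ := PointsOfPic.nonempty_iso_ptw_tensorList (Otw 𝔠 K M) (List.ofFn σ)
    obtain ⟨D⟩ := Otw_bc (𝔠 := 𝔠) M (Algebra.ofId k K)
    rw [List.map_ofFn] at e'
    exact ⟨σ, ⟨(e.trans e').trans
      ((Iso.refl _).tensor (D.unique ((Otw 𝔠 k M).bcData (Algebra.ofId k K))))⟩⟩

end Fermat.Agent.S25
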