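/-
S25 / block X3, pure algebra: finite-dimensionality of torsion quotients of invertible modules over a
domain finite over `K[x]`, rank one, `dim M / r M = dim R / r R`.   Owner: helper278.
-/
import Mathlib
import Fermat.Agent.S25.Triple.Snake

set_option autoImplicit false

open scoped TensorProduct Polynomial
open Function

namespace Fermat.Agent.S25.VanAlg

/-- A finitely generated `P`-module killed by an ideal `J` with `P ⧸ J` finite over `K` is finite
over `K`. -/
theorem finite_of_finite_quotient {K P Q : Type*} [CommRing K] [CommRing P] [Algebra K P]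
    [AddCommGroup Q] [Module K Q] [Module P Q] [IsScalarTower K P Q] (J : Ideal P)
    [Module.Finite K (P ⧸ J)] [Module.Finite P Q] (hJ : ∀ a ∈ J, ∀ q : Q, a • q = 0) :
    Module.Finite K Q := by
  have hM : Module.IsTorsionBySet P Q J := fun q a => hJ a.1 a.2 q
  let _ := hM.module
  have t1 : IsScalarTower P (P ⧸ J) Q := hM.isScalarTower
  have t2 : IsScalarTower K (P ⧸ J) Q := hM.isScalarTower
  have : Module.Finite (P ⧸ J) Q := Module.Finite.of_restrictScalars_finite P (P ⧸ J) Q
  exact Module.Finite.trans (P ⧸ J) Q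

/-- nonzero ideals of a domain which is finite over `K[x]` have finite codimension -/
theorem finite_quotient_of_ne_bot {K R : Type*} [Field K] [CommRing R] [IsDomain R] [Algebra K R]
    (x : R) (hx : (Polynomial.aeval (R := K) x).toRingHom.Finite) (J : Ideal R) (hJ : J ≠ ⊥) :
    Module.Finite K (R ⧸ J) := by
  let _ : Algebra K[X] R := (Polynomial.aeval (R := K) x).toRingHom.toAlgebra
  have halg : ∀ f : K[X], algebraMap K[X] R f = Polynomial.aeval x f := fun f => rfl
  have hfin : Module.Finite K[X] R := hx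
  have : IsScalarTower K K[X] R := IsScalarTower.of_algebraMap_eq (fun c => by
    rw [halg]; simp)
  obtain ⟨s, hs, hs0⟩ := Submodule.exists_mem_ne_zero_of_ne_bot hJ
  have h1 : J.comap (algebraMap K[X] R) ≠ ⊥ :=
    Ideal.comap_ne_bot_of_integral_mem hs0 hs (Algebra.IsIntegral.isIntegral s)
  obtain ⟨f, hf, hf0⟩ := Submodule.exists_mem_ne_zero_of_ne_bot h1
  have : Module.Finite K (K[X] ⧸ Ideal.span {f}) := (AdjoinRoot.powerBasis hf0).finite
  refine finite_of_finite_quotient (P := K[X]) (Q := R ⧸ J) (Ideal.span {f}) ?_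
  intro a ha q
  obtain ⟨q, rfl⟩ := Ideal.Quotient.mk_surjective q
  obtain ⟨c, rfl⟩ := Ideal.mem_span_singleton.mp ha
  rw [Algebra.smul_def, IsScalarTower.algebraMap_apply K[X] R (R ⧸ J), Ideal.Quotient.algebraMap_eq,
    ← map_mul, Ideal.Quotient.eq_zero_iff_mem, map_mul]
  exact J.mul_mem_right _ (J.mul_mem_right _ hf)

section Rank

variable {R M : Type*} [CommRing R] [IsDomain R] [AddCommGroup M] [Module R M]
  [Module.Invertible R M]

theorem smul_eq_zero_imp {r : R} {m : M} (h : r • m = 0) : r = 0 ∨ m = 0 := by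
  obtain ⟨s, hs⟩ := (Module.projective_def' (R := R) (P := M)).mp inferInstance
  by_cases hr : r = 0
  · exact Or.inl hr
  right
  have h1 : s m = 0 := by
    have h2 : r • s m = 0 := by rw [← map_smul, h, map_zero]
    refine Finsupp.ext (fun i => ?_)
    have h3 := congrArg (fun f : M →₀ R => f i) h2
    simp only [Finsupp.smul_apply, smul_eq_mul, Finsupp.coe_zero, Pi.zero_apply] at h3
    simpa [hr] using h3
  have := congrArg (fun f : M →ₗ[R] M => f m) hs
  simp only [LinearMap.comp_apply, h1, map_zero, LinearMap.id_apply] at this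
  exact this.symm

/-- an invertible module over a domain has rank one -/
theorem exists_smul_eq_smul {n : M} (hn : n ≠ 0) (g : M) :
    ∃ a b : R, b ≠ 0 ∧ b • g = a • n := by
  let F := FractionRing R
  obtain ⟨e⟩ : Nonempty ((F ⊗[R] M) ≃ₗ[F] F) :=
    Module.Invertible.free_iff_linearEquiv.mp inferInstance
  have hinj : Injective (fun m : M => (1 : F) ⊗ₜ[R] m) := by
    have h1 := Module.Flat.rTensor_preserves_injective_linearMap (M := M) (Algebra.linearMap R F)
      (IsFractionRing.injective R F)
    have h2 := h1.comp (TensorProduct.lid R M).symm.injective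
    convert h2 using 1
    funext m
    simp
  let φ : M → F := fun m => e ((1 : F) ⊗ₜ[R] m)
  have hφ : ∀ (r : R) (m : M), φ (r • m) = algebraMap R F r * φ m := by
    intro r m
    show e ((1 : F) ⊗ₜ[R] (r • m)) = _
    rw [TensorProduct.tmul_smul, ← algebraMap_smul F r ((1 : F) ⊗ₜ[R] m), map_smul, smul_eq_mul]
  have hφinj : Injective φ := e.injective.comp hinj
  have hφn : φ n ≠ 0 := by
    intro h0
    apply hn
    apply hφinj
    rw [h0]
    show _ = e ((1 : F) ⊗ₜ[R] (0 : M))
    rw [TensorProduct.tmul_zero, map_zero]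
  obtain ⟨a, b, hb, hab⟩ := IsFractionRing.div_surjective (A := R) (φ g / φ n)
  have hb0 : algebraMap R F b ≠ 0 := IsFractionRing.to_map_ne_zero_of_mem_nonZeroDivisors hb
  refine ⟨a, b, nonZeroDivisors.ne_zero hb, hφinj ?_⟩
  rw [hφ, hφ]
  rw [div_eq_div_iff hb0 hφn] at hab
  rw [mul_comm, ← hab, mul_comm]

theorem exists_smul_mem_span {n : M} (hn : n ≠ 0) :
    ∃ r : R, r ≠ 0 ∧ ∀ g : M, r • g ∈ Submodule.span R {n} := by
  classical
  obtain ⟨s, hs⟩ := Module.Finite.fg_top (R := R) (M := M)
  choose a b hb hab using fun g => exists_smul_eq_smul (R := R) hn g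
  refine ⟨∏ g ∈ s, b g, Finset.prod_ne_zero_iff.mpr (fun g _ => hb g), fun g => ?_⟩
  have hg : g ∈ Submodule.span R (s : Set M) := hs ▸ Submodule.mem_top
  induction hg using Submodule.span_induction with
  | mem x hx =>
    rw [← Finset.mul_prod_erase s b hx, mul_comm, mul_smul, hab]
    exact Submodule.smul_mem _ _ (Submodule.smul_mem _ _ (Submodule.mem_span_singleton_self n))
  | zero => rw [smul_zero]; exact zero_mem _
  | add x y _ _ hx hy => rw [smul_add]; exact add_mem hx hy
  | smul c x _ hx => rw [smul_comm]; exact Submodule.smul_mem _ _ hx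

omit [IsDomain R] [Module.Invertible R M] in
variable (R M) in
theorem exists_ne_zero [IsDomain R] [Module.Invertible R M] : ∃ n : M, n ≠ 0 := by
  by_contra h
  have h : ∀ m : M, m = 0 := fun m => by
    by_contra hm
    exact h ⟨m, hm⟩
  let F := FractionRing R
  obtain ⟨e⟩ : Nonempty ((F ⊗[R] M) ≃ₗ[F] F) :=
    Module.Invertible.free_iff_linearEquiv.mp inferInstance
  have h0 : ∀ t : F ⊗[R] M, t = 0 := by
    intro t
    induction t with
    | zero => rfl
    | tmul a m => rw [h m, TensorProduct.tmul_zero]
    | add x y hx hy => rw [hx, hy, add_zero]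
  have h1 : e.symm 1 = 0 := h0 _
  have h2 : (1 : F) = 0 := by rw [← e.apply_symm_apply 1, h1, map_zero]
  exact one_ne_zero h2

end Rank

section Fin

variable {K R M : Type*} [Field K] [CommRing R] [IsDomain R] [Algebra K R]
  [AddCommGroup M] [Module R M] [Module.Invertible R M]

/-- a quotient of an invertible module by a submodule containing a nonzero element is finite
dimensional -/
theorem finite_of_surjective_of_apply_eq_zero {Q : Type*} [AddCommGroup Q] [Module R Q] [Module K Q]
    [IsScalarTower K R Q] (x : R) (hx : (Polynomial.aeval (R := K) x).toRingHom.Finite)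
    (π : M →ₗ[R] Q) (hπ : Surjective π) {n : M} (hn : n ≠ 0) (hn' : π n = 0) :
    Module.Finite K Q := by
  obtain ⟨r, hr, h⟩ := exists_smul_mem_span (R := R) hn
  have hJ : Ideal.span {r} ≠ ⊥ := by
    rw [Ne, Ideal.span_singleton_eq_bot]
    exact hr
  have := finite_quotient_of_ne_bot x hx _ hJ
  have : Module.Finite R Q := Module.Finite.of_surjective π hπ
  refine finite_of_finite_quotient (K := K) (Ideal.span {r}) ?_
  intro a ha q
  obtain ⟨g, rfl⟩ := hπ q
  obtain ⟨c, rfl⟩ := Ideal.mem_span_singleton.mp ha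
  obtain ⟨b, hb⟩ := Submodule.mem_span_singleton.mp (h g)
  rw [mul_comm, mul_smul, ← map_smul π r, ← hb, map_smul, hn', smul_zero, smul_zero]

end Fin

section Herbrand

/-- multiplication by `r`, as a `K`-linear map -/
noncomputable def mulK (K : Type*) {R : Type*} (M : Type*) [CommRing K] [CommRing R] [Algebra K R]
    [AddCommGroup M] [Module R M] [Module K M] [IsScalarTower K R M] (r : R) : M →ₗ[K] M :=
  (LinearMap.lsmul R M r).restrictScalars K

@[simp] theorem mulK_apply {K R M : Type*} [CommRing K] [CommRing R] [Algebra K R]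
    [AddCommGroup M] [Module R M] [Module K M] [IsScalarTower K R M] (r : R) (m : M) :
    mulK K M r m = r • m := rfl

theorem index_eq_zero_of_finite {K C : Type*} [Field K] [AddCommGroup C] [Module K C]
    [Module.Finite K C] (d : C →ₗ[K] C) : Snake.index d = 0 := by
  unfold Snake.index
  have h1 := d.finrank_range_add_finrank_ker
  have h2 := Submodule.finrank_quotient_add_finrank (LinearMap.range d)
  omega

variable {K R M : Type*} [Field K] [CommRing R] [IsDomain R] [Algebra K R]
  [AddCommGroup M] [Module R M] [Module K M] [IsScalarTower K R M] [Module.Invertible R M]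

theorem finite_coker_mulK_self (x : R) (hx : (Polynomial.aeval (R := K) x).toRingHom.Finite)
    {r : R} (hr : r ≠ 0) : Module.Finite K (R ⧸ LinearMap.range (mulK K R r)) := by
  have hJ : Ideal.span {r} ≠ ⊥ := by
    rw [Ne, Ideal.span_singleton_eq_bot]
    exact hr
  have := finite_quotient_of_ne_bot x hx _ hJ
  have h : (Ideal.span {r}).restrictScalars K = LinearMap.range (mulK K R r) := by
    ext a
    simp only [Submodule.restrictScalars_mem, LinearMap.mem_range, mulK_apply, smul_eq_mul]
    rw [Ideal.mem_span_singleton']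
    constructor
    · rintro ⟨b, rfl⟩; exact ⟨b, mul_comm _ _⟩
    · rintro ⟨b, rfl⟩; exact ⟨b, mul_comm _ _⟩
  exact Module.Finite.equiv ((Submodule.Quotient.restrictScalarsEquiv K (Ideal.span {r})).symm.trans
    (Submodule.quotEquivOfEq _ _ h))

theorem mulK_injective {r : R} (hr : r ≠ 0) : Injective (mulK K M r) := by
  rw [injective_iff_map_eq_zero]
  intro m hm
  exact (smul_eq_zero_imp (R := R) hm).resolve_left hr

/-- `dim M / r M = dim R / r R` for an invertible module `M`. -/
theorem finrank_coker_mulK (x : R) (hx : (Polynomial.aeval (R := K) x).toRingHom.Finite)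
    {r : R} (hr : r ≠ 0) :
    Module.Finite K (M ⧸ LinearMap.range (mulK K M r)) ∧
      Module.finrank K (M ⧸ LinearMap.range (mulK K M r)) =
        Module.finrank K (R ⧸ LinearMap.range (mulK K R r)) := by
  obtain ⟨n, hn⟩ := exists_ne_zero R M
  let C := M ⧸ Submodule.span R {n}
  have hC : Module.Finite K C :=
    finite_of_surjective_of_apply_eq_zero x hx (Submodule.span R {n}).mkQ
      (Submodule.mkQ_surjective _) hn
      ((Submodule.Quotient.mk_eq_zero _).mpr (Submodule.mem_span_singleton_self n))
  let i : R →ₗ[K] M := (LinearMap.toSpanSingleton R M n).restrictScalars K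
  let p : M →ₗ[K] C := (Submodule.span R {n}).mkQ.restrictScalars K
  have hi : ∀ a : R, i a = a • n := fun a => rfl
  have hp : ∀ m : M, p m = (Submodule.Quotient.mk m : M ⧸ Submodule.span R {n}) := fun m => rfl
  have hinj : Injective i := by
    rw [injective_iff_map_eq_zero]
    intro a ha
    rw [hi] at ha
    exact (smul_eq_zero_imp (R := R) ha).resolve_right hn
  have hex : Exact i p := by
    intro m
    rw [hp, Submodule.Quotient.mk_eq_zero, Submodule.mem_span_singleton]
    constructor
    · rintro ⟨a, rfl⟩; exact ⟨a, hi a⟩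
    · rintro ⟨a, rfl⟩; exact ⟨a, (hi a).symm⟩
  have hsurj : Surjective p := (Submodule.span R {n}).mkQ_surjective
  have hc1 : ∀ a, i (mulK K R r a) = mulK K M r (i a) := fun a => by
    rw [mulK_apply, mulK_apply, hi, hi, smul_eq_mul, mul_smul]
  have hc2 : ∀ a, p (mulK K M r a) = mulK K C r (p a) := fun a => by
    rw [mulK_apply, mulK_apply, hp, hp]
    rfl
  have S : Snake.SES (mulK K R r) (mulK K M r) (mulK K C r) i p i p :=
    ⟨hc1, hc2, hinj, hex, hsurj, hinj, hex, hsurj⟩
  have hk' : LinearMap.ker (mulK K R r) = ⊥ := LinearMap.ker_eq_bot.mpr (mulK_injective hr)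
  have hk : LinearMap.ker (mulK K M r) = ⊥ := LinearMap.ker_eq_bot.mpr (mulK_injective hr)
  have f' : Snake.FinCoh (mulK K R r) :=
    ⟨by rw [hk']; infer_instance, finite_coker_mulK_self x hx hr⟩
  have f'' : Snake.FinCoh (mulK K C r) := ⟨inferInstance, inferInstance⟩
  have e := S.index_add f' f''
  rw [index_eq_zero_of_finite (mulK K C r), add_zero] at e
  unfold Snake.index at e
  rw [hk, hk', finrank_bot, finrank_bot] at e
  have hmid : Snake.FinCoh (mulK K M r) := S.finCoh_mid f' f''
  have hc := hmid.coker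
  constructor
  · exact hc
  · omega

end Herbrand

section BC

variable {k K B : Type*} [Field k] [Field K] [Algebra k K] [CommRing B] [Algebra k B]

theorem finrank_coker_mulK_tensor_le (b : B) [Module.Finite k (B ⧸ Ideal.span {b})] :
    Module.finrank K ((K ⊗[k] B) ⧸ LinearMap.range (mulK K (K ⊗[k] B) ((1 : K) ⊗ₜ[k] b))) ≤
      Module.finrank k (B ⧸ Ideal.span {b}) := by
  let f : B →ₗ[k] B := mulK k B b
  let g : B →ₗ[k] B ⧸ Ideal.span {b} := (Submodule.mkQ (Ideal.span {b})).restrictScalars k
  have hfg : Exact f g := by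
    intro c
    show (Submodule.Quotient.mk c : B ⧸ Ideal.span {b}) = 0 ↔ _
    rw [Submodule.Quotient.mk_eq_zero, Ideal.mem_span_singleton']
    constructor
    · rintro ⟨a, rfl⟩; exact ⟨a, mul_comm _ _⟩
    · rintro ⟨a, rfl⟩; exact ⟨a, mul_comm _ _⟩
  have hg : Surjective g := (Ideal.span {b}).mkQ_surjective
  have hex := lTensor_exact K hfg hg
  have hd : ∀ t, mulK K (K ⊗[k] B) ((1 : K) ⊗ₜ[k] b) t = f.lTensor K t := by
    intro t
    induction t with
    | zero => simp
    | tmul a c =>
      rw [mulK_apply, smul_eq_mul, Algebra.TensorProduct.tmul_mul_tmul, one_mul]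
      rfl
    | add x y hx hy => rw [map_add, map_add, hx, hy]
  have hle : LinearMap.range (mulK K (K ⊗[k] B) ((1 : K) ⊗ₜ[k] b)) ≤
      LinearMap.ker (g.baseChange K) := by
    rintro _ ⟨t, rfl⟩
    rw [LinearMap.mem_ker, hd]
    exact hex.apply_apply_eq_zero t
  let l := (LinearMap.range (mulK K (K ⊗[k] B) ((1 : K) ⊗ₜ[k] b))).liftQ (g.baseChange K) hle
  have hl : Injective l := by
    rw [← LinearMap.ker_eq_bot]
    apply Submodule.ker_liftQ_eq_bot
    intro t ht
    obtain ⟨s, hs⟩ := (hex t).mp ht
    exact ⟨s, by rw [hd, hs]⟩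
  calc _ ≤ Module.finrank K (K ⊗[k] (B ⧸ Ideal.span {b})) :=
        LinearMap.finrank_le_finrank_of_injective hl
    _ = _ := Module.finrank_baseChange

end BC

end Fermat.Agent.S25.VanAlg
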