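/-
S25 / block X3: a line bundle with a nonzero section has `χ ≥ χ(𝒪)`; uniform vanishing of `H¹`.
Owner: helper278.
-/
import Fermat.Agent.S25.Charts.Defs
import Fermat.Agent.S25.Triple.Exact
import Fermat.Agent.S25.Triple.Torsion
import Fermat.Agent.S25.Triple.IdealSMul
import Fermat.Agent.S25.Triple.IsoLemmas
import Fermat.Agent.S25.Triple.QC
import Fermat.Agent.S25.Alg.Dedekind
import Fermat.Agent.S25.Alg.ChiLocConst
import Fermat.Agent.S25.Alg.Lift.RingsCompat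
import Fermat.Agent.S25.Charts.VanishingAlg

set_option autoImplicit false

universe u

open scoped TensorProduct
open Function

namespace Fermat.Agent.S25

open Triple

namespace Van

section General

variable {k : Type u} [Field k] {𝔠 : CurveCharts k} {A : Type u} [CommRing A] [Algebra k A]

/-- `𝒪(j D_∞)` is invertible. -/
theorem otw_isInvertible (j : ℕ) : (Otw 𝔠 A j).IsInvertible where
  surj₁ := fun n => TensorAux.exists_res₁_eq 𝔠 A n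
  inj₁ := fun n h => ⟨0, by
    have h' : 𝔠.res₁ A n = 𝔠.res₁ A 0 := by rw [map_zero]; exact h
    have h0 : n = (0 : 𝔠.R₁ A) := TensorAux.res₁_injective 𝔠 A h'
    show ((𝔠.xA A) ^ 0 * (show 𝔠.R₁ A from n) : 𝔠.R₁ A) = 0
    rw [h0, mul_zero]⟩
  surj₂ := fun n => by
    obtain ⟨m, r, hr⟩ := TensorAux.exists_res₂_eq 𝔠 A n
    refine ⟨m, ((𝔠.yA A) ^ j * r : 𝔠.R₂ A), ?_⟩
    show (𝔠.res₁ A (𝔠.xA A)) ^ j * 𝔠.res₂ A ((𝔠.yA A) ^ j * r) =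
      (𝔠.res₂ A (𝔠.yA A)) ^ m * (show 𝔠.R₁₂ A from n)
    rw [map_mul, map_pow, ← mul_assoc, ← mul_pow, 𝔠.res₁_xA_mul_res₂_yA, one_pow, one_mul, hr]
  inj₂ := fun n h => ⟨0, by
    have h1 : (𝔠.res₁ A (𝔠.xA A)) ^ j * 𝔠.res₂ A n = 0 := h
    have h2 : 𝔠.res₂ A n = 0 := by
      have := congrArg (fun z => (𝔠.res₂ A (𝔠.yA A)) ^ j * z) h1
      simp only [mul_zero] at this
      rwa [← mul_assoc, ← mul_pow, 𝔠.res₂_yA_mul_res₁_xA, one_pow, one_mul] at this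
    have h' : 𝔠.res₂ A n = 𝔠.res₂ A 0 := by rw [map_zero]; exact h2
    have h0 : n = (0 : 𝔠.R₂ A) := TensorAux.res₂_injective 𝔠 A h'
    show ((𝔠.yA A) ^ 0 * (show 𝔠.R₂ A from n) : 𝔠.R₂ A) = 0
    rw [h0, mul_zero]⟩
  inv₁ := inferInstanceAs (Module.Invertible (𝔠.R₁ A) (𝔠.R₁ A))
  inv₂ := inferInstanceAs (Module.Invertible (𝔠.R₂ A) (𝔠.R₂ A))

/-- `𝒪(0 · D_∞) = 𝒪`. -/
noncomputable def otwZeroIso : Iso (Otw 𝔠 A 0) (unit 𝔠 A) where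
  e₁ := LinearEquiv.refl (𝔠.R₁ A) (𝔠.R₁ A)
  e₂ := LinearEquiv.refl (𝔠.R₂ A) (𝔠.R₂ A)
  e₁₂ := LinearEquiv.refl (𝔠.R₁₂ A) (𝔠.R₁₂ A)
  comm₁ _ := rfl
  comm₂ n := by
    show (𝔠.res₁ A (𝔠.xA A)) ^ 0 * 𝔠.res₂ A n = 𝔠.res₂ A n
    rw [pow_zero, one_mul]

/-- the map `𝒪(j D_∞) → T` attached to a section of `T` vanishing to order `j` at infinity -/
noncomputable def secHom (T : Triple 𝔠 A) (j : ℕ) (n₁ : T.N₁) (n₂ : T.N₂)
    (h : T.ρ₁ n₁ = (𝔠.res₂ A (𝔠.yA A)) ^ j • T.ρ₂ n₂) : Hom (Otw 𝔠 A j) T where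
  f₁ := LinearMap.toSpanSingleton (𝔠.R₁ A) T.N₁ n₁
  f₂ := LinearMap.toSpanSingleton (𝔠.R₂ A) T.N₂ n₂
  f₁₂ := LinearMap.toSpanSingleton (𝔠.R₁₂ A) T.N₁₂ (T.ρ₁ n₁)
  comm₁ r := by
    show (𝔠.res₁ A r) • T.ρ₁ n₁ = T.ρ₁ ((show 𝔠.R₁ A from r) • n₁)
    rw [T.ρ₁.map_smulₛₗ]
    rfl
  comm₂ r := by
    show ((𝔠.res₁ A (𝔠.xA A)) ^ j * 𝔠.res₂ A r) • T.ρ₁ n₁ = T.ρ₂ ((show 𝔠.R₂ A from r) • n₂)
    rw [T.ρ₂.map_smulₛₗ, h, smul_smul, mul_right_comm, ← mul_pow, 𝔠.res₁_xA_mul_res₂_yA, one_pow,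
      one_mul]
    rfl

/-- the cokernel of a morphism of triples -/
noncomputable def cok {L T : Triple 𝔠 A} (f : Hom L T) : Triple 𝔠 A :=
  T.quot (LinearMap.range f.f₁) (LinearMap.range f.f₂) (LinearMap.range f.f₁₂)
    (by rintro _ ⟨l, rfl⟩; exact ⟨L.ρ₁ l, f.comm₁ l⟩)
    (by rintro _ ⟨l, rfl⟩; exact ⟨L.ρ₂ l, f.comm₂ l⟩)

/-- the projection onto the cokernel -/
noncomputable def cokHom {L T : Triple 𝔠 A} (f : Hom L T) : Hom T (cok f) :=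
  T.quotHom _ _ _ _ _

theorem shortExact_cok {L T : Triple 𝔠 A} (f : Hom L T) (i₁ : Injective f.f₁)
    (i₂ : Injective f.f₂) (i₁₂ : Injective f.f₁₂) : ShortExact f (cokHom f) where
  inj₁ := i₁
  inj₂ := i₂
  inj₁₂ := i₁₂
  exact₁ := LinearMap.exact_map_mkQ_range f.f₁
  exact₂ := LinearMap.exact_map_mkQ_range f.f₂
  exact₁₂ := LinearMap.exact_map_mkQ_range f.f₁₂
  surj₁ := (LinearMap.range f.f₁).mkQ_surjective
  surj₂ := (LinearMap.range f.f₂).mkQ_surjective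
  surj₁₂ := (LinearMap.range f.f₁₂).mkQ_surjective

theorem cok_isQC {L T : Triple 𝔠 A} (f : Hom L T) (hL : L.IsQC) (hT : T.IsQC) : (cok f).IsQC :=
  IsQC.quot hT
    (by
      rintro _ ⟨l, rfl⟩
      obtain ⟨m, l₁, e⟩ := hL.surj₁ l
      exact ⟨m, f.f₁ l₁, ⟨l₁, rfl⟩, by rw [← f.comm₁, e, map_smul]⟩)
    (by
      rintro _ ⟨l, rfl⟩
      obtain ⟨m, l₂, e⟩ := hL.surj₂ l
      exact ⟨m, f.f₂ l₂, ⟨l₂, rfl⟩, by rw [← f.comm₂, e, map_smul]⟩)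

end General

section Field

variable {k : Type u} [Field k] {𝔠 : CurveCharts k} {K : Type u} [Field K] [Algebra k K]

theorem finCoh_of_isInvertible (T : Triple 𝔠 K) (hT : T.IsInvertible) : T.FinCoh := by
  obtain ⟨m⟩ := exists_finiteModel T hT
  exact ⟨Module.Finite.equiv m.kerEquiv.symm, Module.Finite.equiv m.cokerEquiv.symm⟩

/-- an injective morphism with finite dimensional cokernel -/
theorem chi_le_of_hom {L T : Triple 𝔠 K} (f : Hom L T) (hL : L.IsQC) (hT : T.IsQC)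
    (i₁ : Injective f.f₁) (i₂ : Injective f.f₂) (i₁₂ : Injective f.f₁₂)
    [Module.Finite K (cok f).N₁] [Module.Finite K (cok f).N₂] (hLf : L.FinCoh) :
    L.chi ≤ T.chi ∧ (Surjective L.δ → Surjective T.δ) := by
  have E := shortExact_cok f i₁ i₂ i₁₂
  have hQ := cok_isQC f hL hT
  have hQf : (cok f).FinCoh := hQ.finCoh_of_finite
  have h1 : (cok f).h1 = 0 := hQ.h1_eq_zero_of_finite₁
  constructor
  · rw [E.chi_add hLf hQf]
    have : (cok f).chi = (cok f).h0 := by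
      unfold chi
      rw [h1]
      simp
    rw [this]
    omega
  · intro hs
    have s1 := L.subsingleton_H1_of_surjective hs
    have s2 := (cok f).subsingleton_H1_of_surjective
      ((cok f).δ_surjective_of_ρ₁ hQ.ρ₁_surjective_of_finite)
    apply T.surjective_of_subsingleton_H1
    have hz : ∀ z : T.H1, z = 0 := fun z => by
      obtain ⟨w, rfl⟩ := (E.exact_mapH1_mapH1 z).mp (Subsingleton.elim _ _)
      rw [Subsingleton.elim w 0, map_zero]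
    exact ⟨fun a b => by rw [hz a, hz b]⟩

variable [IsAlgClosed k]

theorem xA_ne_zero : 𝔠.xA K ≠ 0 := by
  intro h
  have := 𝔠.isDomain_R₁₂ K
  have hu := 𝔠.isUnit_res₁_xA K
  rw [h, map_zero] at hu
  exact not_isUnit_zero hu

theorem yA_ne_zero : 𝔠.yA K ≠ 0 := by
  intro h
  have := 𝔠.isDomain_R₁₂ K
  have hu := 𝔠.isUnit_res₂_yA K
  rw [h, map_zero] at hu
  exact not_isUnit_zero hu

theorem ρ₁_eq_zero {T : Triple 𝔠 K} (hT : T.IsInvertible) {n : T.N₁} (h : T.ρ₁ n = 0) : n = 0 := by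
  have := 𝔠.isDomain_R₁ K
  have := hT.inv₁
  obtain ⟨m, hm⟩ := hT.inj₁ n h
  exact (VanAlg.smul_eq_zero_imp hm).resolve_left (pow_ne_zero _ xA_ne_zero)

theorem ρ₂_eq_zero {T : Triple 𝔠 K} (hT : T.IsInvertible) {n : T.N₂} (h : T.ρ₂ n = 0) : n = 0 := by
  have := 𝔠.isDomain_R₂ K
  have := hT.inv₂
  obtain ⟨m, hm⟩ := hT.inj₂ n h
  exact (VanAlg.smul_eq_zero_imp hm).resolve_left (pow_ne_zero _ yA_ne_zero)

/-- a nonzero section of `T` vanishing to order `j` at infinity -/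
theorem of_section (T : Triple 𝔠 K) (hT : T.IsInvertible) (j : ℕ) (n₁ : T.N₁) (n₂ : T.N₂)
    (h : T.ρ₁ n₁ = (𝔠.res₂ K (𝔠.yA K)) ^ j • T.ρ₂ n₂) (hn : n₁ ≠ 0) :
    (Otw 𝔠 K j).chi ≤ T.chi ∧ (Surjective (Otw 𝔠 K j).δ → Surjective T.δ) := by
  have := 𝔠.isDomain_R₁ K
  have := 𝔠.isDomain_R₂ K
  have := 𝔠.isDomain_R₁₂ K
  have := hT.inv₁
  have := hT.inv₂
  have := hT.inv₁₂
  have hρ : T.ρ₁ n₁ ≠ 0 := fun h0 => hn (ρ₁_eq_zero hT h0)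
  have hn₂ : n₂ ≠ 0 := by
    rintro rfl
    rw [T.ρ₂.map_zero, smul_zero] at h
    exact hρ h
  let f := secHom T j n₁ n₂ h
  have i₁ : Injective f.f₁ := (injective_iff_map_eq_zero _).mpr fun r hr =>
    (VanAlg.smul_eq_zero_imp (R := 𝔠.R₁ K) (m := n₁) hr).resolve_right hn
  have i₂ : Injective f.f₂ := (injective_iff_map_eq_zero _).mpr fun r hr =>
    (VanAlg.smul_eq_zero_imp (R := 𝔠.R₂ K) (m := n₂) hr).resolve_right hn₂
  have i₁₂ : Injective f.f₁₂ := (injective_iff_map_eq_zero _).mpr fun r hr =>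
    (VanAlg.smul_eq_zero_imp (R := 𝔠.R₁₂ K) (m := T.ρ₁ n₁) hr).resolve_right hρ
  have c₁ : Module.Finite K (cok f).N₁ :=
    VanAlg.finite_of_surjective_of_apply_eq_zero (K := K) (R := 𝔠.R₁ K) (M := T.N₁) (𝔠.xA K)
      (𝔠.finite_xA K) (cokHom f).f₁ (LinearMap.range f.f₁).mkQ_surjective hn
      ((Submodule.Quotient.mk_eq_zero _).mpr ⟨(1 : 𝔠.R₁ K), one_smul _ n₁⟩)
  have c₂ : Module.Finite K (cok f).N₂ :=
    VanAlg.finite_of_surjective_of_apply_eq_zero (K := K) (R := 𝔠.R₂ K) (M := T.N₂) (𝔠.yA K)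
      (𝔠.finite_yA K) (cokHom f).f₂ (LinearMap.range f.f₂).mkQ_surjective hn₂
      ((Submodule.Quotient.mk_eq_zero _).mpr ⟨(1 : 𝔠.R₂ K), one_smul _ n₂⟩)
  exact chi_le_of_hom f (otw_isInvertible j).toIsQC hT.toIsQC i₁ i₂ i₁₂
    (finCoh_of_isInvertible _ (otw_isInvertible j))

end Field


section Serre

variable {k : Type u} [Field k] {𝔠 : CurveCharts k}

section

variable {A : Type u} [CommRing A] [Algebra k A]

theorem otw_δ_apply (j : ℕ) (a : 𝔠.R₁ A) (b : 𝔠.R₂ A) :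
    (Otw 𝔠 A j).δ (a, b) = 𝔠.res₁ A a - (𝔠.res₁ A (𝔠.xA A)) ^ j * 𝔠.res₂ A b :=
  δ_apply _ _

theorem unit_δ_apply (a : 𝔠.R₁ A) (b : 𝔠.R₂ A) :
    (unit 𝔠 A).δ (a, b) = 𝔠.res₁ A a - 𝔠.res₂ A b :=
  δ_apply _ _

/-- `n ∈ R₁ + x ^ j R₂` -/
def Good (𝔠 : CurveCharts k) (A : Type u) [CommRing A] [Algebra k A] (j : ℕ) (n : 𝔠.R₁₂ A) : Prop :=
  ∃ (a : 𝔠.R₁ A) (b : 𝔠.R₂ A), 𝔠.res₁ A a - (𝔠.res₁ A (𝔠.xA A)) ^ j * 𝔠.res₂ A b = n

theorem otw_surjective_iff (j : ℕ) : Surjective (Otw 𝔠 A j).δ ↔ ∀ n, Good 𝔠 A j n := by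
  constructor
  · intro h n
    obtain ⟨⟨a, b⟩, hab⟩ := h n
    exact ⟨a, b, (otw_δ_apply j a b).symm.trans hab⟩
  · intro h n
    obtain ⟨a, b, hab⟩ := h n
    exact ⟨(a, b), (otw_δ_apply j a b).trans hab⟩

theorem good_zero (j : ℕ) : Good 𝔠 A j 0 := ⟨0, 0, by simp⟩

theorem Good.add {j : ℕ} {n n' : 𝔠.R₁₂ A} (h : Good 𝔠 A j n) (h' : Good 𝔠 A j n') :
    Good 𝔠 A j (n + n') := by
  obtain ⟨a, b, rfl⟩ := h
  obtain ⟨a', b', rfl⟩ := h'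
  exact ⟨a + a', b + b', by rw [map_add, map_add]; ring⟩

theorem Good.algebraMap_mul {j : ℕ} {n : 𝔠.R₁₂ A} (h : Good 𝔠 A j n) (c : A) :
    Good 𝔠 A j (algebraMap A (𝔠.R₁₂ A) c * n) := by
  obtain ⟨a, b, rfl⟩ := h
  exact ⟨algebraMap A _ c * a, algebraMap A _ c * b, by
    rw [map_mul, map_mul, AlgHom.commutes, AlgHom.commutes]; ring⟩

theorem xA_pow_mul_yA_pow (i : ℕ) :
    (𝔠.res₁ A (𝔠.xA A)) ^ i * (𝔠.res₂ A (𝔠.yA A)) ^ i = 1 := by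
  rw [← mul_pow, 𝔠.res₁_xA_mul_res₂_yA, one_pow]

theorem good_of_unit (j : ℕ) (a : 𝔠.R₁ A) (b : 𝔠.R₂ A) :
    Good 𝔠 A j (𝔠.res₁ A a - 𝔠.res₂ A b) :=
  ⟨a, (𝔠.yA A) ^ j * b, by rw [map_mul, map_pow, ← mul_assoc, xA_pow_mul_yA_pow, one_mul]⟩

theorem good_of_res₂ {j m : ℕ} (hle : m ≤ j) {n : 𝔠.R₁₂ A} {r : 𝔠.R₂ A}
    (hr : 𝔠.res₂ A r = (𝔠.res₂ A (𝔠.yA A)) ^ m * n) : Good 𝔠 A j n :=
  ⟨0, -((𝔠.yA A) ^ (j - m) * r), by
    rw [map_zero, map_neg, map_mul, map_pow, hr, zero_sub, mul_neg, neg_neg,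
      ← mul_assoc, ← mul_assoc, mul_assoc _ (_ ^ (j - m)), ← pow_add, Nat.sub_add_cancel hle,
      xA_pow_mul_yA_pow, one_mul]⟩

end

/-- `H¹(𝒪(j D_∞)) = 0` for some `j`, over the base field. -/
theorem exists_otw_surjective_base (𝔠 : CurveCharts k) : ∃ j : ℕ, ∀ n, Good 𝔠 k j n := by
  classical
  have hU : (unit 𝔠 k).FinCoh := finCoh_of_isInvertible _ unit_isInvertible
  have := hU.coker
  obtain ⟨S, hS⟩ := Module.Finite.fg_top (R := k) (M := (unit 𝔠 k).H1)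
  choose rep hrep using
    (fun h : (unit 𝔠 k).H1 => Submodule.Quotient.mk_surjective (LinearMap.range (unit 𝔠 k).δ) h)
  choose m r hr using fun h => TensorAux.exists_res₂_eq 𝔠 k (rep h)
  refine ⟨S.sup m, ?_⟩
  set j := S.sup m with hj
  have key : ∀ h : (unit 𝔠 k).H1, ∃ n : (unit 𝔠 k).N₁₂, Submodule.Quotient.mk n = h ∧
      Good 𝔠 k j n := by
    intro h
    have hh : h ∈ Submodule.span k (S : Set (unit 𝔠 k).H1) := hS ▸ Submodule.mem_top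
    induction hh using Submodule.span_induction with
    | mem h hh => exact ⟨rep h, hrep h, good_of_res₂ (Finset.le_sup hh) (hr h)⟩
    | zero => exact ⟨0, rfl, good_zero j⟩
    | add x y _ _ hx hy =>
      obtain ⟨n, rfl, hn⟩ := hx
      obtain ⟨n', rfl, hn'⟩ := hy
      exact ⟨n + n', rfl, hn.add hn'⟩
    | smul c x _ hx =>
      obtain ⟨n, rfl, hn⟩ := hx
      exact ⟨c • n, rfl, hn.algebraMap_mul c⟩
  intro n
  obtain ⟨n', hn', hg⟩ := key (Submodule.Quotient.mk (show (unit 𝔠 k).N₁₂ from n))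
  have h5 : (show (unit 𝔠 k).N₁₂ from n) - n' ∈ LinearMap.range (unit 𝔠 k).δ := by
    rw [← Submodule.Quotient.mk_eq_zero, Submodule.Quotient.mk_sub, sub_eq_zero]
    exact hn'.symm
  obtain ⟨⟨a, b⟩, hab⟩ := h5
  have h6 : 𝔠.res₁ k a - 𝔠.res₂ k b = n - (show 𝔠.R₁₂ k from n') :=
    (unit_δ_apply a b).symm.trans hab
  have h7 := (h6 ▸ good_of_unit j a b).add hg
  rwa [sub_add_cancel] at h7

/-- vanishing of `H¹(𝒪(j D_∞))` is stable under base change -/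
theorem good_of_base (j : ℕ) (h : ∀ n, Good 𝔠 k j n) (A : Type u) [CommRing A]
    [Algebra k A] (n : 𝔠.R₁₂ A) : Good 𝔠 A j n := by
  induction n using TensorProduct.induction_on with
  | zero => exact good_zero j
  | add x y hx hy => exact hx.add hy
  | tmul a b =>
    obtain ⟨u, v, huv⟩ := h ((1 : k) ⊗ₜ[k] b)
    let φ : k →ₐ[k] A := Algebra.ofId k A
    have h1 := congrArg (𝔠.bc₁₂ φ) huv
    rw [map_sub, map_mul, map_pow, ← Lift.res₁_bc₁, ← Lift.res₁_bc₁, ← Lift.res₂_bc₂,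
      Lift.bc₁_xA] at h1
    have h2 : 𝔠.bc₁₂ φ ((1 : k) ⊗ₜ[k] b) = (1 : A) ⊗ₜ[k] b := by
      simp [CurveCharts.bc₁₂]
    rw [h2] at h1
    have h3 : Good 𝔠 A j ((1 : A) ⊗ₜ[k] b) := ⟨_, _, h1⟩
    have h4 := h3.algebraMap_mul a
    rw [Algebra.TensorProduct.algebraMap_apply, Algebra.TensorProduct.tmul_mul_tmul] at h4
    simpa using h4

theorem exists_otw_surjective (𝔠 : CurveCharts k) : ∃ j : ℕ, ∀ (A : Type u) [CommRing A]
    [Algebra k A], Surjective (Otw 𝔠 A j).δ := by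
  obtain ⟨j, hj⟩ := exists_otw_surjective_base 𝔠
  exact ⟨j, fun A _ _ => (otw_surjective_iff j).mpr (good_of_base j hj A)⟩

end Serre

section Twist

variable {k : Type u} [Field k] [IsAlgClosed k] {𝔠 : CurveCharts k} {K : Type u} [Field K]
  [Algebra k K]

/-- `dim 𝒪 / 𝒪(-j D_∞)` -/
noncomputable def cInf (𝔠 : CurveCharts k) (j : ℕ) : ℕ :=
  Module.finrank k (𝔠.B₂ ⧸ Ideal.span {𝔠.y ^ j})

/-- if `χ(T)` is large, `T` has a nonzero section vanishing to order `j` at infinity -/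
theorem exists_section_of_lt_chi (T : Triple 𝔠 K) (hT : T.IsInvertible) (j : ℕ)
    (h : (cInf 𝔠 j : ℤ) < T.chi) :
    ∃ (n₁ : T.N₁) (n₂ : T.N₂), T.ρ₁ n₁ = (𝔠.res₂ K (𝔠.yA K)) ^ j • T.ρ₂ n₂ ∧ n₁ ≠ 0 := by
  have := 𝔠.isDomain_R₂ K
  have := hT.inv₂
  let S₂ : Submodule (𝔠.R₂ K) T.N₂ :=
    LinearMap.range (LinearMap.lsmul (𝔠.R₂ K) T.N₂ ((𝔠.yA K) ^ j))
  let Tm := T.sub ⊤ S₂ ⊤ (fun _ _ => trivial) (fun _ _ => trivial)
  let Qm := T.quot ⊤ S₂ ⊤ (fun _ _ => trivial) (fun _ _ => trivial)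
  have E : ShortExact (T.subHom ⊤ S₂ ⊤ (fun _ _ => trivial) (fun _ _ => trivial))
      (T.quotHom ⊤ S₂ ⊤ (fun _ _ => trivial) (fun _ _ => trivial)) :=
    shortExact_sub_quot T ⊤ S₂ ⊤ (fun _ _ => trivial) (fun _ _ => trivial)
  have s₁ : Subsingleton Qm.N₁ :=
    (inferInstance : Subsingleton (T.N₁ ⧸ (⊤ : Submodule (𝔠.R₁ K) T.N₁)))
  have s₁₂ : Subsingleton Qm.N₁₂ :=
    (inferInstance : Subsingleton (T.N₁₂ ⧸ (⊤ : Submodule (𝔠.R₁₂ K) T.N₁₂)))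
  let π : T.N₂ →ₗ[K] Qm.N₂ :=
    (T.quotHom ⊤ S₂ ⊤ (fun _ _ => trivial) (fun _ _ => trivial)).f₂.restrictScalars K
  have hπ : Surjective π := S₂.mkQ_surjective
  have hker : LinearMap.ker π = LinearMap.range (VanAlg.mulK K T.N₂ ((𝔠.yA K) ^ j)) := by
    ext n
    rw [LinearMap.mem_ker]
    show (Submodule.Quotient.mk n : T.N₂ ⧸ S₂) = 0 ↔ _
    rw [Submodule.Quotient.mk_eq_zero]
    rfl
  let e : (T.N₂ ⧸ LinearMap.range (VanAlg.mulK K T.N₂ ((𝔠.yA K) ^ j))) ≃ₗ[K] Qm.N₂ :=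
    (Submodule.quotEquivOfEq _ _ hker.symm).trans (π.quotKerEquivOfSurjective hπ)
  obtain ⟨hfin, hrank⟩ := VanAlg.finrank_coker_mulK (K := K) (M := T.N₂) (𝔠.yA K) (𝔠.finite_yA K)
    (pow_ne_zero j yA_ne_zero)
  have f₂ : Module.Finite K Qm.N₂ := Module.Finite.equiv e
  have hdim : Module.finrank K Qm.N₂ ≤ cInf 𝔠 j := by
    rw [← e.finrank_eq, hrank]
    have hy : (𝔠.yA K) ^ j = (1 : K) ⊗ₜ[k] (𝔠.y ^ j) := by
      rw [CurveCharts.yA, Algebra.TensorProduct.tmul_pow, one_pow]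
    rw [hy]
    have : Module.Finite k (𝔠.B₂ ⧸ Ideal.span {𝔠.y ^ j}) :=
      VanAlg.finite_quotient_of_ne_bot 𝔠.y 𝔠.fin₂ _ (by
        rw [Ne, Ideal.span_singleton_eq_bot]
        exact pow_ne_zero j (TensorAux.y_ne_zero 𝔠))
    exact VanAlg.finrank_coker_mulK_tensor_le (𝔠.y ^ j)
  have hQs : Surjective Qm.δ := fun n => ⟨0, Subsingleton.elim _ _⟩
  have hQf : Qm.FinCoh := finCoh_of_finite_of_surjective hQs
  have hQ0 := h0_of_finite_of_surjective hQs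
  have hQ1 := h1_eq_zero_of_surjective hQs
  have hTf := finCoh_of_isInvertible T hT
  have hTmf : Tm.FinCoh := E.finCoh_left hTf hQf
  have hchi : T.chi = Tm.chi + Qm.chi := E.chi_add hTmf hQf
  have z₁ : Module.finrank K Qm.N₁ = 0 := Module.finrank_zero_of_subsingleton
  have z₁₂ : Module.finrank K Qm.N₁₂ = 0 := Module.finrank_zero_of_subsingleton
  have hpos : 0 < Tm.h0 := by
    have e1 : Tm.chi = (Tm.h0 : ℤ) - Tm.h1 := rfl
    have e2 : Qm.chi = (Qm.h0 : ℤ) - Qm.h1 := rfl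
    omega
  have : Nontrivial (LinearMap.ker Tm.δ) := Module.nontrivial_of_finrank_pos hpos
  obtain ⟨⟨⟨⟨n₁, h₁⟩, ⟨_, ⟨n₂, rfl⟩⟩⟩, hz⟩, hne⟩ := exists_ne (0 : LinearMap.ker Tm.δ)
  have hz' : T.ρ₁ n₁ = T.ρ₂ ((𝔠.yA K) ^ j • n₂) := by
    rw [LinearMap.mem_ker, δ_apply] at hz
    have := congrArg Subtype.val (sub_eq_zero.mp hz)
    exact this
  refine ⟨n₁, n₂, ?_, ?_⟩
  · rw [hz', T.ρ₂.map_smulₛₗ, map_pow]
    rfl
  · rintro rfl
    rw [T.ρ₁.map_zero] at hz'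
    have h0 : (𝔠.yA K) ^ j • n₂ = 0 := ρ₂_eq_zero hT hz'.symm
    apply hne
    apply Subtype.ext
    exact Prod.ext rfl (Subtype.ext h0)

end Twist

end Van

variable {k : Type u} [Field k] [IsAlgClosed k] {𝔠 : CurveCharts k}

theorem chi_ge_of_h0_pos {K : Type u} [Field K] [Algebra k K] (T : Triple 𝔠 K)
    (hT : T.IsInvertible) (h : 0 < T.h0) : (unit 𝔠 K).chi ≤ T.chi := by
  have : Nontrivial (LinearMap.ker T.δ) := Module.nontrivial_of_finrank_pos h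
  obtain ⟨⟨⟨n₁, n₂⟩, hz⟩, hne⟩ := exists_ne (0 : LinearMap.ker T.δ)
  have hz' : T.ρ₁ n₁ = T.ρ₂ n₂ := by
    rw [LinearMap.mem_ker, δ_apply] at hz
    exact sub_eq_zero.mp hz
  have hn : n₁ ≠ 0 := by
    rintro rfl
    rw [T.ρ₁.map_zero] at hz'
    have h0 : n₂ = 0 := Van.ρ₂_eq_zero hT hz'.symm
    subst h0
    exact hne rfl
  have h1 := (Van.of_section T hT 0 n₁ n₂ (by rw [pow_zero, one_smul]; exact hz') hn).1
  rwa [(Van.otwZeroIso).chi_eq] at h1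

/-- uniform vanishing (no duality) -/
theorem exists_h1_vanishing (𝔠 : CurveCharts k) : ∃ m₀ : ℤ, ∀ (K : Type u) [Field K] [Algebra k K]
    (T : Triple 𝔠 K), T.IsInvertible → m₀ ≤ T.chi → T.h1 = 0 := by
  obtain ⟨j, hj⟩ := Van.exists_otw_surjective 𝔠
  refine ⟨(Van.cInf 𝔠 j : ℤ) + 1, fun K _ _ T hT h => ?_⟩
  obtain ⟨n₁, n₂, h1, h2⟩ := Van.exists_section_of_lt_chi T hT j (by omega)
  exact h1_eq_zero_of_surjective ((Van.of_section T hT j n₁ n₂ h1 h2).2 (hj K))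

end Fermat.Agent.S25
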